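/-
S43 / S38 (row 37), PROJECT R, block `Patch`, file `Avoid` (helper22).

**The Ihara-avoidance argument as ONE abstract theorem** (the interface of the two patched
systems), on top of `Patch/Support`.

Two systems over the same `S` (`= S_∞`):
* the unipotent one `(A₁, M₁)` (`A₁ = R_∞^1`, `M₁ = M_∞^1`) with the data of the support lemma:
  ideals `I i`, elements `g i`, the prime `P₀ = ⨆ i, I i` (unramified at every stuck prime);
* the `χ`-one `(Aχ, Mχ)` with a prime `𝔭` (`= ker Ψ_∞`, or `⊥` when `R_∞^χ` is a domain) such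
  that `dim Aχ/𝔭 ≤ dim S` and `𝔭 ≤ rad (Ann Mχ)`;
* the comparison modulo `lam`: a common quotient ring `Abar` of `A₁`, `Aχ` and a common quotient
  module `Mbar` of `M₁`, `Mχ` (semilinear), with `ker (Mχ → Mbar) ≤ lam • Mχ`;
* a prime `Qbar` of `Abar` (`= (P₀, lam)`) whose preimages contain `P₀` resp. `𝔭` and avoid the
  `g i`.

Conclusion `exists_unramified_point`: over every prime `𝔞` of `S` there is a prime of `A₁` in the
support of `M₁` containing `P₀`.
-/
import Fermat.Agent.S43.Patch.Support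

set_option autoImplicit false
set_option linter.style.haveILetI false

noncomputable section

namespace Fermat.Agent.S43.Patch.Avoid

open Ideal Fermat.Agent.S43.Patch.Support

variable {S : Type*} [CommRing S] [IsDomain S] [FiniteRingKrullDim S]

section Compare

variable {A Abar M Mbar : Type*} [CommRing A] [CommRing Abar] [AddCommGroup M] [Module A M]
  [AddCommGroup Mbar] [Module Abar Mbar]

/-- from the big ring to the common quotient: if `Q ∈ Supp M`, `lam ∈ Q` and the kernel of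
`M → Mbar` is inside `lam • M`, then the image prime is in the support of `Mbar`. -/
theorem annihilator_bar_le [Module.Finite A M] (π : A →+* Abar) (hπ : Function.Surjective π)
    (p : M →+ Mbar) (hps : ∀ (a : A) (m : M), p (a • m) = π a • p m) (lam : A)
    (hpk : ∀ m : M, p m = 0 → m ∈ (Ideal.span {lam} • ⊤ : Submodule A M))
    (Qbar : Ideal Abar) [Qbar.IsPrime] (hlam : lam ∈ Qbar.comap π)
    (hQ : Module.annihilator A M ≤ Qbar.comap π) : Module.annihilator Abar Mbar ≤ Qbar := by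
  intro abar habar
  obtain ⟨a, rfl⟩ := hπ abar
  -- `a` kills `M / lam M`
  have ha : a ∈ Module.annihilator A (M ⧸ (Ideal.span {lam} • ⊤ : Submodule A M)) := by
    rw [Module.mem_annihilator]
    intro x
    obtain ⟨m, rfl⟩ := Submodule.Quotient.mk_surjective _ x
    rw [← Submodule.Quotient.mk_smul, Submodule.Quotient.mk_eq_zero]
    apply hpk
    rw [hps, Module.mem_annihilator.mp habar]
  -- `Qbar.comap π` is in the support of `M / lam M`
  have hsupp : (⟨Qbar.comap π, Ideal.comap_isPrime _ _⟩ : PrimeSpectrum A) ∈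
      Module.support A (M ⧸ (Ideal.span {lam} • ⊤ : Submodule A M)) := by
    rw [Module.support_quotient]
    refine ⟨?_, ?_⟩
    · rw [Module.mem_support_iff_of_finite]
      exact hQ
    · rw [PrimeSpectrum.mem_zeroLocus]
      intro x hx
      exact (Ideal.span_le.mpr (Set.singleton_subset_iff.mpr hlam)) hx
  rw [Module.mem_support_iff_of_finite] at hsupp
  exact hsupp ha

/-- from the common quotient back to a big ring: the preimage of a prime of the support of `Mbar`
is in the support of `M`. -/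
theorem annihilator_le_comap (π : A →+* Abar) (p : M →+ Mbar) (hp : Function.Surjective p)
    (hps : ∀ (a : A) (m : M), p (a • m) = π a • p m) (Qbar : Ideal Abar)
    (hQ : Module.annihilator Abar Mbar ≤ Qbar) : Module.annihilator A M ≤ Qbar.comap π := by
  intro a ha
  rw [Ideal.mem_comap]
  apply hQ
  rw [Module.mem_annihilator]
  intro mbar
  obtain ⟨m, rfl⟩ := hp mbar
  rw [← hps, Module.mem_annihilator.mp ha, map_zero]

end Compare

variable {A₁ Aχ Abar M₁ Mχ Mbar : Type*} [CommRing A₁] [CommRing Aχ] [CommRing Abar]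
  [Algebra S A₁] [Algebra S Aχ] [IsNoetherianRing A₁] [IsNoetherianRing Aχ]
  [AddCommGroup M₁] [Module A₁ M₁] [Module S M₁] [IsScalarTower S A₁ M₁]
  [Module.Finite S M₁] [Module.Free S M₁]
  [AddCommGroup Mχ] [Module Aχ Mχ] [Module S Mχ] [IsScalarTower S Aχ Mχ]
  [Module.Finite S Mχ] [Module.Free S Mχ] [Nontrivial Mχ]
  [AddCommGroup Mbar] [Module Abar Mbar]

/-- **Ihara avoidance, abstract form.** -/
theorem exists_unramified_point
    -- the unipotent system
    {ι : Type*} (I : ι → Ideal A₁) (g : ι → A₁) (P₀ : Ideal A₁) [P₀.IsPrime]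
    (hP₀ : P₀ = ⨆ i, I i) (hdim₁ : ringKrullDim (A₁ ⧸ P₀) ≤ ringKrullDim S)
    (hIg : ∀ i, ∀ a ∈ I i, IsNilpotent (a * g i))
    -- the `χ`-system
    (𝔭 : Ideal Aχ) [𝔭.IsPrime] (hdimχ : ringKrullDim (Aχ ⧸ 𝔭) ≤ ringKrullDim S)
    (h𝔭 : 𝔭 ≤ (Module.annihilator Aχ Mχ).radical)
    -- the comparison modulo `lam`
    (lam : S) (π₁ : A₁ →+* Abar) (πχ : Aχ →+* Abar) (hπχ : Function.Surjective πχ)
    (hπχlam : πχ (algebraMap S Aχ lam) = 0)
    (p₁ : M₁ →+ Mbar) (hp₁ : Function.Surjective p₁)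
    (hp₁s : ∀ (a : A₁) (m : M₁), p₁ (a • m) = π₁ a • p₁ m)
    (pχ : Mχ →+ Mbar) (hpχs : ∀ (a : Aχ) (m : Mχ), pχ (a • m) = πχ a • pχ m)
    (hpχk : ∀ m : Mχ, pχ m = 0 →
      m ∈ (Ideal.span {algebraMap S Aχ lam} • ⊤ : Submodule Aχ Mχ))
    -- the prime `(P₀, lam)`
    (Qbar : Ideal Abar) [Qbar.IsPrime] (h𝔭Q : 𝔭 ≤ Qbar.comap πχ)
    (hgQ : ∀ i, π₁ (g i) ∉ Qbar)
    -- the point of `S`
    (𝔞 : Ideal S) [𝔞.IsPrime] :
    ∃ 𝔮 : Ideal A₁, 𝔮.IsPrime ∧ P₀ ≤ 𝔮 ∧ Module.annihilator A₁ M₁ ≤ 𝔮 ∧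
      𝔮.comap (algebraMap S A₁) = 𝔞 := by
  haveI : Module.Finite Aχ Mχ := Module.Finite.of_restrictScalars_finite S Aχ Mχ
  -- `χ`-side: full support on `V(𝔭)`
  have h1 : Module.annihilator Aχ Mχ ≤ 𝔭 :=
    annihilator_le_of_le_radical (S := S) 𝔭 hdimχ h𝔭
  -- pass to the common quotient
  have h2 : Module.annihilator Abar Mbar ≤ Qbar :=
    annihilator_bar_le πχ hπχ pχ hpχs (algebraMap S Aχ lam) hpχk Qbar
      (by rw [Ideal.mem_comap, hπχlam]; exact zero_mem _) (h1.trans h𝔭Q)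
  -- and back to the unipotent system
  have h3 : Module.annihilator A₁ M₁ ≤ Qbar.comap π₁ :=
    annihilator_le_comap π₁ p₁ hp₁ hp₁s Qbar h2
  haveI : (Qbar.comap π₁).IsPrime := Ideal.comap_isPrime _ _
  exact exists_prime_over (S := S) I g P₀ (Qbar.comap π₁) hP₀ hdim₁ hIg
    (fun i h => hgQ i h) h3 𝔞

end Fermat.Agent.S43.Patch.Avoid
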