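/-
S43 (row 37), PROJECT R, block `Patch`, file `PMod` (helper29): N5, THE PATCHED MODULE
`S^d` WITH `A` ACTING THROUGH A MATRIX REPRESENTATION `ρ : A →+* M_d(S)`.

`Carrier ρ` is `Fin d → S` with its `S`-module structure and `a • v = (ρ a).mulVec v`.
Finite free over `S`; scalar tower `S → A → Carrier ρ` as soon as `ρ (algebraMap s) = s • 1`;
reduction maps `redMap f : Carrier ρ → Carrier ρ'` along a ring map `f : S → S'`, semilinear for
`a ↦ a'` whenever `(ρ a).map f = ρ' a'`; elements with coordinates in `𝔞` lie in `𝔞 A • ⊤`.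
-/
import Mathlib

set_option autoImplicit false

noncomputable section

namespace Fermat.Agent.S43.Patch.PMod

variable {S A : Type*} [CommRing S] [CommRing A] {d : ℕ}

/-- `S^d` with `A` acting through `ρ`. -/
def Carrier (_ρ : A →+* Matrix (Fin d) (Fin d) S) : Type _ := Fin d → S

variable (ρ : A →+* Matrix (Fin d) (Fin d) S)

instance : AddCommGroup (Carrier ρ) := inferInstanceAs (AddCommGroup (Fin d → S))

instance : Module S (Carrier ρ) := inferInstanceAs (Module S (Fin d → S))

instance : Module.Finite S (Carrier ρ) := inferInstanceAs (Module.Finite S (Fin d → S))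

instance : Module.Free S (Carrier ρ) := inferInstanceAs (Module.Free S (Fin d → S))

/-- the underlying vector. -/
def toFun (v : Carrier ρ) : Fin d → S := v

/-- the element with a given underlying vector. -/
def ofFun (v : Fin d → S) : Carrier ρ := v

instance : Module A (Carrier ρ) where
  smul a v := ofFun ρ ((ρ a).mulVec (toFun ρ v))
  one_smul v := by
    change (ρ 1).mulVec (toFun ρ v) = v
    rw [map_one, Matrix.one_mulVec]
    rfl
  mul_smul a b v := by
    change (ρ (a * b)).mulVec (toFun ρ v) = (ρ a).mulVec ((ρ b).mulVec (toFun ρ v))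
    rw [map_mul, Matrix.mulVec_mulVec]
  smul_zero a := by
    change (ρ a).mulVec (0 : Fin d → S) = 0
    exact Matrix.mulVec_zero _
  smul_add a v w := by
    change (ρ a).mulVec (toFun ρ v + toFun ρ w) =
      (ρ a).mulVec (toFun ρ v) + (ρ a).mulVec (toFun ρ w)
    exact Matrix.mulVec_add _ _ _
  add_smul a b v := by
    change (ρ (a + b)).mulVec (toFun ρ v) = (ρ a).mulVec (toFun ρ v) + (ρ b).mulVec (toFun ρ v)
    rw [map_add, Matrix.add_mulVec]
  zero_smul v := by
    change (ρ 0).mulVec (toFun ρ v) = 0
    rw [map_zero, Matrix.zero_mulVec]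

theorem smul_def (a : A) (v : Carrier ρ) : a • v = ofFun ρ ((ρ a).mulVec (toFun ρ v)) := rfl

theorem smul_apply (a : A) (v : Carrier ρ) (i : Fin d) :
    (a • v) i = ∑ j, ρ a i j * v j := rfl

theorem smulS_apply (s : S) (v : Carrier ρ) (i : Fin d) : (s • v) i = s * v i := rfl

theorem nontrivial [Nontrivial S] (hd : 0 < d) : Nontrivial (Carrier ρ) := by
  have : Nonempty (Fin d) := ⟨⟨0, hd⟩⟩
  exact inferInstanceAs (Nontrivial (Fin d → S))

/-- the scalar tower `S → A → Carrier ρ`. -/
theorem isScalarTower [Algebra S A]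
    (h : ∀ s : S, ρ (algebraMap S A s) = s • (1 : Matrix (Fin d) (Fin d) S)) :
    IsScalarTower S A (Carrier ρ) := by
  refine ⟨fun s a v => ?_⟩
  rw [Algebra.smul_def, smul_def, map_mul, h, Matrix.smul_mul, Matrix.one_mul,
    Matrix.smul_mulVec]
  rfl

/-- the `A`-action is `S`-linear. -/
theorem algebraMap_smul [Algebra S A]
    (h : ∀ s : S, ρ (algebraMap S A s) = s • (1 : Matrix (Fin d) (Fin d) S)) (s : S)
    (v : Carrier ρ) : algebraMap S A s • v = s • v := by
  rw [smul_def, h, Matrix.smul_mulVec, Matrix.one_mulVec]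
  rfl

/-- a vector with coordinates in `𝔞` lies in `𝔞 A • ⊤`. -/
theorem mem_smul_top_of_forall_mem [Algebra S A]
    (h : ∀ s : S, ρ (algebraMap S A s) = s • (1 : Matrix (Fin d) (Fin d) S)) (𝔞 : Ideal S)
    (v : Carrier ρ) (hv : ∀ i, v i ∈ 𝔞) :
    v ∈ (𝔞.map (algebraMap S A) • ⊤ : Submodule A (Carrier ρ)) := by
  classical
  have h1 : v = ∑ i, algebraMap S A (v i) • (ofFun ρ (Pi.single i 1) : Carrier ρ) := by
    have h2 : ∀ i, algebraMap S A (v i) • (ofFun ρ (Pi.single i 1) : Carrier ρ) =
        ofFun ρ (Pi.single i (v i)) := by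
      intro i
      rw [algebraMap_smul ρ h]
      funext j
      change v i * (Pi.single i (1 : S) : Fin d → S) j = (Pi.single i (v i) : Fin d → S) j
      by_cases hij : j = i
      · subst hij; simp
      · rw [Pi.single_eq_of_ne hij, Pi.single_eq_of_ne hij, mul_zero]
    simp only [h2]
    funext j
    have h3 : (∑ i, (ofFun ρ (Pi.single i (v i)) : Carrier ρ)) j =
        ∑ i, (Pi.single i (v i) : Fin d → S) j := by
      change (∑ i, (Pi.single i (v i) : Fin d → S)) j = _
      rw [Finset.sum_apply]
    rw [h3, Finset.sum_eq_single j]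
    · simp
    · intro i _ hij
      rw [Pi.single_eq_of_ne (Ne.symm hij)]
    · intro hj
      exact absurd (Finset.mem_univ j) hj
  rw [h1]
  exact Submodule.sum_mem _ fun i _ =>
    Submodule.smul_mem_smul (Ideal.mem_map_of_mem _ (hv i)) Submodule.mem_top

section Red

variable {S' A' : Type*} [CommRing S'] [CommRing A'] (ρ' : A' →+* Matrix (Fin d) (Fin d) S')
  (f : S →+* S')

/-- coordinatewise reduction along `f : S →+* S'`. -/
def redMap : Carrier ρ →+ Carrier ρ' where
  toFun v := ofFun ρ' fun i => f (v i)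
  map_zero' := by
    funext i
    exact map_zero f
  map_add' v w := by
    funext i
    exact map_add f (v i) (w i)

theorem redMap_apply (v : Carrier ρ) (i : Fin d) : redMap ρ ρ' f v i = f (v i) := rfl

theorem redMap_surjective (hf : Function.Surjective f) :
    Function.Surjective (redMap ρ ρ' f) := by
  intro w
  choose v hv using fun i => hf (w i)
  exact ⟨ofFun ρ v, funext hv⟩

theorem redMap_smul {a : A} {a' : A'} (h : (ρ a).map f = ρ' a') (v : Carrier ρ) :
    redMap ρ ρ' f (a • v) = a' • redMap ρ ρ' f v := by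
  funext i
  rw [redMap_apply, smul_apply, smul_apply, map_sum]
  refine Finset.sum_congr rfl fun j _ => ?_
  rw [map_mul, redMap_apply, ← h, Matrix.map_apply]

end Red

end Fermat.Agent.S43.Patch.PMod
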