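/-
S43 (row 37), PROJECT R, block `Patch`, file `Level` (helper29): N5, THE INPUT OF THE PATCHING OF
TWO MODULE SYSTEMS = what the Hecke / Galois producers owe at every finite level `n`.

Ambient (fixed once): `S` (`= S_∞ = O⟦y_1..y_s⟧`) with an ideal `mS` (its maximal ideal), the two
big rings `A₁` (`= R_∞^1`), `Aχ` (`= R_∞^χ`) with a common quotient `π₁ : A₁ →+* Abar`,
`πχ : Aχ →+* Abar` (`= R_∞^1/λ = R_∞^χ/λ`), an element `lam : S` and its images `lam₁ : A₁`,
`lamχ : Aχ` (the uniformiser; the level maps `S → A` are `O`-linear), an ideal `𝔞 : Ideal S`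
(the augmentation ideal), the level-zero module `M0` (an `A₁`-module and an `S`-module, `= ` the
Hecke module of level `N'`), the rank `d`.

A `Datum … n` consists of
* an `A₁`-module `N₁` and an `Aχ`-module `Nχ` (`= M^□_{Q_n}` for the two types), both also
  `S`-modules, the `S`-action factoring through ring maps `φ₁ : S →+* A₁`, `φχ : S →+* Aχ`;
* both are free of rank `d` modulo `mS ^ n` (`IsBasisMod`, stated without quotient types);
* a common reduction `q₁ : N₁ → Nb ← Nχ : qχ` modulo `lam`, onto, semilinear for `π₁`, `πχ`,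
  with kernels inside `lam • N`;
* `p₀ : N₁ → M0` onto, `A₁`-linear and `S`-linear, with kernel inside `𝔞 • N₁`.
Nothing about freeness over `A`, depth or multiplicities is asked.
-/
import Mathlib

set_option autoImplicit false

noncomputable section

namespace Fermat.Agent.S43.Patch.Level

universe u

/-- `b` is a basis of `N / J N` over `S / J`, stated without quotients. -/
def IsBasisMod {S : Type*} [CommRing S] {N : Type*} [AddCommGroup N] [Module S N] (J : Ideal S)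
    {d : ℕ} (b : Fin d → N) : Prop :=
  (∀ x : N, ∃ c : Fin d → S, x - ∑ i, c i • b i ∈ (J • ⊤ : Submodule S N)) ∧
    ∀ c : Fin d → S, ∑ i, c i • b i ∈ (J • ⊤ : Submodule S N) → ∀ i, c i ∈ J

/-- the data of the two module systems at level `n`. -/
structure Datum (S A₁ Aχ Abar : Type*) [CommRing S] [CommRing A₁] [CommRing Aχ] [CommRing Abar]
    (mS : Ideal S) (π₁ : A₁ →+* Abar) (πχ : Aχ →+* Abar) (lam : S) (lam₁ : A₁) (lamχ : Aχ)
    (𝔞 : Ideal S) (M0 : Type*) [AddCommGroup M0] [Module S M0] [Module A₁ M0] (d : ℕ) (n : ℕ) where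
  /-- the unipotent module -/
  N₁ : Type u
  /-- the `χ`-module -/
  Nχ : Type u
  /-- their common reduction modulo `lam` -/
  Nb : Type u
  [acg₁ : AddCommGroup N₁]
  [acgχ : AddCommGroup Nχ]
  [acgb : AddCommGroup Nb]
  [modS₁ : Module S N₁]
  [modSχ : Module S Nχ]
  [modSb : Module S Nb]
  [modA₁ : Module A₁ N₁]
  [modAχ : Module Aχ Nχ]
  [modAb : Module Abar Nb]
  /-- `S → R_∞^1` at level `n` -/
  φ₁ : S →+* A₁
  /-- `S → R_∞^χ` at level `n` -/
  φχ : S →+* Aχ
  φ₁_smul : ∀ (s : S) (x : N₁), φ₁ s • x = s • x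
  φχ_smul : ∀ (s : S) (x : Nχ), φχ s • x = s • x
  φ₁_lam : φ₁ lam = lam₁
  φχ_lam : φχ lam = lamχ
  free₁ : ∃ b : Fin d → N₁, IsBasisMod (mS ^ n) b
  freeχ : ∃ b : Fin d → Nχ, IsBasisMod (mS ^ n) b
  /-- reduction of the unipotent module -/
  q₁ : N₁ →ₗ[S] Nb
  /-- reduction of the `χ`-module -/
  qχ : Nχ →ₗ[S] Nb
  q₁_surj : Function.Surjective q₁
  qχ_surj : Function.Surjective qχ
  q₁_ker : ∀ x : N₁, q₁ x = 0 → x ∈ (Ideal.span {lam} • ⊤ : Submodule S N₁)
  qχ_ker : ∀ x : Nχ, qχ x = 0 → x ∈ (Ideal.span {lam} • ⊤ : Submodule S Nχ)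
  q₁_smul : ∀ (a : A₁) (x : N₁), q₁ (a • x) = π₁ a • q₁ x
  qχ_smul : ∀ (a : Aχ) (x : Nχ), qχ (a • x) = πχ a • qχ x
  /-- the map to level zero -/
  p₀ : N₁ →ₗ[S] M0
  p₀_surj : Function.Surjective p₀
  p₀_ker : ∀ x : N₁, p₀ x = 0 → x ∈ (𝔞 • ⊤ : Submodule S N₁)
  p₀_smul : ∀ (a : A₁) (x : N₁), p₀ (a • x) = a • p₀ x

attribute [instance] Datum.acg₁ Datum.acgχ Datum.acgb Datum.modS₁ Datum.modSχ Datum.modSb
  Datum.modA₁ Datum.modAχ Datum.modAb

end Fermat.Agent.S43.Patch.Level
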