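/-
S43 (row 37), PROJECT R, block `Patch`, file `Basis` (helper29): N5, linear algebra modulo an
ideal `J` WITHOUT quotient types.

`N` an `S`-module, `b : Fin d → N`.  `Expands J b x c` says `x ≡ ∑ c i • b i` modulo `J • N`;
`IsBasisMod J b` (file `Level`) says that every `x` expands, uniquely modulo `J`.

* `Expands` is linear, functorial, transitive (`Expands.trans` = change of coordinates), unique for
  a basis (`IsBasisMod.sub_mem`).
* `IsBasisMod.mono` : a basis modulo `J` is a basis modulo every `J' ≥ J`.
* `IsBasisMod.of_spans` (**Nakayama**) : over a local ring, `d` elements which span modulo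
  `K ⊔ J`, `K` inside the maximal ideal, form a basis modulo `J` as soon as some basis of `d`
  elements modulo `J` exists.
* `Rep J b T X` : the matrix `X` represents the endomorphism `T` in the basis `b` modulo `J`;
  `Rep.comp`, `Rep.add`, `Rep.smul_id`, uniqueness `Rep.sub_mem`.
-/
import Fermat.Agent.S43.Patch.Level

set_option autoImplicit false

noncomputable section

namespace Fermat.Agent.S43.Patch.Basis

open Fermat.Agent.S43.Patch.Level

variable {S : Type*} [CommRing S] {N : Type*} [AddCommGroup N] [Module S N]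
  {N' : Type*} [AddCommGroup N'] [Module S N'] {J : Ideal S} {d : ℕ}

/-- `x ≡ ∑ c i • b i` modulo `J • N`. -/
def Expands (J : Ideal S) (b : Fin d → N) (x : N) (c : Fin d → S) : Prop :=
  x - ∑ i, c i • b i ∈ (J • ⊤ : Submodule S N)

theorem expands_iff {b : Fin d → N} {x : N} {c : Fin d → S} :
    Expands J b x c ↔ x - ∑ i, c i • b i ∈ (J • ⊤ : Submodule S N) := Iff.rfl

theorem map_mem_smul_top (f : N →ₗ[S] N') {x : N} (hx : x ∈ (J • ⊤ : Submodule S N)) :
    f x ∈ (J • ⊤ : Submodule S N') := by
  have h1 : f x ∈ Submodule.map f (J • ⊤ : Submodule S N) := Submodule.mem_map_of_mem hx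
  rw [Submodule.map_smul''] at h1
  exact Submodule.smul_mono le_rfl le_top h1

theorem exists_of_mem_smul_top_of_surjective (f : N →ₗ[S] N') (hf : Function.Surjective f)
    {y : N'} (hy : y ∈ (J • ⊤ : Submodule S N')) :
    ∃ x ∈ (J • ⊤ : Submodule S N), f x = y := by
  have h1 : (J • ⊤ : Submodule S N') = Submodule.map f (J • ⊤ : Submodule S N) := by
    rw [Submodule.map_smul'', Submodule.map_top, LinearMap.range_eq_top.mpr hf]
  rw [h1] at hy
  obtain ⟨x, hx, rfl⟩ := hy
  exact ⟨x, hx, rfl⟩

theorem smul_mem_smul_top_of_mem {s : S} (hs : s ∈ J) (x : N) :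
    s • x ∈ (J • ⊤ : Submodule S N) :=
  Submodule.smul_mem_smul hs Submodule.mem_top

namespace Expands

variable {b : Fin d → N}

theorem mono {J' : Ideal S} (hJ : J ≤ J') {x : N} {c : Fin d → S} (h : Expands J b x c) :
    Expands J' b x c :=
  Submodule.smul_mono_left hJ h

theorem self (j : Fin d) : Expands J b (b j) (Pi.single j 1) := by
  classical
  rw [expands_iff]
  have : ∑ i, (Pi.single j (1 : S) : Fin d → S) i • b i = b j := by
    rw [Finset.sum_eq_single j]
    · simp
    · intro i _ hij
      simp [Pi.single_eq_of_ne hij]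
    · intro h
      exact absurd (Finset.mem_univ j) h
  rw [this, sub_self]
  exact Submodule.zero_mem _

theorem zero : Expands J b (0 : N) (0 : Fin d → S) := by
  rw [expands_iff]
  simp

theorem of_mem {x : N} (hx : x ∈ (J • ⊤ : Submodule S N)) : Expands J b x (0 : Fin d → S) := by
  rw [expands_iff]
  simpa using hx

theorem add {x x' : N} {c c' : Fin d → S} (h : Expands J b x c) (h' : Expands J b x' c') :
    Expands J b (x + x') (c + c') := by
  rw [expands_iff] at *
  have : x + x' - ∑ i, (c + c') i • b i = (x - ∑ i, c i • b i) + (x' - ∑ i, c' i • b i) := by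
    simp only [Pi.add_apply, add_smul, Finset.sum_add_distrib]
    abel
  rw [this]
  exact Submodule.add_mem _ h h'

theorem smul (s : S) {x : N} {c : Fin d → S} (h : Expands J b x c) :
    Expands J b (s • x) (s • c) := by
  rw [expands_iff] at *
  have : s • x - ∑ i, (s • c) i • b i = s • (x - ∑ i, c i • b i) := by
    simp only [Pi.smul_apply, smul_eq_mul, mul_smul, smul_sub, Finset.smul_sum]
  rw [this]
  exact Submodule.smul_mem _ s h

theorem neg {x : N} {c : Fin d → S} (h : Expands J b x c) : Expands J b (-x) (-c) := by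
  have := h.smul (-1 : S)
  simpa using this

theorem sub {x x' : N} {c c' : Fin d → S} (h : Expands J b x c) (h' : Expands J b x' c') :
    Expands J b (x - x') (c - c') := by
  simpa [sub_eq_add_neg] using h.add h'.neg

theorem sum {ι : Type*} (s : Finset ι) {x : ι → N} {c : ι → Fin d → S}
    (h : ∀ k ∈ s, Expands J b (x k) (c k)) : Expands J b (∑ k ∈ s, x k) (∑ k ∈ s, c k) := by
  classical
  induction s using Finset.induction_on with
  | empty => simpa using zero (J := J) (b := b)
  | insert a s ha ih =>
    rw [Finset.sum_insert ha, Finset.sum_insert ha]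
    exact (h a (Finset.mem_insert_self a s)).add
      (ih fun k hk => h k (Finset.mem_insert_of_mem hk))

/-- functoriality. -/
theorem map (f : N →ₗ[S] N') {x : N} {c : Fin d → S} (h : Expands J b x c) :
    Expands J (fun i => f (b i)) (f x) c := by
  rw [expands_iff] at *
  have := map_mem_smul_top f h
  simpa [map_sub, map_sum, map_smul] using this

/-- change of coordinates: if `b' j ≡ ∑ P i j • b i` and `x ≡ ∑ c j • b' j` then
`x ≡ ∑ (P c) i • b i`. -/
theorem trans {b' : Fin d → N} {P : Matrix (Fin d) (Fin d) S}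
    (hP : ∀ j, Expands J b (b' j) (fun i => P i j)) {x : N} {c : Fin d → S}
    (h : Expands J b' x c) : Expands J b x (P.mulVec c) := by
  -- `∑ c j • b' j ≡ ∑ (P c) i • b i`
  have h1 : Expands J b (∑ j, c j • b' j) (∑ j, c j • fun i => P i j) :=
    Expands.sum Finset.univ fun j _ => (hP j).smul (c j)
  have h2 : (∑ j, c j • fun i => P i j) = P.mulVec c := by
    funext i
    simp only [Finset.sum_apply, Pi.smul_apply, smul_eq_mul, Matrix.mulVec, dotProduct]
    exact Finset.sum_congr rfl fun j _ => mul_comm _ _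
  rw [h2] at h1
  rw [expands_iff] at *
  have : x - ∑ i, P.mulVec c i • b i =
      (x - ∑ j, c j • b' j) + (∑ j, c j • b' j - ∑ i, P.mulVec c i • b i) := by abel
  rw [this]
  exact Submodule.add_mem _ h h1

end Expands

namespace IsBasisMod

variable {b : Fin d → N}

theorem exists_expands (hb : IsBasisMod J b) (x : N) : ∃ c, Expands J b x c := hb.1 x

/-- uniqueness of the coordinates modulo `J`. -/
theorem sub_mem (hb : IsBasisMod J b) {x : N} {c c' : Fin d → S} (h : Expands J b x c)
    (h' : Expands J b x c') (i : Fin d) : c i - c' i ∈ J := by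
  have h1 : Expands J b (x - x) (c' - c) := h'.sub h
  rw [sub_self, expands_iff, zero_sub, Submodule.neg_mem_iff] at h1
  have h2 := hb.2 (c' - c) h1 i
  have : c i - c' i = -((c' - c) i) := by simp
  rw [this]
  exact J.neg_mem h2

theorem mem_of_expands_mem (hb : IsBasisMod J b) {x : N} (hx : x ∈ (J • ⊤ : Submodule S N))
    {c : Fin d → S} (h : Expands J b x c) (i : Fin d) : c i ∈ J := by
  have := IsBasisMod.sub_mem hb h (Expands.of_mem hx) i
  simpa using this

/-- every element of `J' • N` expands with coordinates in `J'`, modulo `J • N`. -/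
theorem exists_expands_mem (hb : IsBasisMod J b) (J' : Ideal S) {y : N}
    (hy : y ∈ (J' • ⊤ : Submodule S N)) :
    ∃ c : Fin d → S, (∀ i, c i ∈ J') ∧ Expands J b y c := by
  refine Submodule.smul_induction_on
    (p := fun y => ∃ c : Fin d → S, (∀ i, c i ∈ J') ∧ Expands J b y c) hy ?_ ?_
  · intro r hr n _
    obtain ⟨c, hc⟩ := hb.1 n
    exact ⟨r • c, fun i => by simpa using J'.mul_mem_right (c i) hr, Expands.smul r hc⟩
  · rintro x y ⟨c, hc1, hc2⟩ ⟨c', hc1', hc2'⟩
    exact ⟨c + c', fun i => J'.add_mem (hc1 i) (hc1' i), hc2.add hc2'⟩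

/-- a basis modulo `J` is a basis modulo every bigger ideal. -/
theorem mono (hb : IsBasisMod J b) {J' : Ideal S} (hJ : J ≤ J') : IsBasisMod J' b := by
  refine ⟨fun x => ?_, fun c hc i => ?_⟩
  · obtain ⟨c, hc⟩ := hb.1 x
    exact ⟨c, Submodule.smul_mono_left hJ hc⟩
  · obtain ⟨c', hc1, hc2⟩ := IsBasisMod.exists_expands_mem hb J' hc
    have h1 : Expands J b (∑ i, c i • b i) c := by
      rw [expands_iff, sub_self]
      exact Submodule.zero_mem _
    have h2 := IsBasisMod.sub_mem hb h1 hc2 i
    have : c i = (c i - c' i) + c' i := by ring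
    rw [this]
    exact J'.add_mem (hJ h2) (hc1 i)

/-- the coordinates of an element of `J' • N` lie in `J'` (for `J ≤ J'`). -/
theorem mem_of_expands_mem' (hb : IsBasisMod J b) {J' : Ideal S} (hJ : J ≤ J') {x : N}
    (hx : x ∈ (J' • ⊤ : Submodule S N)) {c : Fin d → S} (h : Expands J b x c) (i : Fin d) :
    c i ∈ J' :=
  IsBasisMod.mem_of_expands_mem (IsBasisMod.mono hb hJ) hx (h.mono hJ) i

end IsBasisMod

section Nakayama

variable [IsLocalRing S] {b b' : Fin d → N}

/-- **Nakayama**: a family which spans modulo `K ⊔ J` (`K` in the maximal ideal) spans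
modulo `J`, when `N / J N` is finitely generated. -/
theorem spans_of_spans_sup (hb : IsBasisMod J b) (K : Ideal S)
    (hK : K ≤ IsLocalRing.maximalIdeal S)
    (hb' : ∀ x : N, ∃ c : Fin d → S, Expands (K ⊔ J) b' x c) (x : N) :
    ∃ c : Fin d → S, Expands J b' x c := by
  let Nbar := N ⧸ (J • ⊤ : Submodule S N)
  let mk : N →ₗ[S] Nbar := (J • ⊤ : Submodule S N).mkQ
  let P : Submodule S Nbar := Submodule.span S (Set.range fun i => mk (b' i))
  classical
  -- `Nbar` is finitely generated
  have hfg : (⊤ : Submodule S Nbar).FG := by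
    refine ⟨Finset.univ.image fun i => mk (b i), ?_⟩
    rw [eq_top_iff]
    rintro y -
    obtain ⟨x, rfl⟩ := Submodule.mkQ_surjective _ y
    obtain ⟨c, hc⟩ := hb.1 x
    have h1 : mk x = ∑ i, c i • mk (b i) := by
      have : mk (x - ∑ i, c i • b i) = 0 := by
        rw [Submodule.mkQ_apply, Submodule.Quotient.mk_eq_zero]
        exact hc
      rw [map_sub, sub_eq_zero, map_sum] at this
      simpa [map_smul] using this
    change mk x ∈ _
    rw [h1]
    refine Submodule.sum_mem _ fun i _ => Submodule.smul_mem _ _ (Submodule.subset_span ?_)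
    simp
  have hsup : (⊤ : Submodule S Nbar) ≤ P ⊔ K • ⊤ := by
    rintro y -
    obtain ⟨x, rfl⟩ := Submodule.mkQ_surjective _ y
    obtain ⟨c, hc⟩ := hb' x
    rw [expands_iff, Submodule.sup_smul] at hc
    obtain ⟨u, hu, v, hv, huv⟩ := Submodule.mem_sup.mp hc
    have h1 : mk x = ∑ i, c i • mk (b' i) + mk u := by
      have h2 : mk v = 0 := by
        rw [Submodule.mkQ_apply, Submodule.Quotient.mk_eq_zero]
        exact hv
      have h3 : mk (x - ∑ i, c i • b' i) = mk u + mk v := by rw [← huv, map_add]
      rw [h2, add_zero, map_sub, map_sum] at h3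
      have h4 : mk x = mk u + ∑ i, mk (c i • b' i) := by
        rw [← h3]; abel
      rw [h4, add_comm]
      simp [map_smul]
    change mk x ∈ _
    rw [h1]
    refine Submodule.add_mem _ (Submodule.mem_sup_left ?_) (Submodule.mem_sup_right ?_)
    · refine Submodule.sum_mem _ fun i _ => Submodule.smul_mem _ _ (Submodule.subset_span ?_)
      exact ⟨i, rfl⟩
    · exact map_mem_smul_top mk hu
  have hjac : K ≤ Ideal.jacobson (⊥ : Ideal S) := by
    rw [IsLocalRing.jacobson_eq_maximalIdeal ⊥ bot_ne_top]
    exact hK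
  have htop : (⊤ : Submodule S Nbar) ≤ P :=
    Submodule.le_of_le_smul_of_le_jacobson_bot hfg hjac hsup
  have hx : mk x ∈ P := htop Submodule.mem_top
  obtain ⟨c, hc⟩ := (Submodule.mem_span_range_iff_exists_fun S).mp hx
  refine ⟨c, ?_⟩
  rw [expands_iff, ← Submodule.Quotient.mk_eq_zero, ← Submodule.mkQ_apply]
  change mk (x - ∑ i, c i • b' i) = 0
  rw [map_sub, map_sum, sub_eq_zero, ← hc]
  simp [map_smul]

/-- **Nakayama + invertibility of square matrices**: `d` elements which span modulo `K ⊔ J`
(`K` in the maximal ideal) form a basis modulo `J`, if some basis of `d` elements exists. -/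
theorem IsBasisMod.of_spans (hb : IsBasisMod J b) (K : Ideal S)
    (hK : K ≤ IsLocalRing.maximalIdeal S)
    (hb' : ∀ x : N, ∃ c : Fin d → S, Expands (K ⊔ J) b' x c) : IsBasisMod J b' := by
  classical
  have hspan := spans_of_spans_sup hb K hK hb'
  refine ⟨hspan, fun c hc i => ?_⟩
  -- the two change of basis matrices
  choose P' hP' using fun j => hb.1 (b' j)
  choose Q' hQ' using fun j => hspan (b j)
  let P : Matrix (Fin d) (Fin d) S := Matrix.of fun i j => P' j i
  let Q : Matrix (Fin d) (Fin d) S := Matrix.of fun i j => Q' j i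
  have hP : ∀ j, Expands J b (b' j) (fun i => P i j) := hP'
  have hQ : ∀ j, Expands J b' (b j) (fun i => Q i j) := hQ'
  -- `P * Q ≡ 1`
  have hPQ : ∀ i k, (P * Q) i k - (1 : Matrix (Fin d) (Fin d) S) i k ∈ J := by
    intro i k
    have h1 : Expands J b (b k) (P.mulVec fun i => Q i k) := Expands.trans hP (hQ k)
    have h2 := IsBasisMod.sub_mem hb h1 (Expands.self k) i
    have h3 : P.mulVec (fun i => Q i k) i = (P * Q) i k := by
      simp [Matrix.mulVec, dotProduct, Matrix.mul_apply]
    have h4 : (Pi.single k (1 : S) : Fin d → S) i = (1 : Matrix (Fin d) (Fin d) S) i k := by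
      rw [Matrix.one_apply]
      by_cases hik : i = k
      · subst hik; simp
      · rw [if_neg hik, Pi.single_eq_of_ne hik]
    rw [h3, h4] at h2
    exact h2
  let red : Matrix (Fin d) (Fin d) S →+* Matrix (Fin d) (Fin d) (S ⧸ J) :=
    (Ideal.Quotient.mk J).mapMatrix
  have hPQ' : red P * red Q = 1 := by
    rw [← map_mul]
    ext i k
    have := hPQ i k
    rw [← Ideal.Quotient.eq] at this
    simp only [red, RingHom.mapMatrix_apply, Matrix.map_apply, Matrix.one_apply]
    rw [this, Matrix.one_apply]
    split_ifs <;> simp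
  have hQP' : red Q * red P = 1 := by
    exact mul_eq_one_comm.mp hPQ'
  -- `P c ≡ 0`
  have hc0 : Expands J b' (0 : N) c := by
    rw [expands_iff, zero_sub, Submodule.neg_mem_iff]
    exact hc
  have hPc : ∀ i, P.mulVec c i ∈ J := fun i =>
    IsBasisMod.mem_of_expands_mem hb (Submodule.zero_mem _) (Expands.trans hP hc0) i
  -- hence `c ≡ Q P c ≡ 0`
  let cbar : Fin d → S ⧸ J := fun i => Ideal.Quotient.mk J (c i)
  have h1 : (red P).mulVec cbar = 0 := by
    funext i
    have := hPc i
    rw [← Ideal.Quotient.eq_zero_iff_mem] at this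
    simp only [Matrix.mulVec, dotProduct, map_sum, map_mul] at this
    simpa [red, Matrix.mulVec, dotProduct, cbar] using this
  have h2 : cbar = 0 := by
    have : (red Q * red P).mulVec cbar = cbar := by rw [hQP', Matrix.one_mulVec]
    rw [← this, ← Matrix.mulVec_mulVec, h1, Matrix.mulVec_zero]
  have h3 := congrFun h2 i
  exact Ideal.Quotient.eq_zero_iff_mem.mp h3

end Nakayama

section Rep

variable {b : Fin d → N}

/-- the matrix `X` represents the endomorphism `T` in the basis `b`, modulo `J`. -/
def Rep (J : Ideal S) (b : Fin d → N) (T : N →ₗ[S] N) (X : Matrix (Fin d) (Fin d) S) : Prop :=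
  ∀ j, Expands J b (T (b j)) (fun i => X i j)

theorem IsBasisMod.exists_rep (hb : IsBasisMod J b) (T : N →ₗ[S] N) : ∃ X, Rep J b T X := by
  choose X' hX' using fun j => hb.1 (T (b j))
  exact ⟨Matrix.of fun i j => X' j i, hX'⟩

namespace Rep

variable {T T' : N →ₗ[S] N} {X X' : Matrix (Fin d) (Fin d) S}

theorem mono {J' : Ideal S} (hJ : J ≤ J') (h : Rep J b T X) : Rep J' b T X :=
  fun j => (h j).mono hJ

/-- the action of `T` in coordinates. -/
theorem expands (h : Rep J b T X) {x : N} {c : Fin d → S} (hx : Expands J b x c) :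
    Expands J b (T x) (X.mulVec c) :=
  Expands.trans (b' := fun i => T (b i)) h (hx.map T)

theorem comp (h : Rep J b T X) (h' : Rep J b T' X') : Rep J b (T ∘ₗ T') (X * X') := by
  intro j
  have h1 := h.expands (h' j)
  have h2 : (X.mulVec fun i => X' i j) = fun i => (X * X') i j := by
    funext i
    simp [Matrix.mulVec, dotProduct, Matrix.mul_apply]
  rw [h2] at h1
  exact h1

theorem add (h : Rep J b T X) (h' : Rep J b T' X') : Rep J b (T + T') (X + X') := by
  intro j
  have := (h j).add (h' j)
  exact this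

theorem smul_id (s : S) : Rep J b (s • LinearMap.id) (s • (1 : Matrix (Fin d) (Fin d) S)) := by
  classical
  intro j
  have h1 := (Expands.self (J := J) (b := b) j).smul s
  have h2 : (s • (Pi.single j (1 : S) : Fin d → S)) =
      fun i => (s • (1 : Matrix (Fin d) (Fin d) S)) i j := by
    funext i
    simp only [Pi.smul_apply, Matrix.smul_apply, Matrix.one_apply]
    by_cases hij : i = j
    · subst hij; simp
    · rw [if_neg hij, Pi.single_eq_of_ne hij]
  rw [h2] at h1
  exact h1

theorem id : Rep J b LinearMap.id (1 : Matrix (Fin d) (Fin d) S) := by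
  have := smul_id (J := J) (b := b) (1 : S)
  simpa using this

theorem zero : Rep J b (0 : N →ₗ[S] N) (0 : Matrix (Fin d) (Fin d) S) := by
  intro j
  have := Expands.zero (J := J) (b := b)
  exact this

/-- uniqueness of the representing matrix modulo `J`. -/
theorem sub_mem (hb : IsBasisMod J b) (h : Rep J b T X) (h' : Rep J b T X') (i j : Fin d) :
    X i j - X' i j ∈ J :=
  IsBasisMod.sub_mem hb (h j) (h' j) i

end Rep

end Rep

section Surjection

variable {b : Fin d → N}

/-- lifting a spanning family along a surjection whose kernel is inside `K • N`. -/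
theorem spans_of_map_spans {K : Ideal S} (q : N →ₗ[S] N') (hq : Function.Surjective q)
    (hker : ∀ x : N, q x = 0 → x ∈ (K • ⊤ : Submodule S N))
    (h : ∀ y : N', ∃ c : Fin d → S, Expands K (fun i => q (b i)) y c) (x : N) :
    ∃ c : Fin d → S, Expands K b x c := by
  obtain ⟨c, hc⟩ := h (q x)
  refine ⟨c, ?_⟩
  rw [expands_iff] at *
  obtain ⟨y, hy, hqy⟩ := exists_of_mem_smul_top_of_surjective q hq hc
  have h1 : q (x - ∑ i, c i • b i - y) = 0 := by
    rw [map_sub, hqy, map_sub, map_sum]
    simp [map_smul]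
  have h2 := hker _ h1
  have : x - ∑ i, c i • b i = (x - ∑ i, c i • b i - y) + y := by abel
  rw [this]
  exact Submodule.add_mem _ h2 hy

/-- the image of a basis modulo `J` under a surjection with kernel inside `K • N` is a basis
modulo `K ⊔ J`. -/
theorem IsBasisMod.map (hb : IsBasisMod J b) {K : Ideal S} (q : N →ₗ[S] N')
    (hq : Function.Surjective q) (hker : ∀ x : N, q x = 0 → x ∈ (K • ⊤ : Submodule S N)) :
    IsBasisMod (K ⊔ J) (fun i => q (b i)) := by
  refine ⟨fun y => ?_, fun c hc i => ?_⟩
  · obtain ⟨x, rfl⟩ := hq y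
    obtain ⟨c, hc⟩ := hb.1 x
    exact ⟨c, ((Expands.map q hc).mono le_sup_right)⟩
  · obtain ⟨y, hy, hqy⟩ := exists_of_mem_smul_top_of_surjective q hq hc
    have h1 : q (∑ i, c i • b i - y) = 0 := by
      rw [map_sub, hqy, map_sum]
      simp [map_smul]
    have h2 := hker _ h1
    have h3 : ∑ i, c i • b i ∈ ((K ⊔ J) • ⊤ : Submodule S N) := by
      have : ∑ i, c i • b i = (∑ i, c i • b i - y) + y := by abel
      rw [this]
      exact Submodule.add_mem _ (Submodule.smul_mono le_sup_left le_rfl h2) hy
    exact (IsBasisMod.mono hb le_sup_right).2 c h3 i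

end Surjection

end Fermat.Agent.S43.Patch.Basis
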