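/-
S43 (row 37), PROJECT R, block `Patch`, file `Compact` (helper29): N5, the topological facts on a
noetherian local ring with finite residue field used by the patching.

* `finite_quotient_pow` : `R ⧸ 𝔪 ^ k` is finite;
* `mem_of_forall_mem_sup_pow` : every ideal is closed, `⋂ (J + 𝔪 ^ k) = J` (Krull);
* `eq_zero_of_forall_mem_pow_smul_top` : a module with a basis modulo `𝔞` and killed by `𝔞` is
  separated (`𝔞` closed).
-/
import Fermat.Agent.S43.Patch.Basis

set_option autoImplicit false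

noncomputable section

namespace Fermat.Agent.S43.Patch.Compact

open IsLocalRing Fermat.Agent.S43.Patch.Level Fermat.Agent.S43.Patch.Basis

variable {R : Type*} [CommRing R] [IsNoetherianRing R] [IsLocalRing R]

/-- the quotients by the powers of the maximal ideal are finite. -/
theorem finite_quotient_pow [Finite (ResidueField R)] (k : ℕ) :
    Finite (R ⧸ maximalIdeal R ^ k) := by
  have : Finite (R ⧸ maximalIdeal R) := inferInstanceAs (Finite (ResidueField R))
  exact Ideal.finite_quotient_pow (IsNoetherian.noetherian (maximalIdeal R)) k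

/-- **Krull**: every ideal of a noetherian local ring is closed. -/
theorem mem_of_forall_mem_sup_pow (J : Ideal R) (z : R)
    (h : ∀ k, z ∈ J ⊔ maximalIdeal R ^ k) : z ∈ J := by
  have h1 : (⨅ i : ℕ, maximalIdeal R ^ i • ⊤ : Submodule R (R ⧸ J)) = ⊥ :=
    Ideal.iInf_pow_smul_eq_bot_of_le_jacobson _ (maximalIdeal_le_jacobson _)
  have h2 : (Ideal.Quotient.mk J z : R ⧸ J) ∈
      (⨅ i : ℕ, maximalIdeal R ^ i • ⊤ : Submodule R (R ⧸ J)) := by
    rw [Submodule.mem_iInf]
    intro k
    obtain ⟨j, hj, t, ht, rfl⟩ := Submodule.mem_sup.mp (h k)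
    have h3 : (Ideal.Quotient.mk J (j + t) : R ⧸ J) = t • (1 : R ⧸ J) := by
      rw [map_add, Ideal.Quotient.eq_zero_iff_mem.mpr hj, zero_add, Algebra.smul_def, mul_one]
      rfl
    rw [h3]
    exact Submodule.smul_mem_smul ht Submodule.mem_top
  rw [h1, Submodule.mem_bot] at h2
  exact Ideal.Quotient.eq_zero_iff_mem.mp h2

/-- a module killed by `𝔞` with a basis modulo `𝔞` is separated. -/
theorem eq_zero_of_forall_mem_pow_smul_top {M0 : Type*} [AddCommGroup M0] [Module R M0]
    (𝔞 : Ideal R) (h𝔞 : ∀ s ∈ 𝔞, ∀ m : M0, s • m = 0) {d : ℕ} (e : Fin d → M0)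
    (he : IsBasisMod 𝔞 e) (m : M0)
    (hm : ∀ k, m ∈ (maximalIdeal R ^ k • ⊤ : Submodule R M0)) : m = 0 := by
  have hbot : (𝔞 • ⊤ : Submodule R M0) = ⊥ := by
    rw [eq_bot_iff]
    intro x hx
    refine Submodule.smul_induction_on hx (fun r hr n _ => ?_) (fun x y hx hy => ?_)
    · rw [Submodule.mem_bot]
      exact h𝔞 r hr n
    · exact Submodule.add_mem _ hx hy
  obtain ⟨c, hc⟩ := he.1 m
  have hc' : Expands 𝔞 e m c := hc
  rw [hbot, Submodule.mem_bot, sub_eq_zero] at hc
  have h1 : ∀ i, c i ∈ 𝔞 := by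
    intro i
    apply mem_of_forall_mem_sup_pow
    intro k
    refine IsBasisMod.mem_of_expands_mem' he (le_sup_left : 𝔞 ≤ 𝔞 ⊔ maximalIdeal R ^ k) ?_ hc' i
    exact Submodule.smul_mono le_sup_right le_rfl (hm k)
  rw [hc]
  exact Finset.sum_eq_zero fun i _ => h𝔞 (c i) (h1 i) (e i)

end Fermat.Agent.S43.Patch.Compact
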