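/-
S43 (row 37), PROJECT R, block `Patch`, file `Ultra` (helper29): N5, the ULTRALIMIT on a complete
ring with finite quotients.

`R` a commutative ring, `I` an ideal, `R` is `I`-adically complete and every `R ⧸ I ^ k` is finite
(a compact ring).  Fix the non-principal ultrafilter `hyperfilter ℕ`.  Every sequence `x : ℕ → R`
has a unique ultralimit `ulim I x`: for every `k`, `x n - ulim I x ∈ I ^ k` for most `n`.  The
ultralimit is a ring homomorphism `(ℕ → R) →+* R` that only sees the germ of the sequence modulo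
`I ^ n`, and sends sequences that are eventually in a closed ideal into that ideal.

Also: a ring homomorphism from a local ring to a finite ring `E` kills the `Nat.card E`-th power of
the maximal ideal (the uniform continuity used by the patching).
-/
import Mathlib

set_option autoImplicit false

noncomputable section

namespace Fermat.Agent.S43.Patch.Ultra

open Filter

/-- a function from `ℕ` to a finite type is constant along the ultrafilter. -/
theorem exists_eventually_eq {X : Type*} [Finite X] (f : ℕ → X) :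
    ∃ x, ∀ᶠ n in (hyperfilter ℕ : Filter ℕ), f n = x := by
  obtain ⟨x, hx⟩ := ((hyperfilter ℕ).map f).eq_pure_of_finite
  refine ⟨x, ?_⟩
  have h1 : ({x} : Set X) ∈ ((hyperfilter ℕ).map f) := by
    rw [hx]
    exact Ultrafilter.mem_pure.mpr rfl
  exact Ultrafilter.mem_map.mp h1

/-- most `n` are large. -/
theorem eventually_ge (k : ℕ) : ∀ᶠ n in (hyperfilter ℕ : Filter ℕ), k ≤ n := by
  have h : ∀ᶠ n in (cofinite : Filter ℕ), k ≤ n := by
    rw [Nat.cofinite_eq_atTop]
    exact eventually_ge_atTop k
  exact hyperfilter_le_cofinite h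

variable {R : Type*} [CommRing R] (I : Ideal R)

/-- `L` is the ultralimit of the sequence `x` for the `I`-adic topology. -/
def IsULim (x : ℕ → R) (L : R) : Prop :=
  ∀ k : ℕ, ∀ᶠ n in (hyperfilter ℕ : Filter ℕ), x n - L ∈ I ^ k

variable {I}

theorem IsULim.unique [IsHausdorff I R] {x : ℕ → R} {L L' : R} (h : IsULim I x L)
    (h' : IsULim I x L') : L = L' := by
  rw [← sub_eq_zero]
  apply IsHausdorff.haus (I := I) inferInstance
  intro k
  rw [SModEq.sub_mem, sub_zero, smul_eq_mul, Ideal.mul_top]
  obtain ⟨n, h1, h2⟩ := ((h k).and (h' k)).exists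
  have : L - L' = (x n - L') - (x n - L) := by ring
  rw [this]
  exact (I ^ k).sub_mem h2 h1

theorem exists_isULim [IsPrecomplete I R] (hfin : ∀ k, Finite (R ⧸ I ^ k)) (x : ℕ → R) :
    ∃ L, IsULim I x L := by
  -- the eventual class modulo `I ^ k`
  have h1 : ∀ k, ∃ y : R, ∀ᶠ n in (hyperfilter ℕ : Filter ℕ), x n - y ∈ I ^ k := by
    intro k
    have := hfin k
    obtain ⟨c, hc⟩ := exists_eventually_eq (fun n => Ideal.Quotient.mk (I ^ k) (x n))
    obtain ⟨y, rfl⟩ := Ideal.Quotient.mk_surjective c
    refine ⟨y, hc.mono fun n hn => ?_⟩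
    exact Ideal.Quotient.eq.mp hn
  choose y hy using h1
  have h2 : ∀ {m n}, m ≤ n → y m ≡ y n [SMOD (I ^ m • ⊤ : Submodule R R)] := by
    intro m n hmn
    rw [SModEq.sub_mem, smul_eq_mul, Ideal.mul_top]
    obtain ⟨j, hj1, hj2⟩ := ((hy m).and (hy n)).exists
    have : y m - y n = (x j - y n) - (x j - y m) := by ring
    rw [this]
    exact (I ^ m).sub_mem (Ideal.pow_le_pow_right hmn hj2) hj1
  obtain ⟨L, hL⟩ := IsPrecomplete.prec inferInstance h2
  refine ⟨L, fun k => (hy k).mono fun n hn => ?_⟩
  have h3 := hL k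
  rw [SModEq.sub_mem, smul_eq_mul, Ideal.mul_top] at h3
  have : x n - L = (x n - y k) + (y k - L) := by ring
  rw [this]
  exact (I ^ k).add_mem hn h3

theorem IsULim.const (c : R) : IsULim I (fun _ => c) c := fun k => by simp

theorem IsULim.add {x y : ℕ → R} {L L' : R} (h : IsULim I x L) (h' : IsULim I y L') :
    IsULim I (fun n => x n + y n) (L + L') := fun k =>
  ((h k).and (h' k)).mono fun n hn => by
    have : x n + y n - (L + L') = (x n - L) + (y n - L') := by ring
    rw [this]
    exact (I ^ k).add_mem hn.1 hn.2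

theorem IsULim.neg {x : ℕ → R} {L : R} (h : IsULim I x L) : IsULim I (fun n => -x n) (-L) :=
  fun k => (h k).mono fun n hn => by
    have : -x n - -L = -(x n - L) := by ring
    rw [this]
    exact (I ^ k).neg_mem hn

theorem IsULim.sub {x y : ℕ → R} {L L' : R} (h : IsULim I x L) (h' : IsULim I y L') :
    IsULim I (fun n => x n - y n) (L - L') := by
  simpa [sub_eq_add_neg] using h.add h'.neg

theorem IsULim.mul {x y : ℕ → R} {L L' : R} (h : IsULim I x L) (h' : IsULim I y L') :
    IsULim I (fun n => x n * y n) (L * L') := fun k =>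
  ((h k).and (h' k)).mono fun n hn => by
    have : x n * y n - L * L' = (x n - L) * y n + L * (y n - L') := by ring
    rw [this]
    exact (I ^ k).add_mem ((I ^ k).mul_mem_right _ hn.1) ((I ^ k).mul_mem_left _ hn.2)

theorem IsULim.sum {ι : Type*} (s : Finset ι) {x : ι → ℕ → R} {L : ι → R}
    (h : ∀ i ∈ s, IsULim I (x i) (L i)) :
    IsULim I (fun n => ∑ i ∈ s, x i n) (∑ i ∈ s, L i) := by
  classical
  induction s using Finset.induction_on with
  | empty => simpa using IsULim.const (I := I) (0 : R)
  | insert a s ha ih =>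
    simp only [Finset.sum_insert ha]
    exact (h a (Finset.mem_insert_self a s)).add
      (ih fun i hi => h i (Finset.mem_insert_of_mem hi))

/-- two sequences that are eventually close have the same ultralimits. -/
theorem IsULim.congr {x y : ℕ → R} {L : R} (h : IsULim I x L)
    (hxy : ∀ k, ∀ᶠ n in (hyperfilter ℕ : Filter ℕ), x n - y n ∈ I ^ k) : IsULim I y L := fun k =>
  ((h k).and (hxy k)).mono fun n hn => by
    have : y n - L = (x n - L) - (x n - y n) := by ring
    rw [this]
    exact (I ^ k).sub_mem hn.1 hn.2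

/-- sequences with `x n ≡ y n` modulo `I ^ n` have the same ultralimits. -/
theorem IsULim.congr_pow {x y : ℕ → R} {L : R} (h : IsULim I x L)
    (hxy : ∀ n, x n - y n ∈ I ^ n) : IsULim I y L :=
  h.congr fun k => (eventually_ge k).mono fun n hn => Ideal.pow_le_pow_right hn (hxy n)

/-- a sequence which is eventually in `J + I ^ k` for every `k` has its ultralimit in the closed
ideal `J`. -/
theorem IsULim.mem_of_closed {x : ℕ → R} {L : R} (h : IsULim I x L) (J : Ideal R)
    (hJ : ∀ z : R, (∀ k, z ∈ J ⊔ I ^ k) → z ∈ J)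
    (hx : ∀ k, ∀ᶠ n in (hyperfilter ℕ : Filter ℕ), x n ∈ J ⊔ I ^ k) : L ∈ J := by
  apply hJ
  intro k
  obtain ⟨n, h1, h2⟩ := ((h k).and (hx k)).exists
  have : L = x n - (x n - L) := by ring
  rw [this]
  exact (J ⊔ I ^ k).sub_mem h2 (Ideal.mem_sup_right h1)

variable (I)

/-- the ultralimit of a sequence (junk value `0` if it does not exist). -/
def ulim (x : ℕ → R) : R := by
  classical exact if h : ∃ L, IsULim I x L then Classical.choose h else 0

variable {I}

theorem IsULim.ulim_eq [IsHausdorff I R] {x : ℕ → R} {L : R} (h : IsULim I x L) :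
    ulim I x = L := by
  have hex : ∃ L, IsULim I x L := ⟨L, h⟩
  have h1 : ulim I x = Classical.choose hex := by
    unfold ulim
    rw [dif_pos hex]
  rw [h1]
  exact (Classical.choose_spec hex).unique h

theorem isULim_ulim [IsAdicComplete I R] (hfin : ∀ k, Finite (R ⧸ I ^ k)) (x : ℕ → R) :
    IsULim I x (ulim I x) := by
  obtain ⟨L, hL⟩ := exists_isULim hfin x
  rw [hL.ulim_eq]
  exact hL

theorem ulim_const [IsHausdorff I R] (c : R) : ulim I (fun _ => c) = c :=
  (IsULim.const c).ulim_eq

section Hom

variable [IsAdicComplete I R] (hfin : ∀ k, Finite (R ⧸ I ^ k))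
include hfin

theorem ulim_add (x y : ℕ → R) : ulim I (fun n => x n + y n) = ulim I x + ulim I y :=
  ((isULim_ulim hfin x).add (isULim_ulim hfin y)).ulim_eq

theorem ulim_mul (x y : ℕ → R) : ulim I (fun n => x n * y n) = ulim I x * ulim I y :=
  ((isULim_ulim hfin x).mul (isULim_ulim hfin y)).ulim_eq

theorem ulim_sub (x y : ℕ → R) : ulim I (fun n => x n - y n) = ulim I x - ulim I y :=
  ((isULim_ulim hfin x).sub (isULim_ulim hfin y)).ulim_eq

theorem ulim_sum {ι : Type*} (s : Finset ι) (x : ι → ℕ → R) :
    ulim I (fun n => ∑ i ∈ s, x i n) = ∑ i ∈ s, ulim I (x i) :=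
  (IsULim.sum s fun i _ => isULim_ulim hfin (x i)).ulim_eq

theorem ulim_congr {x y : ℕ → R}
    (hxy : ∀ k, ∀ᶠ n in (hyperfilter ℕ : Filter ℕ), x n - y n ∈ I ^ k) :
    ulim I x = ulim I y :=
  (((isULim_ulim hfin x).congr hxy).ulim_eq).symm

theorem ulim_congr_pow {x y : ℕ → R} (hxy : ∀ n, x n - y n ∈ I ^ n) : ulim I x = ulim I y :=
  (((isULim_ulim hfin x).congr_pow hxy).ulim_eq).symm

theorem ulim_mem_of_closed (x : ℕ → R) (J : Ideal R)
    (hJ : ∀ z : R, (∀ k, z ∈ J ⊔ I ^ k) → z ∈ J)
    (hx : ∀ k, ∀ᶠ n in (hyperfilter ℕ : Filter ℕ), x n ∈ J ⊔ I ^ k) : ulim I x ∈ J :=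
  (isULim_ulim hfin x).mem_of_closed J hJ hx

/-- `x n - ulim x ∈ I ^ k` for most `n`. -/
theorem eventually_sub_ulim_mem (x : ℕ → R) (k : ℕ) :
    ∀ᶠ n in (hyperfilter ℕ : Filter ℕ), x n - ulim I x ∈ I ^ k :=
  isULim_ulim hfin x k

/-- the ultralimit of a sequence of ring homomorphisms. -/
def ulimHom {B : Type*} [Semiring B] (f : ℕ → B →+* R) : B →+* R where
  toFun b := ulim I fun n => f n b
  map_one' := by simpa using ulim_const (I := I) (1 : R)
  map_mul' a b := by simpa using ulim_mul hfin (fun n => f n a) (fun n => f n b)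
  map_zero' := by simpa using ulim_const (I := I) (0 : R)
  map_add' a b := by simpa using ulim_add hfin (fun n => f n a) (fun n => f n b)

theorem ulimHom_apply {B : Type*} [Semiring B] (f : ℕ → B →+* R) (b : B) :
    ulimHom hfin f b = ulim I fun n => f n b := rfl

end Hom

section FiniteTarget

/-- a ring homomorphism from a local ring to a finite ring kills a power of the maximal ideal,
with an exponent depending only on the cardinality of the target. -/
theorem map_eq_zero_of_mem_pow_card {A : Type*} [CommRing A] [IsLocalRing A] {E : Type*} [Ring E]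
    [Finite E] (ρ : A →+* E) {a : A} (ha : a ∈ IsLocalRing.maximalIdeal A ^ Nat.card E) :
    ρ a = 0 := by
  classical
  let _ : Module A E := Module.compHom E ρ
  -- the `A`-linear map `a ↦ ρ a`
  let ρl : A →ₗ[A] E :=
    { toFun := fun a => ρ a
      map_add' := fun a b => map_add ρ a b
      map_smul' := fun a b => by
        change ρ (a * b) = ρ a * ρ b
        exact map_mul ρ a b }
  let G : ℕ → Submodule A E := fun j =>
    Submodule.map ρl (IsLocalRing.maximalIdeal A ^ j : Ideal A)
  have hGsucc : ∀ j, G (j + 1) = IsLocalRing.maximalIdeal A • G j := by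
    intro j
    change Submodule.map ρl (IsLocalRing.maximalIdeal A ^ (j + 1) : Ideal A) =
      IsLocalRing.maximalIdeal A • Submodule.map ρl (IsLocalRing.maximalIdeal A ^ j : Ideal A)
    rw [pow_succ', ← smul_eq_mul, Submodule.map_smul'']
  have hmono : ∀ j, G (j + 1) ≤ G j := fun j => by
    rw [hGsucc]
    exact Submodule.smul_le_right
  have hnak : ∀ j, G (j + 1) = G j → G j = ⊥ := by
    intro j hj
    refine Submodule.eq_bot_of_le_smul_of_le_jacobson_bot (IsLocalRing.maximalIdeal A) (G j)
      ?_ ?_ ?_
    · exact Submodule.FG.of_finite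
    · rw [← hGsucc, hj]
    · rw [IsLocalRing.jacobson_eq_maximalIdeal ⊥ bot_ne_top]
  -- cardinalities decrease strictly until `⊥` is reached
  have hcard : ∀ j, G j = ⊥ ∨ Set.ncard (G j : Set E) + j ≤ Nat.card E := by
    intro j
    induction j with
    | zero =>
      right
      rw [add_zero, ← Nat.card_coe_set_eq]
      exact Nat.card_le_card_of_injective _ Subtype.val_injective
    | succ j ih =>
      rcases ih with h | h
      · left
        rw [eq_bot_iff, ← h]
        exact hmono j
      · by_cases hj : G (j + 1) = G j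
        · left
          rw [hj]
          exact hnak j hj
        · right
          have hlt : (G (j + 1) : Set E) ⊂ (G j : Set E) :=
            lt_of_le_of_ne (hmono j) (fun h => hj (SetLike.coe_injective h))
          have := Set.ncard_lt_ncard hlt (Set.toFinite _)
          omega
  have hbot : G (Nat.card E) = ⊥ := by
    rcases hcard (Nat.card E) with h | h
    · exact h
    · exfalso
      have hpos : 0 < Set.ncard (G (Nat.card E) : Set E) := by
        rw [Set.ncard_pos (Set.toFinite _)]
        exact ⟨0, (G (Nat.card E)).zero_mem⟩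
      omega
  have hmem : ρl a ∈ G (Nat.card E) :=
    Submodule.mem_map_of_mem (f := ρl) (p := (IsLocalRing.maximalIdeal A ^ Nat.card E : Ideal A)) ha
  rw [hbot, Submodule.mem_bot] at hmem
  exact hmem

end FiniteTarget

end Fermat.Agent.S43.Patch.Ultra
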