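/-
S43 (row 37), PROJECT R, block `Patch`, file `Limit` (helper29): N5, the ULTRALIMIT OF A SYSTEM OF
APPROXIMATE MATRIX REPRESENTATIONS.

`S` complete for `mS` with finite quotients.  A `MatSys S A mS d` is a sequence of maps
`X n : A → M_d(S)` which are ring homomorphisms modulo `mS ^ n` (the action of `A = R_∞` on the
level-`n` module, written in a basis modulo `mS ^ n`).

* `MatSys.redHom` : the honest ring homomorphism `A →+* M_d(S ⧸ mS ^ k)` for `k ≤ n`;
* `MatSys.matCong_of_sub_mem` : **equicontinuity**, for `A` local: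
  `a ≡ a'` modulo `𝔪_A ^ card M_d(S ⧸ mS ^ k)` implies `X n a ≡ X n a'` modulo `mS ^ k`, all `n ≥ k`;
* `MatSys.lim : A →+* M_d(S)` : the entrywise ultralimit;
* `MatSys.lim_ulimHom` : if `S` acts through `φ n : S →+* A` at level `n`, then it acts through
  the ultralimit `ulimHom φ` in the limit: `lim (ulimHom φ s) = s • 1`;
* `MatSys.lim_matCong_of_closed` : congruences modulo a closed ideal pass to the limit (used for
  the comparison of the two systems modulo `lam`);
* `MatSys.smul_eq_sum_lim` : identification of the limit modulo `𝔞` with the level-zero module.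
-/
import Fermat.Agent.S43.Patch.Ultra

set_option autoImplicit false

noncomputable section

namespace Fermat.Agent.S43.Patch.Limit

open Filter Fermat.Agent.S43.Patch.Ultra

variable {S : Type*} [CommRing S] {d : ℕ}

/-- entrywise congruence of matrices modulo an ideal. -/
def MatCong (J : Ideal S) (X Y : Matrix (Fin d) (Fin d) S) : Prop :=
  ∀ i j, X i j - Y i j ∈ J

theorem matCong_iff {J : Ideal S} {X Y : Matrix (Fin d) (Fin d) S} :
    MatCong J X Y ↔
      (Ideal.Quotient.mk J).mapMatrix X = (Ideal.Quotient.mk J).mapMatrix Y := by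
  constructor
  · intro h
    ext i j
    simp only [RingHom.mapMatrix_apply, Matrix.map_apply]
    exact Ideal.Quotient.eq.mpr (h i j)
  · intro h i j
    have := congrFun (congrFun h i) j
    simp only [RingHom.mapMatrix_apply, Matrix.map_apply] at this
    exact Ideal.Quotient.eq.mp this

namespace MatCong

variable {J : Ideal S} {X Y Z X' Y' : Matrix (Fin d) (Fin d) S}

theorem refl (X : Matrix (Fin d) (Fin d) S) : MatCong J X X := fun i j => by simp

theorem symm (h : MatCong J X Y) : MatCong J Y X := by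
  rw [matCong_iff] at *
  exact h.symm

theorem trans (h : MatCong J X Y) (h' : MatCong J Y Z) : MatCong J X Z := by
  rw [matCong_iff] at *
  exact h.trans h'

theorem mono {J' : Ideal S} (hJ : J ≤ J') (h : MatCong J X Y) : MatCong J' X Y :=
  fun i j => hJ (h i j)

theorem add (h : MatCong J X X') (h' : MatCong J Y Y') : MatCong J (X + Y) (X' + Y') := by
  rw [matCong_iff] at *
  rw [map_add, map_add, h, h']

theorem mul (h : MatCong J X X') (h' : MatCong J Y Y') : MatCong J (X * Y) (X' * Y') := by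
  rw [matCong_iff] at *
  rw [map_mul, map_mul, h, h']

theorem sub (h : MatCong J X X') (h' : MatCong J Y Y') : MatCong J (X - Y) (X' - Y') := by
  rw [matCong_iff] at *
  rw [map_sub, map_sub, h, h']

end MatCong

/-- a sequence of maps `A → M_d(S)` which are ring homomorphisms modulo `mS ^ n`. -/
structure MatSys (S A : Type*) [CommRing S] [CommRing A] (mS : Ideal S) (d : ℕ) where
  /-- the matrix of `a` at level `n` -/
  X : ℕ → A → Matrix (Fin d) (Fin d) S
  one : ∀ n, MatCong (mS ^ n) (X n 1) 1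
  add : ∀ n a a', MatCong (mS ^ n) (X n (a + a')) (X n a + X n a')
  mul : ∀ n a a', MatCong (mS ^ n) (X n (a * a')) (X n a * X n a')

namespace MatSys

variable {A : Type*} [CommRing A] {mS : Ideal S}

theorem zero (M : MatSys S A mS d) (n : ℕ) : MatCong (mS ^ n) (M.X n 0) 0 := by
  have h := M.add n 0 0
  rw [add_zero] at h
  intro i j
  have := h i j
  rw [Matrix.add_apply, sub_add_cancel_left] at this
  simpa using (mS ^ n).neg_mem this

/-- the ring homomorphism modulo `mS ^ k`, for `k ≤ n`. -/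
def redHom (M : MatSys S A mS d) {n k : ℕ} (hk : k ≤ n) :
    A →+* Matrix (Fin d) (Fin d) (S ⧸ mS ^ k) where
  toFun a := (Ideal.Quotient.mk (mS ^ k)).mapMatrix (M.X n a)
  map_one' := by
    rw [matCong_iff.mp ((M.one n).mono (Ideal.pow_le_pow_right hk)), map_one]
  map_mul' a a' := by
    rw [matCong_iff.mp ((M.mul n a a').mono (Ideal.pow_le_pow_right hk)), map_mul]
  map_zero' := by
    rw [matCong_iff.mp ((M.zero n).mono (Ideal.pow_le_pow_right hk)), map_zero]
  map_add' a a' := by
    rw [matCong_iff.mp ((M.add n a a').mono (Ideal.pow_le_pow_right hk)), map_add]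

theorem redHom_apply (M : MatSys S A mS d) {n k : ℕ} (hk : k ≤ n) (a : A) :
    M.redHom hk a = (Ideal.Quotient.mk (mS ^ k)).mapMatrix (M.X n a) := rfl

/-- **equicontinuity**. -/
theorem matCong_of_sub_mem [IsLocalRing A] (hfin : ∀ k, Finite (S ⧸ mS ^ k))
    (M : MatSys S A mS d) {n k : ℕ} (hk : k ≤ n) {a a' : A}
    (h : a - a' ∈
      IsLocalRing.maximalIdeal A ^ Nat.card (Matrix (Fin d) (Fin d) (S ⧸ mS ^ k))) :
    MatCong (mS ^ k) (M.X n a) (M.X n a') := by
  have := hfin k
  have h1 := map_eq_zero_of_mem_pow_card (M.redHom hk) h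
  rw [map_sub, sub_eq_zero] at h1
  exact matCong_iff.mpr h1

end MatSys

section ULimMat

variable (mS : Ideal S)

/-- the entrywise ultralimit of a sequence of matrices. -/
def ulimMat (Y : ℕ → Matrix (Fin d) (Fin d) S) : Matrix (Fin d) (Fin d) S :=
  Matrix.of fun i j => ulim mS fun n => Y n i j

variable {mS}

theorem ulimMat_apply (Y : ℕ → Matrix (Fin d) (Fin d) S) (i j : Fin d) :
    ulimMat mS Y i j = ulim mS fun n => Y n i j := rfl

theorem ulimMat_const [IsHausdorff mS S] (L : Matrix (Fin d) (Fin d) S) :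
    ulimMat mS (fun _ => L) = L := by
  ext i j
  rw [ulimMat_apply, ulim_const]

variable [IsAdicComplete mS S] (hfin : ∀ k, Finite (S ⧸ mS ^ k))
include hfin

theorem ulimMat_add (Y Y' : ℕ → Matrix (Fin d) (Fin d) S) :
    ulimMat mS (fun n => Y n + Y' n) = ulimMat mS Y + ulimMat mS Y' := by
  ext i j
  simp only [ulimMat_apply, Matrix.add_apply]
  exact ulim_add hfin _ _

theorem ulimMat_sub (Y Y' : ℕ → Matrix (Fin d) (Fin d) S) :
    ulimMat mS (fun n => Y n - Y' n) = ulimMat mS Y - ulimMat mS Y' := by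
  ext i j
  simp only [ulimMat_apply, Matrix.sub_apply]
  exact ulim_sub hfin _ _

theorem ulimMat_mul (Y Y' : ℕ → Matrix (Fin d) (Fin d) S) :
    ulimMat mS (fun n => Y n * Y' n) = ulimMat mS Y * ulimMat mS Y' := by
  ext i j
  simp only [ulimMat_apply, Matrix.mul_apply]
  rw [ulim_sum hfin]
  exact Finset.sum_congr rfl fun k _ => ulim_mul hfin _ _

theorem ulimMat_congr {Y Y' : ℕ → Matrix (Fin d) (Fin d) S}
    (h : ∀ n, MatCong (mS ^ n) (Y n) (Y' n)) : ulimMat mS Y = ulimMat mS Y' := by
  ext i j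
  rw [ulimMat_apply, ulimMat_apply]
  exact ulim_congr_pow hfin fun n => h n i j

/-- the terms of the sequence are eventually close to the ultralimit. -/
theorem eventually_matCong_ulimMat (Y : ℕ → Matrix (Fin d) (Fin d) S) (k : ℕ) :
    ∀ᶠ n in (hyperfilter ℕ : Filter ℕ), MatCong (mS ^ k) (Y n) (ulimMat mS Y) := by
  unfold MatCong
  rw [Filter.eventually_all]
  intro i
  rw [Filter.eventually_all]
  intro j
  exact eventually_sub_ulim_mem hfin (fun n => Y n i j) k

omit hfin in
theorem ulimMat_eq_of_eventually {Y : ℕ → Matrix (Fin d) (Fin d) S}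
    {L : Matrix (Fin d) (Fin d) S}
    (h : ∀ k, ∀ᶠ n in (hyperfilter ℕ : Filter ℕ), MatCong (mS ^ k) (Y n) L) :
    ulimMat mS Y = L := by
  ext i j
  rw [ulimMat_apply]
  exact IsULim.ulim_eq fun k => (h k).mono fun n hn => hn i j

/-- congruences modulo a closed ideal pass to the ultralimit. -/
theorem matCong_ulimMat_of_closed (J : Ideal S)
    (hJ : ∀ z : S, (∀ k, z ∈ J ⊔ mS ^ k) → z ∈ J) {Y Y' : ℕ → Matrix (Fin d) (Fin d) S}
    (h : ∀ n, MatCong (J ⊔ mS ^ n) (Y n) (Y' n)) : MatCong J (ulimMat mS Y) (ulimMat mS Y') := by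
  intro i j
  rw [ulimMat_apply, ulimMat_apply, ← ulim_sub hfin]
  refine ulim_mem_of_closed hfin _ J hJ fun k => ?_
  refine (eventually_ge k).mono fun n hn => ?_
  exact sup_le_sup_left (Ideal.pow_le_pow_right hn) J (h n i j)

end ULimMat

namespace MatSys

variable {A : Type*} [CommRing A] {mS : Ideal S} [IsAdicComplete mS S]
  (hfin : ∀ k, Finite (S ⧸ mS ^ k))

/-- **the limit representation** `A →+* M_d(S)`. -/
def lim (M : MatSys S A mS d) : A →+* Matrix (Fin d) (Fin d) S where
  toFun a := ulimMat mS fun n => M.X n a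
  map_one' := by
    rw [ulimMat_congr hfin (M.one), ulimMat_const]
  map_mul' a a' := by
    rw [ulimMat_congr hfin (fun n => M.mul n a a'), ulimMat_mul hfin]
  map_zero' := by
    rw [ulimMat_congr hfin (M.zero), ulimMat_const]
  map_add' a a' := by
    rw [ulimMat_congr hfin (fun n => M.add n a a'), ulimMat_add hfin]

theorem lim_apply (M : MatSys S A mS d) (a : A) :
    M.lim hfin a = ulimMat mS fun n => M.X n a := rfl

/-- the levels are eventually close to the limit. -/
theorem eventually_matCong_lim (M : MatSys S A mS d) (a : A) (k : ℕ) :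
    ∀ᶠ n in (hyperfilter ℕ : Filter ℕ), MatCong (mS ^ k) (M.X n a) (M.lim hfin a) :=
  eventually_matCong_ulimMat hfin _ k

/-- **`S` acts through `A` in the limit.** -/
theorem lim_ulimHom [IsLocalRing A] [IsAdicComplete (IsLocalRing.maximalIdeal A) A]
    (hfinA : ∀ k, Finite (A ⧸ IsLocalRing.maximalIdeal A ^ k))
    (M : MatSys S A mS d) (φ : ℕ → S →+* A)
    (hφ : ∀ n s, MatCong (mS ^ n) (M.X n (φ n s)) (s • (1 : Matrix (Fin d) (Fin d) S)))
    (s : S) :
    M.lim hfin (ulimHom hfinA φ s) = s • (1 : Matrix (Fin d) (Fin d) S) := by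
  rw [lim_apply]
  refine ulimMat_eq_of_eventually fun k => ?_
  have h1 := eventually_sub_ulim_mem hfinA (fun n => φ n s)
    (Nat.card (Matrix (Fin d) (Fin d) (S ⧸ mS ^ k)))
  refine ((eventually_ge k).and h1).mono fun n hn => ?_
  obtain ⟨hkn, hn⟩ := hn
  have h2 : MatCong (mS ^ k) (M.X n (ulimHom hfinA φ s)) (M.X n (φ n s)) := by
    refine M.matCong_of_sub_mem hfin hkn ?_
    rw [ulimHom_apply]
    have : ulim (IsLocalRing.maximalIdeal A) (fun n => φ n s) - φ n s =
        -(φ n s - ulim (IsLocalRing.maximalIdeal A) fun n => φ n s) := by ring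
    rw [this]
    exact neg_mem hn
  exact h2.trans ((hφ n s).mono (Ideal.pow_le_pow_right hkn))

/-- congruences between two systems modulo a closed ideal pass to the limit. -/
theorem lim_matCong_of_closed {A' : Type*} [CommRing A'] (M : MatSys S A mS d)
    (M' : MatSys S A' mS d) (J : Ideal S) (hJ : ∀ z : S, (∀ k, z ∈ J ⊔ mS ^ k) → z ∈ J)
    {a : A} {a' : A'} (h : ∀ n, MatCong (J ⊔ mS ^ n) (M.X n a) (M'.X n a')) :
    MatCong J (M.lim hfin a) (M'.lim hfin a') :=
  matCong_ulimMat_of_closed hfin J hJ h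

/-- identification with the level-zero module: if at every level `a • e j ≡ ∑ X n a i j • e i`
modulo `mS ^ n`, and `M0` is separated, then `a • e j = ∑ lim a i j • e i`. -/
theorem smul_eq_sum_lim {M0 : Type*} [AddCommGroup M0] [Module S M0] [Module A M0]
    (hsep : ∀ m : M0, (∀ k, m ∈ (mS ^ k • ⊤ : Submodule S M0)) → m = 0)
    (M : MatSys S A mS d) (e : Fin d → M0) (a : A)
    (h : ∀ n j, a • e j - ∑ i, M.X n a i j • e i ∈ (mS ^ n • ⊤ : Submodule S M0)) (j : Fin d) :
    a • e j = ∑ i, M.lim hfin a i j • e i := by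
  rw [← sub_eq_zero]
  apply hsep
  intro k
  obtain ⟨n, hkn, hn⟩ := ((eventually_ge k).and (M.eventually_matCong_lim hfin a k)).exists
  have h1 : a • e j - ∑ i, M.lim hfin a i j • e i =
      (a • e j - ∑ i, M.X n a i j • e i) + ∑ i, (M.X n a i j - M.lim hfin a i j) • e i := by
    simp only [sub_smul, Finset.sum_sub_distrib]
    abel
  rw [h1]
  refine Submodule.add_mem _ (Submodule.smul_mono (Ideal.pow_le_pow_right hkn) le_rfl (h n j)) ?_
  exact Submodule.sum_mem _ fun i _ => Submodule.smul_mem_smul (hn i j) Submodule.mem_top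

end MatSys

end Fermat.Agent.S43.Patch.Limit
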