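/-
S43 (row 37), PROJECT R, block `Patch`, file `System` (helper29): N5, FROM A TOWER OF MODULES WITH
BASES TO A SYSTEM OF APPROXIMATE MATRIX REPRESENTATIONS.

A tower: for every `n` an `S`-module `N n` with an action of `A`, `S` acting through
`φ n : S →+* A`, and `b n : Fin d → N n` a basis modulo `mS ^ n`.  `matSys` records the matrices of
the action of `A` in these bases (`rep_matSys`); it is a `Limit.MatSys`, `S` acts through `φ`
(`matSys_φ`).  Two transfer lemmas feed `Limit`:
* `sub_mem_of_map_basis` : level zero, along `p₀ n : N n → M0` with `p₀ n (b n i) = e i`;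
* `matCong_of_common_reduction` : two towers with a common reduction modulo `K`, bases
  corresponding, have congruent matrices modulo `K ⊔ mS ^ n` at elements with equal image in the
  common quotient ring.
-/
import Fermat.Agent.S43.Patch.Basis
import Fermat.Agent.S43.Patch.Limit

set_option autoImplicit false

noncomputable section

namespace Fermat.Agent.S43.Patch.System

open Fermat.Agent.S43.Patch.Level Fermat.Agent.S43.Patch.Basis Fermat.Agent.S43.Patch.Limit

variable {S A : Type*} [CommRing S] [CommRing A]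

/-- multiplication by `a : A` as an `S`-linear map, when `S` acts through `φ : S →+* A`. -/
def actLin {N : Type*} [AddCommGroup N] [Module S N] [Module A N] (φ : S →+* A)
    (hφ : ∀ (s : S) (x : N), φ s • x = s • x) (a : A) : N →ₗ[S] N where
  toFun x := a • x
  map_add' := smul_add a
  map_smul' s x := by
    simp only [RingHom.id_apply]
    rw [← hφ, ← hφ, smul_smul, smul_smul, mul_comm]

theorem actLin_apply {N : Type*} [AddCommGroup N] [Module S N] [Module A N] (φ : S →+* A)
    (hφ : ∀ (s : S) (x : N), φ s • x = s • x) (a : A) (x : N) : actLin φ hφ a x = a • x := rfl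

section Tower

variable {mS : Ideal S} {d : ℕ}
  (N : ℕ → Type*) [∀ n, AddCommGroup (N n)] [∀ n, Module S (N n)] [∀ n, Module A (N n)]
  (φ : ℕ → S →+* A) (hφ : ∀ n (s : S) (x : N n), φ n s • x = s • x)
  (b : ∀ n, Fin d → N n) (hb : ∀ n, IsBasisMod (mS ^ n) (b n))

/-- the matrix of `a` at level `n`. -/
def mat (n : ℕ) (a : A) : Matrix (Fin d) (Fin d) S :=
  Classical.choose (IsBasisMod.exists_rep (hb n) (actLin (φ n) (hφ n) a))

theorem rep_mat (n : ℕ) (a : A) :
    Rep (mS ^ n) (b n) (actLin (φ n) (hφ n) a) (mat N φ hφ b hb n a) :=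
  Classical.choose_spec (IsBasisMod.exists_rep (hb n) (actLin (φ n) (hφ n) a))

theorem matCong_of_rep {n : ℕ} {a : A} {X : Matrix (Fin d) (Fin d) S}
    (h : Rep (mS ^ n) (b n) (actLin (φ n) (hφ n) a) X) :
    MatCong (mS ^ n) (mat N φ hφ b hb n a) X :=
  fun i j => Rep.sub_mem (hb n) (rep_mat N φ hφ b hb n a) h i j

/-- the system of matrices of a tower. -/
def matSys : MatSys S A mS d where
  X := mat N φ hφ b hb
  one n := by
    refine matCong_of_rep N φ hφ b hb ?_
    have h1 : actLin (φ n) (hφ n) (1 : A) = (LinearMap.id : N n →ₗ[S] N n) := by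
      ext x
      simp [actLin_apply]
    rw [h1]
    exact Rep.id
  add n a a' := by
    refine matCong_of_rep N φ hφ b hb ?_
    have h1 : actLin (φ n) (hφ n) (a + a') =
        actLin (φ n) (hφ n) a + actLin (φ n) (hφ n) a' := by
      ext x
      simp [actLin_apply, add_smul]
    rw [h1]
    exact (rep_mat N φ hφ b hb n a).add (rep_mat N φ hφ b hb n a')
  mul n a a' := by
    refine matCong_of_rep N φ hφ b hb ?_
    have h1 : actLin (φ n) (hφ n) (a * a') =
        actLin (φ n) (hφ n) a ∘ₗ actLin (φ n) (hφ n) a' := by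
      ext x
      simp [actLin_apply, mul_smul]
    rw [h1]
    exact (rep_mat N φ hφ b hb n a).comp (rep_mat N φ hφ b hb n a')

theorem matSys_X (n : ℕ) (a : A) : (matSys N φ hφ b hb).X n a = mat N φ hφ b hb n a := rfl

/-- `S` acts through `φ n` at level `n`. -/
theorem matSys_φ (n : ℕ) (s : S) :
    MatCong (mS ^ n) ((matSys N φ hφ b hb).X n (φ n s))
      (s • (1 : Matrix (Fin d) (Fin d) S)) := by
  refine matCong_of_rep N φ hφ b hb ?_
  have h1 : actLin (φ n) (hφ n) (φ n s) = s • (LinearMap.id : N n →ₗ[S] N n) := by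
    ext x
    simp [actLin_apply, hφ]
  rw [h1]
  exact Rep.smul_id s

/-- **level zero**: along maps `p₀ n : N n → M0` sending the bases to a fixed family `e`, the
action of `a` on `e` is given by the matrices modulo `mS ^ n`. -/
theorem sub_mem_of_map_basis {M0 : Type*} [AddCommGroup M0] [Module S M0] [Module A M0]
    (p₀ : ∀ n, N n →ₗ[S] M0) (hp₀ : ∀ n (a : A) (x : N n), p₀ n (a • x) = a • p₀ n x)
    (e : Fin d → M0) (he : ∀ n i, p₀ n (b n i) = e i) (a : A) (n : ℕ) (j : Fin d) :
    a • e j - ∑ i, (matSys N φ hφ b hb).X n a i j • e i ∈ (mS ^ n • ⊤ : Submodule S M0) := by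
  have h1 := (rep_mat N φ hφ b hb n a j).map (p₀ n)
  rw [actLin_apply, hp₀, he] at h1
  have h2 : (fun i => p₀ n (b n i)) = e := funext (he n)
  rw [h2] at h1
  exact h1

end Tower

section Compare

variable {A' Abar : Type*} [CommRing A'] [CommRing Abar] {mS : Ideal S} {d : ℕ}
  (N : ℕ → Type*) [∀ n, AddCommGroup (N n)] [∀ n, Module S (N n)] [∀ n, Module A (N n)]
  (φ : ℕ → S →+* A) (hφ : ∀ n (s : S) (x : N n), φ n s • x = s • x)
  (b : ∀ n, Fin d → N n) (hb : ∀ n, IsBasisMod (mS ^ n) (b n))
  (N' : ℕ → Type*) [∀ n, AddCommGroup (N' n)] [∀ n, Module S (N' n)] [∀ n, Module A' (N' n)]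
  (φ' : ℕ → S →+* A') (hφ' : ∀ n (s : S) (x : N' n), φ' n s • x = s • x)
  (b' : ∀ n, Fin d → N' n) (hb' : ∀ n, IsBasisMod (mS ^ n) (b' n))

/-- **two towers with a common reduction**: if `q n : N n → Nb n ← N' n : q' n` are semilinear
over `π : A → Abar ← A' : π'`, the bases correspond and their common image is a basis modulo
`K ⊔ mS ^ n`, then the matrices of `a` and `a'` with `π a = π' a'` are congruent modulo
`K ⊔ mS ^ n`. -/
theorem matCong_of_common_reduction (K : Ideal S) (π : A →+* Abar) (π' : A' →+* Abar)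
    (Nb : ℕ → Type*) [∀ n, AddCommGroup (Nb n)] [∀ n, Module S (Nb n)]
    [∀ n, Module Abar (Nb n)]
    (q : ∀ n, N n →ₗ[S] Nb n) (q' : ∀ n, N' n →ₗ[S] Nb n)
    (hq : ∀ n (a : A) (x : N n), q n (a • x) = π a • q n x)
    (hq' : ∀ n (a : A') (x : N' n), q' n (a • x) = π' a • q' n x)
    (hbb : ∀ n i, q n (b n i) = q' n (b' n i))
    (hβ : ∀ n, IsBasisMod (K ⊔ mS ^ n) (fun i => q n (b n i)))
    {a : A} {a' : A'} (haa : π a = π' a') (n : ℕ) :
    MatCong (K ⊔ mS ^ n) ((matSys N φ hφ b hb).X n a) ((matSys N' φ' hφ' b' hb').X n a') := by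
  intro i j
  have h1 := ((rep_mat N φ hφ b hb n a j).map (q n)).mono (le_sup_right : mS ^ n ≤ K ⊔ mS ^ n)
  have h2 := ((rep_mat N' φ' hφ' b' hb' n a' j).map (q' n)).mono
    (le_sup_right : mS ^ n ≤ K ⊔ mS ^ n)
  rw [actLin_apply, hq] at h1
  rw [actLin_apply, hq', ← hbb, ← haa] at h2
  have h3 : (fun i => q' n (b' n i)) = fun i => q n (b n i) := funext fun i => (hbb n i).symm
  rw [h3] at h2
  exact IsBasisMod.sub_mem (hβ n) h1 h2 i

end Compare

end Fermat.Agent.S43.Patch.System
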