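/-
S43 (row 37), PROJECT R, block `Patch`, file `Patched` (helper29): N5, **THE PATCHING THEOREM FOR
TWO MODULE SYSTEMS**, in matrix form.

Input: `S`, `A₁`, `Aχ` noetherian local rings, complete, with finite residue fields; for every `n`
a `Level.Datum … n`; the level-zero module `M0` with a basis `e` modulo `𝔞`, killed by `𝔞`.
Output (`exists_patched`): ring homomorphisms `ρ₁ : A₁ →+* M_d(S)`, `ρχ : Aχ →+* M_d(S)`
(the patched modules are `S^d`), `φ₁ : S →+* A₁`, `φχ : S →+* Aχ` with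
* `ρ (φ s) = s • 1` (`S` acts through `A`), `φ lam = lam₁`, `lamχ`;
* `ρ₁ a ≡ ρχ a'` modulo `lam` whenever `π₁ a = πχ a'` (the two patched modules agree modulo `lam`);
* `a • e j = ∑ i, ρ₁ a i j • e i` (the unipotent patched module modulo `𝔞` is `M0`).
-/
import Fermat.Agent.S43.Patch.System
import Fermat.Agent.S43.Patch.Compact

set_option autoImplicit false

noncomputable section

namespace Fermat.Agent.S43.Patch.Patched

open IsLocalRing Fermat.Agent.S43.Patch.Level Fermat.Agent.S43.Patch.Basis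
  Fermat.Agent.S43.Patch.Limit Fermat.Agent.S43.Patch.System Fermat.Agent.S43.Patch.Ultra
  Fermat.Agent.S43.Patch.Compact

universe u

variable {S A₁ Aχ Abar : Type*} [CommRing S] [IsLocalRing S] [CommRing A₁] [CommRing Aχ]
  [CommRing Abar] {π₁ : A₁ →+* Abar} {πχ : Aχ →+* Abar} {lam : S} {lam₁ : A₁} {lamχ : Aχ}
  {𝔞 : Ideal S} {M0 : Type*} [AddCommGroup M0] [Module S M0] [Module A₁ M0] {d : ℕ}

/-- **adapted bases at one level** (Nakayama): a basis of `N₁` modulo `𝔪 ^ n` lifting `e`, and a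
basis of `Nχ` modulo `𝔪 ^ n` with the same reduction modulo `lam`. -/
theorem exists_adapted_bases {n : ℕ}
    (D : Datum.{u} S A₁ Aχ Abar (maximalIdeal S) π₁ πχ lam lam₁ lamχ 𝔞 M0 d n)
    (h𝔞 : 𝔞 ≤ maximalIdeal S) (hlam : lam ∈ maximalIdeal S) (e : Fin d → M0)
    (he : IsBasisMod 𝔞 e) :
    ∃ (b₁ : Fin d → D.N₁) (bχ : Fin d → D.Nχ),
      IsBasisMod (maximalIdeal S ^ n) b₁ ∧ IsBasisMod (maximalIdeal S ^ n) bχ ∧
      (∀ i, D.p₀ (b₁ i) = e i) ∧ (∀ i, D.q₁ (b₁ i) = D.qχ (bχ i)) := by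
  obtain ⟨b₀, hb₀⟩ := D.free₁
  obtain ⟨c₀, hc₀⟩ := D.freeχ
  -- lift `e`
  choose b₁ hb₁e using fun i => D.p₀_surj (e i)
  have hb₁ : IsBasisMod (maximalIdeal S ^ n) b₁ := by
    refine IsBasisMod.of_spans hb₀ 𝔞 h𝔞 fun x => ?_
    have h1 : ∀ y : M0, ∃ c : Fin d → S, Expands 𝔞 (fun i => D.p₀ (b₁ i)) y c := by
      intro y
      have h2 : (fun i => D.p₀ (b₁ i)) = e := funext hb₁e
      rw [h2]
      exact he.1 y
    obtain ⟨c, hc⟩ := spans_of_map_spans D.p₀ D.p₀_surj D.p₀_ker h1 x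
    exact ⟨c, hc.mono le_sup_left⟩
  -- lift the reduction of `b₁`
  choose bχ hbχ using fun i => D.qχ_surj (D.q₁ (b₁ i))
  have hβ : IsBasisMod (Ideal.span {lam} ⊔ maximalIdeal S ^ n) (fun i => D.q₁ (b₁ i)) :=
    IsBasisMod.map hb₁ D.q₁ D.q₁_surj D.q₁_ker
  have hbχ' : IsBasisMod (maximalIdeal S ^ n) bχ := by
    refine IsBasisMod.of_spans hc₀ (Ideal.span {lam})
      ((Ideal.span_singleton_le_iff_mem _).mpr hlam) fun x => ?_
    have h1 : ∀ y : D.Nb, ∃ c : Fin d → S,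
        Expands (Ideal.span {lam} ⊔ maximalIdeal S ^ n) (fun i => D.qχ (bχ i)) y c := by
      intro y
      have h2 : (fun i => D.qχ (bχ i)) = fun i => D.q₁ (b₁ i) := funext hbχ
      rw [h2]
      exact hβ.1 y
    exact spans_of_map_spans D.qχ D.qχ_surj
      (fun x hx => Submodule.smul_mono le_sup_left le_rfl (D.qχ_ker x hx)) h1 x
  exact ⟨b₁, bχ, hb₁, hbχ', hb₁e, fun i => (hbχ i).symm⟩

variable [IsNoetherianRing S] [IsAdicComplete (maximalIdeal S) S] [Finite (ResidueField S)]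
  [IsNoetherianRing A₁] [IsLocalRing A₁] [IsAdicComplete (maximalIdeal A₁) A₁]
  [Finite (ResidueField A₁)]
  [IsNoetherianRing Aχ] [IsLocalRing Aχ] [IsAdicComplete (maximalIdeal Aχ) Aχ]
  [Finite (ResidueField Aχ)]

/-- **THE PATCHING THEOREM** (two module systems, matrix form). -/
theorem exists_patched
    (D : ∀ n, Datum.{u} S A₁ Aχ Abar (maximalIdeal S) π₁ πχ lam lam₁ lamχ 𝔞 M0 d n)
    (h𝔞 : 𝔞 ≤ maximalIdeal S) (hlam : lam ∈ maximalIdeal S)
    (h𝔞M0 : ∀ s ∈ 𝔞, ∀ m : M0, s • m = 0) (e : Fin d → M0) (he : IsBasisMod 𝔞 e) :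
    ∃ (ρ₁ : A₁ →+* Matrix (Fin d) (Fin d) S) (ρχ : Aχ →+* Matrix (Fin d) (Fin d) S)
      (φ₁ : S →+* A₁) (φχ : S →+* Aχ),
      (∀ s, ρ₁ (φ₁ s) = s • (1 : Matrix (Fin d) (Fin d) S)) ∧
      (∀ s, ρχ (φχ s) = s • (1 : Matrix (Fin d) (Fin d) S)) ∧
      φ₁ lam = lam₁ ∧ φχ lam = lamχ ∧
      (∀ a a', π₁ a = πχ a' → MatCong (Ideal.span {lam}) (ρ₁ a) (ρχ a')) ∧
      (∀ a j, a • e j = ∑ i, ρ₁ a i j • e i) := by
  have hfinS : ∀ k, Finite (S ⧸ maximalIdeal S ^ k) := finite_quotient_pow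
  have hfin₁ : ∀ k, Finite (A₁ ⧸ maximalIdeal A₁ ^ k) := finite_quotient_pow
  have hfinχ : ∀ k, Finite (Aχ ⧸ maximalIdeal Aχ ^ k) := finite_quotient_pow
  -- adapted bases at all levels
  choose b₁ bχ hb₁ hbχ hb₁e hbb using fun n => exists_adapted_bases (D n) h𝔞 hlam e he
  -- the two systems of matrices
  let M₁ : MatSys S A₁ (maximalIdeal S) d :=
    matSys (fun n => (D n).N₁) (fun n => (D n).φ₁) (fun n => (D n).φ₁_smul) b₁ hb₁
  let Mχ : MatSys S Aχ (maximalIdeal S) d :=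
    matSys (fun n => (D n).Nχ) (fun n => (D n).φχ) (fun n => (D n).φχ_smul) bχ hbχ
  refine ⟨M₁.lim hfinS, Mχ.lim hfinS, ulimHom hfin₁ fun n => (D n).φ₁,
    ulimHom hfinχ fun n => (D n).φχ, ?_, ?_, ?_, ?_, ?_, ?_⟩
  · exact M₁.lim_ulimHom hfinS hfin₁ _ fun n s =>
      matSys_φ (fun n => (D n).N₁) (fun n => (D n).φ₁) (fun n => (D n).φ₁_smul) b₁ hb₁ n s
  · exact Mχ.lim_ulimHom hfinS hfinχ _ fun n s =>
      matSys_φ (fun n => (D n).Nχ) (fun n => (D n).φχ) (fun n => (D n).φχ_smul) bχ hbχ n s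
  · rw [ulimHom_apply]
    have h1 : (fun n => (D n).φ₁ lam) = fun _ => lam₁ := funext fun n => (D n).φ₁_lam
    rw [h1, ulim_const]
  · rw [ulimHom_apply]
    have h1 : (fun n => (D n).φχ lam) = fun _ => lamχ := funext fun n => (D n).φχ_lam
    rw [h1, ulim_const]
  · intro a a' haa
    refine M₁.lim_matCong_of_closed hfinS Mχ (Ideal.span {lam})
      (mem_of_forall_mem_sup_pow _) fun n => ?_
    exact matCong_of_common_reduction (fun n => (D n).N₁) (fun n => (D n).φ₁)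
      (fun n => (D n).φ₁_smul) b₁ hb₁ (fun n => (D n).Nχ) (fun n => (D n).φχ)
      (fun n => (D n).φχ_smul) bχ hbχ (Ideal.span {lam}) π₁ πχ (fun n => (D n).Nb)
      (fun n => (D n).q₁) (fun n => (D n).qχ) (fun n => (D n).q₁_smul)
      (fun n => (D n).qχ_smul) hbb
      (fun n => IsBasisMod.map (hb₁ n) (D n).q₁ (D n).q₁_surj (D n).q₁_ker) haa n
  · intro a j
    refine M₁.smul_eq_sum_lim hfinS
      (eq_zero_of_forall_mem_pow_smul_top 𝔞 h𝔞M0 e he) e a (fun n j => ?_) j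
    exact sub_mem_of_map_basis (fun n => (D n).N₁) (fun n => (D n).φ₁)
      (fun n => (D n).φ₁_smul) b₁ hb₁ (fun n => (D n).p₀) (fun n => (D n).p₀_smul) e hb₁e a n j

end Fermat.Agent.S43.Patch.Patched
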