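/-
S43 (row 37), PROJECT R, block `Patch`, file `Quot` (helper29): kit, the standing hypotheses of
`Main.exists_point_of_levels` (noetherian, local, complete, finite residue field) for the rings
`P ⧸ J`, `P = MvPowerSeries σ O`.

* `isPrecomplete_map_of_surjective` : the image of a precomplete ring is precomplete;
* `isAdicComplete_of_surjective` : a noetherian local quotient of a complete local ring is complete;
* `isLocalRing_quotient` ; `finite_residueField_of_surjective` ;
* `finite_residueField_mvPowerSeries` : the residue field of `O⟦σ⟧` is finite if that of `O` is.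
-/
import Mathlib

set_option autoImplicit false
set_option linter.style.haveILetI false

noncomputable section

namespace Fermat.Agent.S43.Patch.Quot

open IsLocalRing

variable {R R' : Type*} [CommRing R] [CommRing R']

/-- the image of a precomplete ring under a surjective ring homomorphism is precomplete. -/
theorem isPrecomplete_map_of_surjective (f : R →+* R') (hf : Function.Surjective f)
    (I : Ideal R) [IsPrecomplete I R] : IsPrecomplete (I.map f) R' := by
  refine ⟨fun g hg => ?_⟩
  have key : ∀ n, ∀ y ∈ (I.map f) ^ n, ∃ x ∈ I ^ n, f x = y := by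
    intro n y hy
    rw [← Ideal.map_pow] at hy
    obtain ⟨x, hx, hxy⟩ := (Ideal.mem_map_iff_of_surjective f hf).mp hy
    exact ⟨x, hx, hxy⟩
  have step : ∀ n (x : R), f x = g n → ∃ x' : R, f x' = g (n + 1) ∧ x' - x ∈ I ^ n := by
    intro n x hx
    have h1 : g (n + 1) - g n ∈ (I.map f) ^ n := by
      have h2 := hg (Nat.le_succ n)
      rw [SModEq.sub_mem, smul_eq_mul, Ideal.mul_top] at h2
      have : g (n + 1) - g n = -(g n - g (n + 1)) := by ring
      rw [this]
      exact neg_mem h2
    obtain ⟨t, ht, hft⟩ := key n _ h1
    refine ⟨x + t, ?_, by simpa using ht⟩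
    rw [map_add, hx, hft]
    ring
  obtain ⟨x0, hx0⟩ := hf (g 0)
  let X : ∀ n, {x : R // f x = g n} := fun n =>
    Nat.rec (motive := fun n => {x : R // f x = g n}) ⟨x0, hx0⟩
      (fun n x => ⟨Classical.choose (step n x.1 x.2),
        (Classical.choose_spec (step n x.1 x.2)).1⟩) n
  have hX : ∀ n, (X (n + 1)).1 - (X n).1 ∈ I ^ n := fun n =>
    (Classical.choose_spec (step n (X n).1 (X n).2)).2
  have hC : ∀ {m n}, m ≤ n → (X m).1 ≡ (X n).1 [SMOD (I ^ m • ⊤ : Submodule R R)] := by
    intro m n hmn
    induction n, hmn using Nat.le_induction with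
    | base => rfl
    | succ n hmn ih =>
      refine ih.trans ?_
      rw [SModEq.sub_mem, smul_eq_mul, Ideal.mul_top]
      have : (X n).1 - (X (n + 1)).1 = -((X (n + 1)).1 - (X n).1) := by ring
      rw [this]
      exact neg_mem (Ideal.pow_le_pow_right hmn (hX n))
  obtain ⟨L, hL⟩ := IsPrecomplete.prec inferInstance hC
  refine ⟨f L, fun n => ?_⟩
  have h1 := hL n
  rw [SModEq.sub_mem, smul_eq_mul, Ideal.mul_top] at h1 ⊢
  have h2 : g n - f L = f ((X n).1 - L) := by rw [map_sub, (X n).2]
  rw [h2, ← Ideal.map_pow]
  exact Ideal.mem_map_of_mem f h1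

/-- a noetherian local quotient of a complete local ring is complete. -/
theorem isAdicComplete_of_surjective [IsLocalRing R] [IsLocalRing R'] [IsNoetherianRing R']
    [IsPrecomplete (maximalIdeal R) R] (f : R →+* R') (hf : Function.Surjective f) :
    IsAdicComplete (maximalIdeal R') R' := by
  have h1 : IsPrecomplete ((maximalIdeal R).map f) R' := isPrecomplete_map_of_surjective f hf _
  rw [map_maximalIdeal_of_surjective f hf] at h1
  exact { toIsHausdorff := inferInstance, toIsPrecomplete := h1 }

/-- a proper quotient of a local ring is local. -/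
theorem isLocalRing_quotient [IsLocalRing R] (J : Ideal R) (hJ : J ≠ ⊤) : IsLocalRing (R ⧸ J) := by
  haveI : Nontrivial (R ⧸ J) := Ideal.Quotient.nontrivial_iff.mpr hJ
  exact IsLocalRing.of_surjective' (Ideal.Quotient.mk J) Ideal.Quotient.mk_surjective

/-- a proper quotient of a complete noetherian local ring is complete. -/
theorem isAdicComplete_quotient [IsLocalRing R] [IsNoetherianRing R]
    [IsPrecomplete (maximalIdeal R) R] (J : Ideal R) [IsLocalRing (R ⧸ J)] :
    IsAdicComplete (maximalIdeal (R ⧸ J)) (R ⧸ J) :=
  isAdicComplete_of_surjective (Ideal.Quotient.mk J) Ideal.Quotient.mk_surjective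

/-- finiteness of the residue field passes to quotients. -/
theorem finite_residueField_of_surjective [IsLocalRing R] [IsLocalRing R']
    [Finite (ResidueField R)] (f : R →+* R') (hf : Function.Surjective f) :
    Finite (ResidueField R') := by
  haveI := IsLocalHom.of_surjective f hf
  refine Finite.of_surjective (ResidueField.map f) ?_
  intro y
  obtain ⟨y', rfl⟩ := residue_surjective y
  obtain ⟨x, rfl⟩ := hf y'
  exact ⟨residue R x, rfl⟩

/-- the residue field of a power series ring is that of the coefficients. -/
theorem finite_residueField_mvPowerSeries {σ O : Type*} [CommRing O] [IsLocalRing O]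
    [Finite (ResidueField O)] : Finite (ResidueField (MvPowerSeries σ O)) := by
  haveI : IsLocalHom (MvPowerSeries.C (σ := σ) (R := O)) := by
    refine ⟨fun a ha => ?_⟩
    have := ha.map (MvPowerSeries.constantCoeff (σ := σ) (R := O))
    rwa [MvPowerSeries.constantCoeff_C] at this
  refine Finite.of_surjective (ResidueField.map (MvPowerSeries.C (σ := σ) (R := O))) ?_
  intro y
  obtain ⟨f, rfl⟩ := residue_surjective y
  refine ⟨residue O (MvPowerSeries.constantCoeff f), ?_⟩
  rw [ResidueField.map_residue]
  symm
  rw [← sub_eq_zero, ← map_sub, residue_eq_zero_iff, mem_maximalIdeal, mem_nonunits_iff,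
    MvPowerSeries.isUnit_iff_constantCoeff]
  simp

end Fermat.Agent.S43.Patch.Quot
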