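/-
S43 (row 37), PROJECT R, block `Patch`, file `Points` (helper29): kit N2, the DENSE SETS OF POINTS
consumed by `Support.le_radical_of_forall_points` and the SUPPORT OF A QUOTIENT `M / x M`.

Pure commutative algebra on top of Mathlib.

* `ptsAway ϖ` : the primes of `S` that do not contain `ϖ` ("characteristic-zero points" when
  `ϖ = λ` or `ϖ = p`).  `isPrime_of_mem_ptsAway`, `eq_zero_of_forall_mem_ptsAway` : in a domain `S`
  with `ϖ ≠ 0` they have zero intersection.  This is the cheapest dense set: no evaluation of power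
  series, no completeness.  A prime `𝔮` of `A` lying over a point of `ptsAway ϖ` does not contain
  the image of `ϖ` (`not_mem_of_comap_mem_ptsAway`).
* `augIdeal σ O` : the augmentation ideal `ker (constantCoeff)` of `O⟦y_i : i ∈ σ⟧`; it is prime
  when `O` is a domain, and does not contain the constants `C c`, `c ≠ 0`
  (`augIdeal_isPrime`, `C_mem_augIdeal_iff`, `augIdeal_mem_ptsAway`).
* `annihilator_quotSMulTop_le` : for a finite module `M` over `A`, every prime containing `Ann M`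
  and `x` contains `Ann (M / x M)`  (`Supp (M / x M) = Supp M ∩ V(x)`, from Mathlib's
  `Module.support_quotSMulTop`).
-/
import Mathlib

set_option autoImplicit false

noncomputable section

namespace Fermat.Agent.S43.Patch.Points

open Ideal

section Away

variable {S : Type*} [CommRing S]

/-- the primes of `S` that do not contain `ϖ`. -/
def ptsAway (ϖ : S) : Set (Ideal S) := {𝔞 | 𝔞.IsPrime ∧ ϖ ∉ 𝔞}

theorem mem_ptsAway {ϖ : S} {𝔞 : Ideal S} : 𝔞 ∈ ptsAway ϖ ↔ 𝔞.IsPrime ∧ ϖ ∉ 𝔞 := Iff.rfl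

theorem isPrime_of_mem_ptsAway {ϖ : S} : ∀ 𝔞 ∈ ptsAway ϖ, 𝔞.IsPrime := fun _ h => h.1

/-- **Density.**  In a domain, the primes not containing a given nonzero element have zero
intersection. -/
theorem eq_zero_of_forall_mem_ptsAway [IsDomain S] {ϖ : S} (hϖ : ϖ ≠ 0) (s : S)
    (h : ∀ 𝔞 ∈ ptsAway ϖ, s ∈ 𝔞) : s = 0 := by
  by_contra hs
  have hne : ϖ * s ≠ 0 := mul_ne_zero hϖ hs
  have hdisj : Disjoint ((⊥ : Ideal S) : Set S) (Submonoid.powers (ϖ * s) : Set S) := by
    rw [Set.disjoint_left]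
    rintro x hx ⟨n, rfl⟩
    exact pow_ne_zero n hne (by simpa using hx)
  obtain ⟨P, hPp, -, hPd⟩ := Ideal.exists_le_prime_disjoint (⊥ : Ideal S)
    (Submonoid.powers (ϖ * s)) hdisj
  have hnot : ϖ * s ∉ P := fun hmem =>
    Set.disjoint_left.mp hPd hmem (Submonoid.mem_powers _)
  have hϖP : ϖ ∉ P := fun hmem => hnot (P.mul_mem_right s hmem)
  exact hnot (P.mul_mem_left ϖ (h P ⟨hPp, hϖP⟩))

/-- a prime lying over a point of `ptsAway ϖ` does not contain the image of `ϖ`. -/
theorem not_mem_of_comap_mem_ptsAway {A : Type*} [CommRing A] [Algebra S A] {ϖ : S}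
    {𝔮 : Ideal A} (h : 𝔮.comap (algebraMap S A) ∈ ptsAway ϖ) : algebraMap S A ϖ ∉ 𝔮 :=
  fun hmem => h.2 (Ideal.mem_comap.mpr hmem)

end Away

section Aug

variable (σ : Type*) (O : Type*) [CommRing O]

/-- the augmentation ideal of `O⟦y_i : i ∈ σ⟧`. -/
def augIdeal : Ideal (MvPowerSeries σ O) := RingHom.ker (MvPowerSeries.constantCoeff (σ := σ) (R := O))

theorem mem_augIdeal {f : MvPowerSeries σ O} :
    f ∈ augIdeal σ O ↔ MvPowerSeries.constantCoeff f = 0 := RingHom.mem_ker

theorem X_mem_augIdeal (i : σ) : (MvPowerSeries.X i : MvPowerSeries σ O) ∈ augIdeal σ O := by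
  rw [mem_augIdeal, MvPowerSeries.constantCoeff_X]

theorem C_mem_augIdeal_iff {c : O} : MvPowerSeries.C (σ := σ) c ∈ augIdeal σ O ↔ c = 0 := by
  rw [mem_augIdeal, MvPowerSeries.constantCoeff_C]

instance augIdeal_isPrime [IsDomain O] : (augIdeal σ O).IsPrime :=
  RingHom.ker_isPrime _

/-- `O⟦y⟧ / (y) = O`. -/
def quotAugEquiv : (MvPowerSeries σ O ⧸ augIdeal σ O) ≃+* O :=
  RingHom.quotientKerEquivOfSurjective (f := MvPowerSeries.constantCoeff (σ := σ) (R := O))
    (fun c => ⟨MvPowerSeries.C c, MvPowerSeries.constantCoeff_C c⟩)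

theorem quotAugEquiv_mk (f : MvPowerSeries σ O) :
    quotAugEquiv σ O (Ideal.Quotient.mk _ f) = MvPowerSeries.constantCoeff f := rfl

/-- the augmentation ideal is a characteristic-zero point: it does not contain a nonzero
constant. -/
theorem augIdeal_mem_ptsAway [IsDomain O] {c : O} (hc : c ≠ 0) :
    augIdeal σ O ∈ ptsAway (MvPowerSeries.C (σ := σ) c) :=
  ⟨inferInstance, fun h => hc ((C_mem_augIdeal_iff σ O).mp h)⟩

end Aug

section Quot

variable {A M : Type*} [CommRing A] [AddCommGroup M] [Module A M] [Module.Finite A M]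

/-- `Supp (M / x M) ⊇ Supp M ∩ V(x)`: a prime containing `Ann M` and `x` contains
`Ann (M / x M)`. -/
theorem annihilator_quotSMulTop_le (x : A) (𝔮 : Ideal A) [h𝔮 : 𝔮.IsPrime]
    (hann : Module.annihilator A M ≤ 𝔮) (hx : x ∈ 𝔮) :
    Module.annihilator A (QuotSMulTop x M) ≤ 𝔮 := by
  have h1 : (⟨𝔮, h𝔮⟩ : PrimeSpectrum A) ∈ Module.support A M :=
    Module.mem_support_iff_of_finite.mpr hann
  have h2 : (⟨𝔮, h𝔮⟩ : PrimeSpectrum A) ∈ Module.support A (QuotSMulTop x M) := by
    rw [Module.support_quotSMulTop]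
    exact ⟨h1, by simpa [PrimeSpectrum.mem_zeroLocus] using hx⟩
  exact Module.mem_support_iff_of_finite.mp h2

/-- `Supp (M / x M) ⊆ Supp M ∩ V(x)`. -/
theorem le_of_annihilator_quotSMulTop_le (x : A) (𝔮 : Ideal A) [h𝔮 : 𝔮.IsPrime]
    (hann : Module.annihilator A (QuotSMulTop x M) ≤ 𝔮) :
    Module.annihilator A M ≤ 𝔮 ∧ x ∈ 𝔮 := by
  have h2 : (⟨𝔮, h𝔮⟩ : PrimeSpectrum A) ∈ Module.support A (QuotSMulTop x M) :=
    Module.mem_support_iff_of_finite.mpr hann
  rw [Module.support_quotSMulTop] at h2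
  exact ⟨Module.mem_support_iff_of_finite.mp h2.1, by
    simpa [PrimeSpectrum.mem_zeroLocus] using h2.2⟩

end Quot

end Fermat.Agent.S43.Patch.Points
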