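/-
S43 (row 37), PROJECT R, block `Patch`, file `GroupRing` (helper29): THE DIAMOND ALGEBRA.

`O` a complete Noetherian local ring with `p ∈ 𝔪_O`, `Δ ≃ ∏_{i < r} ℤ/p^{N_i}` with generators
`δ_i` (`gen`), `S = O⟦X_1..X_r⟧`, `T = O[Δ]`.

* `isLocalRing_monoidAlgebra`, `maximalIdeal_monoidAlgebra`, `isAdicComplete_monoidAlgebra` :
  `T` is a complete local ring with maximal ideal `(𝔪_O, δ_i - 1)`.
* `exists_diamondHom`, `exists_diamondHom_of_equiv` : there is a surjective `O`-algebra map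
  `γ : S → T`, `X_i ↦ δ_i - 1`, and `ker γ ≤ 𝔪_S ^ n` as soon as `n ≤ N_i` for all `i`
  (`ker_le_of_hom`: no Weierstrass preparation, only the character `δ_i ↦ 1 + X_i` of `Δ` with
  values in `S / 𝔪_S ^ n`).
* for a `T`-module `M` seen as an `S`-module through `γ`:
  `isBasisMod_of_basis` (a `T`-basis is a basis modulo `𝔪_S ^ n` in the sense of `Level`),
  `mem_augIdeal_smul_top` (the augmentation submodule lies in `augIdeal • M`),
  `mem_span_C_smul_top` (`ϖ M` is `(C ϖ) • M`).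
-/
import Mathlib
import Fermat.Prelude.Thm_IsLocalRing_isAdicComplete_of_module_finite
import Fermat.Agent.Lib.MvPSComplete
import Fermat.Agent.S56.Tan.PowerSeriesSurj
import Fermat.Agent.S43.Patch.Level
import Fermat.Agent.S43.Patch.Points

set_option autoImplicit false

noncomputable section

namespace Fermat.Agent.S43.Patch.GroupRing

open IsLocalRing


/-! ### a binomial congruence -/

theorem one_add_pow_prime_pow_sub_one_mem {R : Type*} [CommRing R] (I : Ideal R) {p : ℕ}
    (hp : p.Prime) (hpI : (p : R) ∈ I) {x : R} (hx : x ∈ I) (k : ℕ) :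
    (1 + x) ^ p ^ k - 1 ∈ I ^ (k + 1) := by
  induction k with
  | zero => simpa using hx
  | succ k ih =>
    set y := (1 + x) ^ p ^ k - 1 with hy
    have h1 : (1 + x) ^ p ^ (k + 1) = (1 + y) ^ p := by
      rw [pow_succ, pow_mul, hy]; congr 1; ring
    obtain ⟨r, hr⟩ := exists_add_pow_prime_eq hp 1 y
    have h2 : (1 + x) ^ p ^ (k + 1) - 1 = y ^ p + (p : R) * y * r := by
      rw [h1, hr]; ring
    rw [h2]
    refine Ideal.add_mem _ ?_ ?_
    · have h3 : y ^ p ∈ (I ^ (k + 1)) ^ p := Ideal.pow_mem_pow ih p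
      rw [← pow_mul] at h3
      refine Ideal.pow_le_pow_right ?_ h3
      have := hp.two_le
      nlinarith
    · have h3 : (p : R) * y ∈ I * I ^ (k + 1) := Ideal.mul_mem_mul hpI ih
      rw [← pow_succ'] at h3
      exact Ideal.mul_mem_right _ _ h3

/-- `(g - 1) ^ (p ^ k) ∈ (p)` when `g ^ (p ^ k) = 1`. -/
theorem sub_one_pow_prime_pow_mem {R : Type*} [CommRing R] {p : ℕ} (hp : p.Prime) {g : R} {k : ℕ}
    (hg : g ^ p ^ k = 1) : (g - 1) ^ p ^ k ∈ Ideal.span {(p : R)} := by
  obtain ⟨r, hr⟩ := exists_add_pow_prime_pow_eq hp (g - 1) 1 k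
  rw [sub_add_cancel, hg, one_pow] at hr
  have : (g - 1) ^ p ^ k = (p : R) * (-((g - 1) * 1 * r)) := by linear_combination (-1 : R) * hr
  rw [this]
  exact Ideal.mul_mem_right _ _ (Ideal.subset_span rfl)



/-! ### the group ring of a finite abelian `p`-group over a local ring -/

section GroupRing

variable (O : Type*) [CommRing O] (Δ : Type*) [CommGroup Δ]

/-- the augmentation `O[Δ] → O` -/
def aug : MonoidAlgebra O Δ →ₐ[O] O := MonoidAlgebra.lift O O Δ 1

variable {O Δ}

@[simp] theorem aug_of (g : Δ) : aug O Δ (MonoidAlgebra.of O Δ g) = 1 := by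
  rw [aug, MonoidAlgebra.lift_of]; rfl

theorem aug_single (g : Δ) (a : O) : aug O Δ (MonoidAlgebra.single g a) = a := by
  rw [aug, MonoidAlgebra.lift_single]; simp

theorem aug_surjective : Function.Surjective (aug O Δ) := fun a =>
  ⟨algebraMap O _ a, by rw [AlgHom.commutes]; rfl⟩

/-- the ideal generated by the `δ i - 1` -/
def genIdeal {ι : Type*} (δ : ι → Δ) : Ideal (MonoidAlgebra O Δ) :=
  Ideal.span (Set.range fun i => MonoidAlgebra.of O Δ (δ i) - 1)

theorem of_sub_one_mem_genIdeal {ι : Type*} (δ : ι → Δ)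
    (hδ : Submonoid.closure (Set.range δ) = ⊤) (g : Δ) :
    MonoidAlgebra.of O Δ g - 1 ∈ genIdeal (O := O) δ := by
  have hg : g ∈ Submonoid.closure (Set.range δ) := by rw [hδ]; trivial
  induction hg using Submonoid.closure_induction with
  | mem x hx =>
    obtain ⟨i, rfl⟩ := hx
    exact Ideal.subset_span ⟨i, rfl⟩
  | one => rw [map_one, sub_self]; exact Ideal.zero_mem _
  | mul x y _ _ hx hy =>
    have : MonoidAlgebra.of O Δ (x * y) - 1
        = MonoidAlgebra.of O Δ x * (MonoidAlgebra.of O Δ y - 1) + (MonoidAlgebra.of O Δ x - 1) := by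
      rw [map_mul]; ring
    rw [this]
    exact Ideal.add_mem _ (Ideal.mul_mem_left _ _ hy) hx

theorem sub_algebraMap_aug_mem {I : Ideal (MonoidAlgebra O Δ)}
    (hI : ∀ g : Δ, MonoidAlgebra.of O Δ g - 1 ∈ I) (x : MonoidAlgebra O Δ) :
    x - algebraMap O (MonoidAlgebra O Δ) (aug O Δ x) ∈ I := by
  induction x using MonoidAlgebra.induction_on with
  | of g => rw [aug_of, map_one]; exact hI g
  | add x y hx hy =>
    have : x + y - algebraMap O (MonoidAlgebra O Δ) (aug O Δ (x + y))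
        = (x - algebraMap O (MonoidAlgebra O Δ) (aug O Δ x))
          + (y - algebraMap O (MonoidAlgebra O Δ) (aug O Δ y)) := by
      rw [map_add, map_add]; ring
    rw [this]; exact Ideal.add_mem _ hx hy
  | smul r x hx =>
    have : r • x - algebraMap O (MonoidAlgebra O Δ) (aug O Δ (r • x))
        = algebraMap O (MonoidAlgebra O Δ) r * (x - algebraMap O (MonoidAlgebra O Δ) (aug O Δ x)) := by
      rw [map_smul, smul_eq_mul, map_mul, Algebra.smul_def]; ring
    rw [this]; exact Ideal.mul_mem_left _ _ hx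

theorem isLocalHom_algebraMap : IsLocalHom (algebraMap O (MonoidAlgebra O Δ)) := by
  refine ⟨fun a ha => ?_⟩
  have := ha.map (aug O Δ)
  rwa [AlgHom.commutes] at this

end GroupRing


/-! ### `O[Δ]` is local -/

section Local

variable {O : Type*} [CommRing O] [IsLocalRing O] {Δ : Type*} [CommGroup Δ]
  {ι : Type*} (δ : ι → Δ)

/-- the maximal ideal of `O[Δ]`: generated by `𝔪_O` and the `δ i - 1` -/
def maxIdeal : Ideal (MonoidAlgebra O Δ) :=
  (maximalIdeal O).map (algebraMap O (MonoidAlgebra O Δ)) ⊔ genIdeal (O := O) δ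

variable (O Δ) in
/-- the augmentation followed by the residue map -/
def augRes : MonoidAlgebra O Δ →+* ResidueField O := (residue O).comp (aug O Δ).toRingHom

theorem augRes_apply (x : MonoidAlgebra O Δ) : augRes O Δ x = residue O (aug O Δ x) := rfl

theorem augRes_surjective : Function.Surjective (augRes O Δ) :=
  (residue_surjective (R := O)).comp aug_surjective

theorem ker_augRes (hδ : Submonoid.closure (Set.range δ) = ⊤) :
    RingHom.ker (augRes O Δ) = maxIdeal (O := O) δ := by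
  apply le_antisymm
  · intro x hx
    rw [RingHom.mem_ker, augRes_apply, residue_eq_zero_iff] at hx
    have h1 := sub_algebraMap_aug_mem (I := genIdeal (O := O) δ) (of_sub_one_mem_genIdeal δ hδ) x
    have h2 : x = algebraMap O (MonoidAlgebra O Δ) (aug O Δ x)
        + (x - algebraMap O (MonoidAlgebra O Δ) (aug O Δ x)) := by ring
    rw [h2]
    exact Ideal.add_mem _ (Ideal.mem_sup_left (Ideal.mem_map_of_mem _ hx)) (Ideal.mem_sup_right h1)
  · rw [maxIdeal, sup_le_iff]
    constructor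
    · rw [Ideal.map_le_iff_le_comap]
      intro c hc
      rw [Ideal.mem_comap, RingHom.mem_ker, augRes_apply, AlgHom.commutes, residue_eq_zero_iff]
      exact hc
    · rw [genIdeal, Ideal.span_le]
      rintro _ ⟨i, rfl⟩
      rw [SetLike.mem_coe, RingHom.mem_ker, augRes_apply, map_sub, aug_of, map_one, sub_self,
        map_zero]

theorem maxIdeal_isMaximal (hδ : Submonoid.closure (Set.range δ) = ⊤) :
    (maxIdeal (O := O) δ).IsMaximal := by
  rw [← ker_augRes δ hδ]
  exact RingHom.ker_isMaximal_of_surjective _ augRes_surjective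

theorem maxIdeal_le_of_isMaximal [Finite Δ] {p : ℕ} (hp : p.Prime) (hpO : (p : O) ∈ maximalIdeal O)
    (N : ι → ℕ) (hN : ∀ i, δ i ^ p ^ N i = 1) (𝔫 : Ideal (MonoidAlgebra O Δ)) [𝔫.IsMaximal] :
    maxIdeal (O := O) δ ≤ 𝔫 := by
  have : Algebra.IsIntegral O (MonoidAlgebra O Δ) := Algebra.IsIntegral.of_finite _ _
  have h1 : (maximalIdeal O).map (algebraMap O (MonoidAlgebra O Δ)) ≤ 𝔫 := by
    rw [Ideal.map_le_iff_le_comap]
    have := Ideal.isMaximal_comap_of_isIntegral_of_isMaximal (R := O) 𝔫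
    rw [IsLocalRing.eq_maximalIdeal this]
  rw [maxIdeal, sup_le_iff]
  refine ⟨h1, ?_⟩
  rw [genIdeal, Ideal.span_le]
  rintro _ ⟨i, rfl⟩
  have h2 : (MonoidAlgebra.of O Δ (δ i)) ^ p ^ N i = 1 := by rw [← map_pow, hN, map_one]
  have h3 := sub_one_pow_prime_pow_mem hp h2
  have h4 : Ideal.span {((p : ℕ) : MonoidAlgebra O Δ)} ≤ 𝔫 := by
    rw [Ideal.span_le, Set.singleton_subset_iff]
    apply h1
    have : ((p : ℕ) : MonoidAlgebra O Δ) = algebraMap O (MonoidAlgebra O Δ) (p : O) := by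
      rw [map_natCast]
    rw [this]
    exact Ideal.mem_map_of_mem _ hpO
  exact Ideal.IsPrime.mem_of_pow_mem inferInstance _ (h4 h3)

theorem isLocalRing_monoidAlgebra [Finite Δ] (hδ : Submonoid.closure (Set.range δ) = ⊤) {p : ℕ}
    (hp : p.Prime) (hpO : (p : O) ∈ maximalIdeal O) (N : ι → ℕ) (hN : ∀ i, δ i ^ p ^ N i = 1) :
    IsLocalRing (MonoidAlgebra O Δ) := by
  have hmax := maxIdeal_isMaximal (O := O) δ hδ
  refine IsLocalRing.of_unique_max_ideal ⟨maxIdeal (O := O) δ, hmax, fun 𝔫 h𝔫 => ?_⟩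
  have := h𝔫
  exact (hmax.eq_of_le h𝔫.ne_top (maxIdeal_le_of_isMaximal δ hp hpO N hN 𝔫)).symm

theorem maximalIdeal_monoidAlgebra [IsLocalRing (MonoidAlgebra O Δ)]
    (hδ : Submonoid.closure (Set.range δ) = ⊤) :
    maximalIdeal (MonoidAlgebra O Δ) = maxIdeal (O := O) δ :=
  (IsLocalRing.eq_maximalIdeal (maxIdeal_isMaximal (O := O) δ hδ)).symm

end Local


/-! ### the diamond map `O⟦X_1..X_r⟧ → O[Δ]`, `X_i ↦ δ_i - 1` -/

section Diamond

variable {O : Type*} [CommRing O] [IsLocalRing O] [IsNoetherianRing O]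
  [IsAdicComplete (maximalIdeal O) O] {Δ : Type*} [CommGroup Δ] [Finite Δ] {r : ℕ} (δ : Fin r → Δ)

theorem isAdicComplete_monoidAlgebra [IsLocalRing (MonoidAlgebra O Δ)] :
    IsAdicComplete (maximalIdeal (MonoidAlgebra O Δ)) (MonoidAlgebra O Δ) := by
  have := isLocalHom_algebraMap (O := O) (Δ := Δ)
  exact IsLocalRing.isAdicComplete_of_module_finite (𝒪 := O)

theorem exists_diamondHom (hδ : Submonoid.closure (Set.range δ) = ⊤) {p : ℕ}
    (hp : p.Prime) (hpO : (p : O) ∈ maximalIdeal O) (N : Fin r → ℕ)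
    (hN : ∀ i, δ i ^ p ^ N i = 1) :
    ∃ γ : MvPowerSeries (Fin r) O →ₐ[O] MonoidAlgebra O Δ, Function.Surjective γ ∧
      ∀ i, γ (MvPowerSeries.X i) = MonoidAlgebra.of O Δ (δ i) - 1 := by
  have hloc := isLocalRing_monoidAlgebra (O := O) δ hδ hp hpO N hN
  have hlh := isLocalHom_algebraMap (O := O) (Δ := Δ)
  have hcomp := isAdicComplete_monoidAlgebra (O := O) (Δ := Δ)
  have hmax := maximalIdeal_monoidAlgebra (O := O) δ hδ
  refine Fermat.Agent.S56.Tan.PowerSeriesSurj.exists_surjective ?_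
    (fun i => MonoidAlgebra.of O Δ (δ i) - 1) ?_ ?_
  · intro y
    obtain ⟨x, rfl⟩ := residue_surjective y
    refine ⟨aug O Δ x, ?_⟩
    rw [Function.comp_apply]
    symm
    rw [← sub_eq_zero, ← map_sub, residue_eq_zero_iff, hmax]
    exact Ideal.mem_sup_right (sub_algebraMap_aug_mem (of_sub_one_mem_genIdeal δ hδ) x)
  · intro i
    rw [hmax]
    exact Ideal.mem_sup_right (Ideal.subset_span ⟨i, rfl⟩)
  · rw [hmax]
    exact le_sup_left

end Diamond



/-! ### every power series is a polynomial modulo `(X) ^ n` -/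

section Trunc

variable {O : Type*} [CommRing O] {σ : Type*} [Finite σ]

theorem exists_polynomial_sub_mem (n : ℕ) (f : MvPowerSeries σ O) :
    ∃ q : MvPolynomial σ O, f - (q : MvPowerSeries σ O) ∈
      Ideal.span (Set.range fun s => (MvPowerSeries.X s : MvPowerSeries σ O)) ^ n := by
  classical
  have := Fintype.ofFinite σ
  induction n generalizing f with
  | zero => exact ⟨0, by simp⟩
  | succ n ih =>
    have h0 : f - MvPowerSeries.C (MvPowerSeries.constantCoeff f) ∈
        Ideal.span (Set.range fun s => (MvPowerSeries.X s : MvPowerSeries σ O)) :=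
      Fermat.Agent.Lib.MvPSComplete.mem_span_range_X_of_constantCoeff_eq_zero _ (by simp)
    obtain ⟨c, hc⟩ := (Ideal.mem_span_range_iff_exists_fun).mp h0
    choose q hq using fun s => ih (c s)
    generalize MvPowerSeries.constantCoeff f = a₀ at hc
    refine ⟨MvPolynomial.C a₀ + ∑ s, MvPolynomial.X s * q s, ?_⟩
    have h1 : f - ((MvPolynomial.C a₀ + ∑ s, MvPolynomial.X s * q s :
        MvPolynomial σ O) : MvPowerSeries σ O)
        = ∑ s, (c s - (q s : MvPowerSeries σ O)) * MvPowerSeries.X s := by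
      have h2 : f = MvPowerSeries.C a₀ + ∑ s, c s * MvPowerSeries.X s := by rw [hc]; ring
      conv_lhs => rw [h2]
      rw [MvPolynomial.coe_add, MvPolynomial.coe_C, add_sub_add_left_eq_sub,
        ← MvPolynomial.coeToMvPowerSeries.ringHom_apply, map_sum, ← Finset.sum_sub_distrib]
      refine Finset.sum_congr rfl fun s _ => ?_
      rw [MvPolynomial.coeToMvPowerSeries.ringHom_apply, MvPolynomial.coe_mul, MvPolynomial.coe_X]
      ring
    rw [h1, pow_succ]
    exact Ideal.sum_mem _ fun s _ => Ideal.mul_mem_mul (hq s) (Ideal.subset_span ⟨s, rfl⟩)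

end Trunc


/-! ### the kernel of the diamond map is small -/

section Kernel

variable {O : Type*} [CommRing O] [IsLocalRing O] {Δ : Type*} [CommGroup Δ] {r : ℕ}
  (δ : Fin r → Δ)

theorem span_X_le_maximalIdeal :
    Ideal.span (Set.range fun s => (MvPowerSeries.X s : MvPowerSeries (Fin r) O)) ≤
      maximalIdeal (MvPowerSeries (Fin r) O) := by
  rw [Fermat.Agent.Lib.MvPSComplete.maximalIdeal_eq]
  exact le_sup_left

/-- if `δ_i ↦ 1 + X_i` extends to a character `Δ → (O⟦X⟧ / 𝔪 ^ n)ˣ` then the kernel of the diamond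
map lies in `𝔪 ^ n`. -/
theorem ker_le_of_hom (γ : MvPowerSeries (Fin r) O →ₐ[O] MonoidAlgebra O Δ)
    (hγ : ∀ i, γ (MvPowerSeries.X i) = MonoidAlgebra.of O Δ (δ i) - 1) (n : ℕ)
    (Φ : Δ →* MvPowerSeries (Fin r) O ⧸ maximalIdeal (MvPowerSeries (Fin r) O) ^ n)
    (hΦ : ∀ i, Φ (δ i) = Ideal.Quotient.mk _ (1 + MvPowerSeries.X i)) :
    RingHom.ker γ ≤ maximalIdeal (MvPowerSeries (Fin r) O) ^ n := by
  generalize h𝔪n : maximalIdeal (MvPowerSeries (Fin r) O) ^ n = 𝔪n at Φ hΦ ⊢
  set I : Ideal (MvPowerSeries (Fin r) O) :=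
    Ideal.span (Set.range fun s => (MvPowerSeries.X s : MvPowerSeries (Fin r) O)) with hI
  let β : MonoidAlgebra O Δ →ₐ[O] (MvPowerSeries (Fin r) O ⧸ 𝔪n) :=
    MonoidAlgebra.lift O _ Δ Φ
  let φ : MvPowerSeries (Fin r) O →ₐ[O] (MvPowerSeries (Fin r) O ⧸ 𝔪n) := β.comp γ
  let ψ : MvPowerSeries (Fin r) O →ₐ[O] (MvPowerSeries (Fin r) O ⧸ 𝔪n) :=
    Ideal.Quotient.mkₐ O 𝔪n
  have hφX : ∀ i, φ (MvPowerSeries.X i) = ψ (MvPowerSeries.X i) := by
    intro i
    show β (γ (MvPowerSeries.X i)) = Ideal.Quotient.mk 𝔪n (MvPowerSeries.X i)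
    rw [hγ, map_sub, map_one]
    show MonoidAlgebra.lift O _ Δ Φ (MonoidAlgebra.of O Δ (δ i)) - 1 = _
    rw [MonoidAlgebra.lift_of, hΦ, map_add, map_one, add_sub_cancel_left]
  -- agreement on polynomials
  have hpoly : ∀ q : MvPolynomial (Fin r) O, φ (q : MvPowerSeries (Fin r) O) = ψ q := by
    intro q
    have : φ.comp (MvPolynomial.coeToMvPowerSeries.algHom (R := O) (σ := Fin r) O)
        = ψ.comp (MvPolynomial.coeToMvPowerSeries.algHom (R := O) (σ := Fin r) O) := by
      apply MvPolynomial.algHom_ext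
      intro i
      simpa using hφX i
    have := DFunLike.congr_fun this q
    simpa using this
  -- both kill `I ^ n`
  have hIm : I ^ n ≤ 𝔪n := h𝔪n ▸ Ideal.pow_right_mono span_X_le_maximalIdeal n
  have hψI : ∀ g ∈ I ^ n, ψ g = 0 := fun g hg =>
    Ideal.Quotient.eq_zero_iff_mem.mpr (hIm hg)
  have hφI : ∀ g ∈ I ^ n, φ g = 0 := by
    intro g hg
    have h1 : φ g ∈ Ideal.map φ.toRingHom (I ^ n) := Ideal.mem_map_of_mem φ.toRingHom hg
    have h2 : Ideal.map φ.toRingHom I = Ideal.map ψ.toRingHom I := by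
      rw [hI, Ideal.map_span, Ideal.map_span]
      congr 1
      ext y
      constructor
      · rintro ⟨_, ⟨i, rfl⟩, rfl⟩
        exact ⟨_, ⟨i, rfl⟩, (hφX i).symm⟩
      · rintro ⟨_, ⟨i, rfl⟩, rfl⟩
        exact ⟨_, ⟨i, rfl⟩, hφX i⟩
    rw [Ideal.map_pow, h2, ← Ideal.map_pow] at h1
    have h3 : Ideal.map ψ.toRingHom (I ^ n) ≤ ⊥ := by
      rw [Ideal.map_le_iff_le_comap]
      intro x hx
      rw [Ideal.mem_comap, Ideal.mem_bot]
      exact hψI x hx
    exact (Ideal.mem_bot).mp (h3 h1)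
  intro f hf
  rw [RingHom.mem_ker] at hf
  obtain ⟨q, hq⟩ := exists_polynomial_sub_mem n f
  have h1 : φ f = ψ f := by
    have hf' : f = (q : MvPowerSeries (Fin r) O) + (f - q) := by ring
    rw [hf', map_add, map_add, hpoly, hφI _ hq, hψI _ hq]
  have h2 : φ f = 0 := by
    show β (γ f) = 0
    rw [hf, map_zero]
  rw [h1] at h2
  exact Ideal.Quotient.eq_zero_iff_mem.mp h2

end Kernel



/-! ### characters of a product of cyclic groups -/

section Cyclic

/-- the character of `Multiplicative (ZMod m)` with `1 ↦ u`, for `u ^ m = 1` -/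
def zmodPowHom {M : Type*} [Monoid M] (m : ℕ) [NeZero m] (u : M) (hu : u ^ m = 1) :
    Multiplicative (ZMod m) →* M where
  toFun g := u ^ (Multiplicative.toAdd g).val
  map_one' := by simp
  map_mul' a b := by
    rw [toAdd_mul, ZMod.val_add, ← pow_eq_pow_mod _ hu, pow_add]

theorem zmodPowHom_ofAdd_one {M : Type*} [Monoid M] (m : ℕ) [NeZero m] (u : M) (hu : u ^ m = 1) :
    zmodPowHom m u hu (Multiplicative.ofAdd 1) = u := by
  show u ^ (1 : ZMod m).val = u
  by_cases hm : m = 1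
  · subst hm
    rw [pow_one] at hu
    rw [hu, one_pow]
  · rw [ZMod.val_one'' hm, pow_one]

variable {r : ℕ} (m : Fin r → ℕ) [∀ i, NeZero (m i)]

/-- the character of `∏ i, ZMod (m i)` with `e_i ↦ u i` -/
def piHom {M : Type*} [CommMonoid M] (u : Fin r → M) (hu : ∀ i, u i ^ m i = 1) :
    ((i : Fin r) → Multiplicative (ZMod (m i))) →* M where
  toFun g := ∏ i, zmodPowHom (m i) (u i) (hu i) (g i)
  map_one' := by simp
  map_mul' a b := by simp [Finset.prod_mul_distrib]

theorem piHom_mulSingle {M : Type*} [CommMonoid M] (u : Fin r → M) (hu : ∀ i, u i ^ m i = 1)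
    (i : Fin r) : piHom m u hu (Pi.mulSingle i (Multiplicative.ofAdd 1)) = u i := by
  show ∏ j, zmodPowHom (m j) (u j) (hu j) ((Pi.mulSingle i (Multiplicative.ofAdd 1) :
    (i : Fin r) → Multiplicative (ZMod (m i))) j) = u i
  rw [Finset.prod_eq_single i]
  · rw [Pi.mulSingle_eq_same, zmodPowHom_ofAdd_one]
  · intro j _ hj
    rw [Pi.mulSingle_eq_of_ne hj, map_one]
  · intro h; exact absurd (Finset.mem_univ i) h

omit [∀ i, NeZero (m i)] in
theorem mulSingle_pow_eq_one (i : Fin r) :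
    (Pi.mulSingle i (Multiplicative.ofAdd 1) : (i : Fin r) → Multiplicative (ZMod (m i))) ^ m i
      = 1 := by
  rw [← Pi.mulSingle_pow, ← ofAdd_nsmul, nsmul_one, ZMod.natCast_self, ofAdd_zero,
    Pi.mulSingle_one]

theorem closure_range_mulSingle :
    Submonoid.closure (Set.range fun i : Fin r =>
      (Pi.mulSingle i (Multiplicative.ofAdd 1) : (i : Fin r) → Multiplicative (ZMod (m i)))) = ⊤ := by
  rw [eq_top_iff]
  intro g _
  rw [← Finset.univ_prod_mulSingle g]
  refine Submonoid.prod_mem _ fun i _ => ?_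
  have h1 : g i = (Multiplicative.ofAdd (1 : ZMod (m i))) ^ (Multiplicative.toAdd (g i)).val := by
    rw [← ofAdd_nsmul, nsmul_one, ZMod.natCast_zmod_val, ofAdd_toAdd]
  rw [h1, Pi.mulSingle_pow]
  exact Submonoid.pow_mem _ (Submonoid.subset_closure (Set.mem_range_self i)) _

end Cyclic


/-! ### the concrete statement for `Δ ≃ ∏ ℤ/p^{N_i}` -/

section Concrete

variable {O : Type*} [CommRing O] [IsLocalRing O] {Δ : Type*} [CommGroup Δ] {r : ℕ}
  {p : ℕ} [Fact p.Prime] (N : Fin r → ℕ)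
  (e : Δ ≃* ((i : Fin r) → Multiplicative (ZMod (p ^ N i))))

/-- the generators of `Δ` -/
def gen (i : Fin r) : Δ := e.symm (Pi.mulSingle i (Multiplicative.ofAdd 1))

omit [Fact p.Prime] in
theorem gen_pow (i : Fin r) : gen N e i ^ p ^ N i = 1 := by
  rw [gen, ← map_pow, mulSingle_pow_eq_one (fun i => p ^ N i) i, map_one]

theorem closure_range_gen : Submonoid.closure (Set.range (gen N e)) = ⊤ := by
  rw [eq_top_iff]
  intro g _
  have h1 : e g ∈ Submonoid.closure (Set.range fun i : Fin r =>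
      (Pi.mulSingle i (Multiplicative.ofAdd 1) :
        (i : Fin r) → Multiplicative (ZMod (p ^ N i)))) := by
    rw [closure_range_mulSingle]; trivial
  have h2 := Submonoid.mem_map_of_mem e.symm.toMonoidHom h1
  rw [MonoidHom.map_mclosure, ← Set.range_comp] at h2
  have h3 : (⇑e.symm.toMonoidHom ∘ fun i : Fin r => (Pi.mulSingle i (Multiplicative.ofAdd 1) :
      (i : Fin r) → Multiplicative (ZMod (p ^ N i)))) = gen N e := rfl
  rw [h3] at h2
  simpa using h2

include e in
theorem finite_of_mulEquiv : Finite Δ := Finite.of_equiv _ e.symm.toEquiv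

omit [Fact p.Prime] in
theorem natCast_mem_maximalIdeal_mvPowerSeries (hpO : (p : O) ∈ maximalIdeal O) :
    ((p : ℕ) : MvPowerSeries (Fin r) O) ∈ maximalIdeal (MvPowerSeries (Fin r) O) := by
  rw [Fermat.Agent.Lib.MvPSComplete.maximalIdeal_eq]
  refine Ideal.mem_sup_right ?_
  have : ((p : ℕ) : MvPowerSeries (Fin r) O) = MvPowerSeries.C (p : O) := by
    rw [map_natCast]
  rw [this]
  exact Ideal.mem_map_of_mem _ hpO

/-- the character `δ_i ↦ 1 + X_i` of `Δ` with values in `O⟦X⟧ / 𝔪 ^ n`, `n ≤ N_i` -/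
theorem exists_char (hpO : (p : O) ∈ maximalIdeal O) (n : ℕ) (hn : ∀ i, n ≤ N i) :
    ∃ Φ : Δ →* MvPowerSeries (Fin r) O ⧸ maximalIdeal (MvPowerSeries (Fin r) O) ^ n,
      ∀ i, Φ (gen N e i) = Ideal.Quotient.mk _ (1 + MvPowerSeries.X i) := by
  have hu : ∀ i : Fin r, (Ideal.Quotient.mk (maximalIdeal (MvPowerSeries (Fin r) O) ^ n)
      (1 + MvPowerSeries.X i)) ^ p ^ N i = 1 := by
    intro i
    rw [← map_pow, ← map_one (Ideal.Quotient.mk _), Ideal.Quotient.eq]
    refine Ideal.pow_le_pow_right (Nat.le_succ_of_le (hn i))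
      (one_add_pow_prime_pow_sub_one_mem _ (Fact.out : p.Prime)
        (natCast_mem_maximalIdeal_mvPowerSeries hpO) ?_ (N i))
    exact span_X_le_maximalIdeal (Ideal.subset_span ⟨i, rfl⟩)
  refine ⟨(piHom (fun i => p ^ N i) _ hu).comp e.toMonoidHom, fun i => ?_⟩
  rw [MonoidHom.comp_apply, gen]
  show piHom _ _ hu (e (e.symm _)) = _
  rw [MulEquiv.apply_symm_apply, piHom_mulSingle]

variable [IsNoetherianRing O] [IsAdicComplete (maximalIdeal O) O]

/-- **the diamond map**: `γ : O⟦X_1..X_r⟧ → O[Δ]`, `X_i ↦ δ_i - 1`, is onto with kernel inside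
`𝔪 ^ n` for every `n ≤ min N_i`. -/
theorem exists_diamondHom_of_equiv (hpO : (p : O) ∈ maximalIdeal O) :
    ∃ γ : MvPowerSeries (Fin r) O →ₐ[O] MonoidAlgebra O Δ, Function.Surjective γ ∧
      (∀ i, γ (MvPowerSeries.X i) = MonoidAlgebra.of O Δ (gen N e i) - 1) ∧
      ∀ n, (∀ i, n ≤ N i) → RingHom.ker γ ≤ maximalIdeal (MvPowerSeries (Fin r) O) ^ n := by
  have := finite_of_mulEquiv N e
  obtain ⟨γ, hsurj, hγ⟩ := exists_diamondHom (O := O) (gen N e) (closure_range_gen N e)
    (Fact.out : p.Prime) hpO N (gen_pow N e)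
  refine ⟨γ, hsurj, hγ, fun n hn => ?_⟩
  obtain ⟨Φ, hΦ⟩ := exists_char (O := O) N e hpO n hn
  exact ker_le_of_hom (gen N e) γ hγ n Φ hΦ

end Concrete

/-! ### modules over `O[Δ]` as modules over `O⟦X⟧` -/

section Module

open Fermat.Agent.S43.Patch.Level Fermat.Agent.S43.Patch.Points

variable {O : Type*} [CommRing O] {Δ : Type*} [CommGroup Δ] {r : ℕ}
  (γ : MvPowerSeries (Fin r) O →ₐ[O] MonoidAlgebra O Δ)
  {M : Type*} [AddCommGroup M] [Module (MonoidAlgebra O Δ) M] [Module (MvPowerSeries (Fin r) O) M]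
  (hM : ∀ (s : MvPowerSeries (Fin r) O) (x : M), γ s • x = s • x)

include hM

/-- the coordinates of a member of `J • M` lie in `γ J`. -/
theorem repr_mem_map_of_mem_smul_top {d : ℕ} (b : Module.Basis (Fin d) (MonoidAlgebra O Δ) M)
    (J : Ideal (MvPowerSeries (Fin r) O)) {x : M}
    (hx : x ∈ (J • ⊤ : Submodule (MvPowerSeries (Fin r) O) M)) (i : Fin d) :
    b.repr x i ∈ Ideal.map γ.toRingHom J := by
  induction hx using Submodule.smul_induction_on' with
  | smul j hj m _ =>
    rw [← hM, map_smul, Finsupp.smul_apply, smul_eq_mul]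
    exact Ideal.mul_mem_right _ _ (Ideal.mem_map_of_mem γ.toRingHom hj)
  | add x _ y _ hx hy =>
    rw [map_add, Finsupp.add_apply]
    exact Ideal.add_mem _ hx hy

/-- **(D5)** a basis over `O[Δ]` is a basis modulo `J` over `O⟦X⟧` for every ideal `J`
containing the kernel of the diamond map. -/
theorem isBasisMod_of_basis (hsurj : Function.Surjective γ)
    (J : Ideal (MvPowerSeries (Fin r) O)) (hker : RingHom.ker γ ≤ J) {d : ℕ}
    (b : Module.Basis (Fin d) (MonoidAlgebra O Δ) M) : IsBasisMod J b := by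
  refine ⟨fun x => ?_, fun c hc i => ?_⟩
  · choose c hc using fun i => hsurj (b.repr x i)
    refine ⟨c, ?_⟩
    have : ∑ i, c i • b i = x := by
      conv_rhs => rw [← b.sum_repr x]
      exact Finset.sum_congr rfl fun i _ => by rw [← hM, hc]
    rw [this, sub_self]
    exact Submodule.zero_mem _
  · have h1 := repr_mem_map_of_mem_smul_top γ hM b J hc i
    have h2 : b.repr (∑ j, c j • b j) i = γ (c i) := by
      have : ∑ j, c j • b j = ∑ j, γ (c j) • b j :=
        Finset.sum_congr rfl fun j _ => (hM _ _).symm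
      rw [this, b.repr_sum_self]
    rw [h2] at h1
    obtain ⟨j, hj, hji⟩ := (Ideal.mem_map_iff_of_surjective γ.toRingHom hsurj).mp h1
    have h3 : c i - j ∈ RingHom.ker γ := by
      rw [RingHom.mem_ker, map_sub, sub_eq_zero]
      exact hji.symm
    have h4 : c i = (c i - j) + j := by ring
    rw [h4]
    exact Ideal.add_mem _ (hker h3) hj

/-- **(D4, uniformiser)** `ϖ M ⊆ (C ϖ) • M`. -/
theorem mem_span_C_smul_top (ϖ : O) (y : M) :
    (MonoidAlgebra.single (1 : Δ) ϖ : MonoidAlgebra O Δ) • y ∈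
      (Ideal.span {MvPowerSeries.C (σ := Fin r) ϖ} • ⊤ :
        Submodule (MvPowerSeries (Fin r) O) M) := by
  have h1 : (MonoidAlgebra.single (1 : Δ) ϖ : MonoidAlgebra O Δ) = γ (MvPowerSeries.C ϖ) := by
    have : (MvPowerSeries.C ϖ : MvPowerSeries (Fin r) O)
        = algebraMap O (MvPowerSeries (Fin r) O) ϖ := rfl
    rw [this, AlgHom.commutes, MonoidAlgebra.coe_algebraMap]
    rfl
  rw [h1, hM]
  exact Submodule.smul_mem_smul (Ideal.mem_span_singleton_self _) trivial

/-- **(D4, augmentation)** the augmentation submodule of `M` lies in `augIdeal • M`. -/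
theorem mem_augIdeal_smul_top (hsurj : Function.Surjective γ) (δ : Fin r → Δ)
    (hδ : Submonoid.closure (Set.range δ) = ⊤)
    (hγ : ∀ i, γ (MvPowerSeries.X i) = MonoidAlgebra.of O Δ (δ i) - 1) {x : M}
    (hx : x ∈ Submodule.span (MonoidAlgebra O Δ)
      {y : M | ∃ (g : Δ) (z : M), y = (MonoidAlgebra.single g (1 : O) : MonoidAlgebra O Δ) • z - z}) :
    x ∈ (augIdeal (Fin r) O • ⊤ : Submodule (MvPowerSeries (Fin r) O) M) := by
  induction hx using Submodule.span_induction with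
  | mem y hy =>
    obtain ⟨g, z, rfl⟩ := hy
    have h1 := of_sub_one_mem_genIdeal (O := O) δ hδ g
    obtain ⟨t, ht⟩ := (Ideal.mem_span_range_iff_exists_fun).mp h1
    choose s hs using fun i => hsurj (t i)
    have h2 : (MonoidAlgebra.single g (1 : O) : MonoidAlgebra O Δ) • z - z
        = (∑ i, s i * MvPowerSeries.X i) • z := by
      rw [← hM, map_sum]
      have : ∑ i, γ (s i * MvPowerSeries.X i) = MonoidAlgebra.of O Δ g - 1 := by
        rw [← ht]
        exact Finset.sum_congr rfl fun i _ => by rw [map_mul, hs, hγ]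
      rw [this, sub_smul, one_smul, MonoidAlgebra.of_apply]
    rw [h2]
    refine Submodule.smul_mem_smul (Ideal.sum_mem _ fun i _ => ?_) trivial
    exact Ideal.mul_mem_left _ _ (X_mem_augIdeal (Fin r) O i)
  | zero => exact Submodule.zero_mem _
  | add x y _ _ hx hy => exact Submodule.add_mem _ hx hy
  | smul t x _ hx =>
    obtain ⟨s, rfl⟩ := hsurj t
    rw [hM]
    exact Submodule.smul_mem _ _ hx

end Module

end Fermat.Agent.S43.Patch.GroupRing
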