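/-
S43 (row 37), PROJECT R, block `Patch`, file `EvenOdd` (helper29): **THE EVEN/ODD DECOMPOSITION OF
POWER SERIES**: `S = O⟦X_1..X_r⟧` is free over its subring `S' = O⟦X_1 ^ 2..X_r ^ 2⟧` with basis the
`2 ^ r` monomials `X ^ e`, `e ∈ {0,1}^r` (Mathlib only).

* `sq : S →ₐ[O] S`, `X_i ↦ X_i ^ 2` (`coeff_sq`: coefficients);
* `comp e : S →+ S`, the `e`-component, `sq`-semilinear (`comp_sq_mul`);
* `sum_zmon_mul_sq_comp : ∑ e, zmon e * sq (comp e f) = f`;
* `mem_of_sum_mem_map_sq` : `∑ e, zmon e * sq (g e) ∈ J(X ^ 2) S → g e ∈ J` (uniqueness modulo an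
  ideal);
* `span_pow_le_span_sq` : `(x_i : i ∈ s) ^ (2 |s| + 1) ≤ (x_i ^ 2 : i ∈ s)`.
-/
import Mathlib

set_option autoImplicit false

noncomputable section

namespace Fermat.Agent.S43.Patch.EvenOdd

open MvPowerSeries

variable {r : ℕ}

/-! ### parity of exponents -/

/-- the exponent vector of `e : Fin r → Fin 2` -/
def ev (e : Fin r → Fin 2) : Fin r →₀ ℕ := Finsupp.equivFunOnFinite.symm fun i => (e i : ℕ)

@[simp] theorem ev_apply (e : Fin r → Fin 2) (i : Fin r) : ev e i = (e i : ℕ) := rfl

/-- half of an exponent vector -/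
def half (m : Fin r →₀ ℕ) : Fin r →₀ ℕ := m.mapRange (· / 2) rfl

@[simp] theorem half_apply (m : Fin r →₀ ℕ) (i : Fin r) : half m i = m i / 2 := rfl

/-- the parity of an exponent vector -/
def par (m : Fin r →₀ ℕ) : Fin r → Fin 2 := fun i => ⟨m i % 2, Nat.mod_lt _ two_pos⟩

@[simp] theorem par_apply (m : Fin r →₀ ℕ) (i : Fin r) : (par m i : ℕ) = m i % 2 := rfl

theorem two_half_add_par (m : Fin r →₀ ℕ) : 2 • half m + ev (par m) = m := by
  ext i
  simp only [Finsupp.add_apply, Finsupp.smul_apply, half_apply, ev_apply, par_apply, smul_eq_mul]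
  omega

theorem half_two_add (a : Fin r →₀ ℕ) (e : Fin r → Fin 2) : half (2 • a + ev e) = a := by
  ext i
  simp only [half_apply, Finsupp.add_apply, Finsupp.smul_apply, ev_apply, smul_eq_mul]
  have := (e i).isLt
  omega

theorem par_two_add (a : Fin r →₀ ℕ) (e : Fin r → Fin 2) : par (2 • a + ev e) = e := by
  funext i
  apply Fin.ext
  simp only [par_apply, Finsupp.add_apply, Finsupp.smul_apply, ev_apply, smul_eq_mul]
  have := (e i).isLt
  omega

theorem ev_zero : ev (0 : Fin r → Fin 2) = 0 := by
  ext i; simp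

theorem par_two_smul (a : Fin r →₀ ℕ) : par (2 • a) = 0 := by
  have := par_two_add a 0
  rwa [ev_zero, add_zero] at this

theorem half_two_smul (a : Fin r →₀ ℕ) : half (2 • a) = a := by
  have := half_two_add a 0
  rwa [ev_zero, add_zero] at this

theorem eq_two_smul_half_of_par_eq_zero {m : Fin r →₀ ℕ} (h : par m = 0) : m = 2 • half m := by
  have := two_half_add_par m
  rw [h, ev_zero, add_zero] at this
  exact this.symm

theorem two_smul_add_ev_injective {a a' : Fin r →₀ ℕ} {e e' : Fin r → Fin 2}
    (h : 2 • a + ev e = 2 • a' + ev e') : a = a' ∧ e = e' := by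
  constructor
  · rw [← half_two_add a e, h, half_two_add]
  · rw [← par_two_add a e, h, par_two_add]


/-! ### the substitution `X_i ↦ X_i ^ 2` -/

variable (O : Type*) [CommRing O]

/-- `f(X) ↦ f(X ^ 2)` -/
def sq : MvPowerSeries (Fin r) O →ₐ[O] MvPowerSeries (Fin r) O :=
  substAlgHom (R := O) (HasSubst.X_pow (σ := Fin r) (S := O) two_ne_zero)

variable {O}

theorem sq_X (i : Fin r) : sq O (X i : MvPowerSeries (Fin r) O) = X i ^ 2 := by
  rw [sq, substAlgHom_X]

theorem coeff_sq (f : MvPowerSeries (Fin r) O) (m : Fin r →₀ ℕ) :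
    coeff m (sq O f) = if par m = 0 then coeff (half m) f else 0 := by
  classical
  have hs : HasSubst (fun s : Fin r => (X s : MvPowerSeries (Fin r) O) ^ 2) :=
    HasSubst.X_pow two_ne_zero
  have h1 : ∀ d : Fin r →₀ ℕ,
      (d.prod fun s k => ((X s : MvPowerSeries (Fin r) O) ^ 2) ^ k) = monomial (2 • d) 1 := by
    intro d
    rw [monomial_smul_eq, map_one, one_mul]
  rw [sq, substAlgHom_apply, coeff_subst hs]
  simp_rw [h1, coeff_monomial]
  split_ifs with h
  · rw [finsum_eq_single _ (half m)]
    · rw [if_pos (eq_two_smul_half_of_par_eq_zero h), smul_eq_mul, mul_one]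
    · intro d hd
      rw [if_neg, smul_zero]
      intro hm
      apply hd
      rw [hm, half_two_smul]
  · rw [finsum_eq_zero_of_forall_eq_zero]
    intro d
    rw [if_neg, smul_zero]
    intro hm
    apply h
    rw [hm, par_two_smul]

theorem coeff_sq_two_smul (f : MvPowerSeries (Fin r) O) (a : Fin r →₀ ℕ) :
    coeff (2 • a) (sq O f) = coeff a f := by
  rw [coeff_sq, if_pos (par_two_smul a), half_two_smul]

theorem coeff_sq_of_par_ne {f : MvPowerSeries (Fin r) O} {m : Fin r →₀ ℕ} (h : par m ≠ 0) :
    coeff m (sq O f) = 0 := by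
  rw [coeff_sq, if_neg h]


/-! ### the components of a series -/

/-- the monomial `X ^ e`, `e ∈ {0,1}^r` -/
def zmon (O : Type*) [CommRing O] (e : Fin r → Fin 2) : MvPowerSeries (Fin r) O :=
  monomial (ev e) 1

/-- the `e`-component of `f`: the series `g` with `f = ∑ X ^ e * g (X ^ 2)` -/
def comp (e : Fin r → Fin 2) : MvPowerSeries (Fin r) O →+ MvPowerSeries (Fin r) O where
  toFun f := fun a => coeff (2 • a + ev e) f
  map_zero' := by
    funext a
    exact map_zero _
  map_add' f g := by
    funext a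
    exact map_add _ f g

theorem coeff_comp (e : Fin r → Fin 2) (f : MvPowerSeries (Fin r) O) (a : Fin r →₀ ℕ) :
    coeff a (comp e f) = coeff (2 • a + ev e) f := rfl

/-- `comp e` is semilinear for `sq`. -/
theorem comp_sq_mul (e : Fin r → Fin 2) (g f : MvPowerSeries (Fin r) O) :
    comp e (sq O g * f) = g * comp e f := by
  classical
  ext a
  rw [coeff_comp, coeff_mul, coeff_mul]
  -- the embedding of the small antidiagonal
  let ι : (Fin r →₀ ℕ) × (Fin r →₀ ℕ) ↪ (Fin r →₀ ℕ) × (Fin r →₀ ℕ) :=
    ⟨fun q => (2 • q.1, 2 • q.2 + ev e), by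
      rintro ⟨q1, q2⟩ ⟨q1', q2'⟩ h
      simp only [Prod.mk.injEq] at h
      obtain ⟨h1, h2⟩ := h
      have h3 : q1 = q1' := by rw [← half_two_smul q1, h1, half_two_smul]
      have h4 := (two_smul_add_ev_injective h2).1
      rw [h3, h4]⟩
  have hι : ∀ q, ι q = (2 • q.1, 2 • q.2 + ev e) := fun _ => rfl
  have hsub : (Finset.HasAntidiagonal.antidiagonal a).map ι ⊆ Finset.HasAntidiagonal.antidiagonal (2 • a + ev e) := by
    intro p hp
    obtain ⟨q, hq, rfl⟩ := Finset.mem_map.mp hp
    rw [Finset.HasAntidiagonal.mem_antidiagonal] at hq ⊢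
    rw [hι, ← hq, smul_add, add_assoc]
  rw [← Finset.sum_subset hsub, Finset.sum_map]
  · refine Finset.sum_congr rfl fun q _ => ?_
    rw [hι, coeff_sq_two_smul, coeff_comp]
  · intro p hp hnp
    have hpar : par p.1 ≠ 0 := by
      intro h0
      apply hnp
      rw [Finset.HasAntidiagonal.mem_antidiagonal] at hp
      have h1 : p.1 = 2 • half p.1 := eq_two_smul_half_of_par_eq_zero h0
      have h2 : p.2 = 2 • half p.2 + ev e := by
        have h3 : par p.2 = e := by
          have : 2 • half p.1 + (2 • half p.2 + ev (par p.2)) = 2 • a + ev e := by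
            rw [two_half_add_par, ← h1, hp]
          rw [← add_assoc, ← smul_add] at this
          exact (two_smul_add_ev_injective this).2
        rw [← h3, two_half_add_par]
      have h4 : half p.1 + half p.2 = a := by
        have : 2 • (half p.1 + half p.2) + ev e = 2 • a + ev e := by
          rw [smul_add, add_assoc, ← h2, ← h1, hp]
        exact (two_smul_add_ev_injective this).1
      refine Finset.mem_map.mpr ⟨(half p.1, half p.2), Finset.HasAntidiagonal.mem_antidiagonal.mpr h4, ?_⟩
      rw [hι]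
      exact Prod.ext h1.symm h2.symm
    rw [coeff_sq_of_par_ne hpar, zero_mul]

theorem comp_zmon (e e' : Fin r → Fin 2) :
    comp e (zmon O e') = if e' = e then 1 else 0 := by
  classical
  ext a
  rw [coeff_comp, zmon, coeff_monomial]
  by_cases h : e' = e
  · subst h
    rw [if_pos rfl]
    by_cases ha : a = 0
    · subst ha
      rw [smul_zero, zero_add, if_pos rfl, coeff_one, if_pos rfl]
    · rw [coeff_one, if_neg ha, if_neg]
      intro h1
      apply ha
      have h2 : 2 • a + ev e' = 2 • (0 : Fin r →₀ ℕ) + ev e' := by rw [h1, smul_zero, zero_add]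
      exact (two_smul_add_ev_injective h2).1
  · rw [if_neg h, map_zero, if_neg]
    intro h1
    apply h
    have h2 : 2 • a + ev e = 2 • (0 : Fin r →₀ ℕ) + ev e' := by rw [h1, smul_zero, zero_add]
    exact (two_smul_add_ev_injective h2).2.symm

theorem comp_zmon_mul_sq (e e' : Fin r → Fin 2) (g : MvPowerSeries (Fin r) O) :
    comp e (zmon O e' * sq O g) = if e' = e then g else 0 := by
  rw [mul_comm, comp_sq_mul, comp_zmon]
  split_ifs <;> simp

/-- **the even/odd decomposition**: `f = ∑_e X ^ e * (comp e f)(X ^ 2)`. -/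
theorem sum_zmon_mul_sq_comp (f : MvPowerSeries (Fin r) O) :
    ∑ e : Fin r → Fin 2, zmon O e * sq O (comp e f) = f := by
  classical
  ext m
  rw [map_sum, Finset.sum_eq_single (par m)]
  · rw [zmon, coeff_monomial_mul, if_pos, one_mul]
    · have h1 : m - ev (par m) = 2 • half m :=
        tsub_eq_of_eq_add (two_half_add_par m).symm
      rw [h1, coeff_sq_two_smul, coeff_comp, two_half_add_par]
    · conv_rhs => rw [← two_half_add_par m]
      exact le_add_self
  · intro e _ he
    rw [zmon, coeff_monomial_mul]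
    split_ifs with hle
    · rw [one_mul, coeff_sq_of_par_ne]
      intro h0
      apply he
      have h1 : m = 2 • half (m - ev e) + ev e := by
        rw [← eq_two_smul_half_of_par_eq_zero h0, tsub_add_cancel_of_le hle]
      rw [h1, par_two_add]
    · rfl
  · intro h
    exact absurd (Finset.mem_univ _) h


/-! ### ideals -/

theorem comp_mul_mem_of_mem_map_sq (J : Ideal (MvPowerSeries (Fin r) O))
    {h : MvPowerSeries (Fin r) O} (hh : h ∈ Ideal.map (sq O) J) (a : MvPowerSeries (Fin r) O)
    (e : Fin r → Fin 2) : comp e (a * h) ∈ J := by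
  rw [Ideal.map] at hh
  induction hh using Submodule.span_induction generalizing a with
  | mem x hx =>
    obtain ⟨j, hj, rfl⟩ := hx
    rw [mul_comm, comp_sq_mul]
    exact Ideal.mul_mem_right _ _ hj
  | zero => rw [mul_zero, map_zero]; exact Ideal.zero_mem _
  | add x y _ _ hx hy =>
    rw [mul_add, map_add]
    exact Ideal.add_mem _ (hx a) (hy a)
  | smul b x _ hx =>
    rw [smul_eq_mul, ← mul_assoc]
    exact hx (a * b)

/-- the components of a member of `J(X ^ 2) S` lie in `J`. -/
theorem comp_mem_of_mem_map_sq (J : Ideal (MvPowerSeries (Fin r) O))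
    {h : MvPowerSeries (Fin r) O} (hh : h ∈ Ideal.map (sq O) J) (e : Fin r → Fin 2) :
    comp e h ∈ J := by
  have := comp_mul_mem_of_mem_map_sq J hh 1 e
  rwa [one_mul] at this

/-- **uniqueness of the even/odd decomposition modulo an ideal.** -/
theorem mem_of_sum_mem_map_sq (J : Ideal (MvPowerSeries (Fin r) O))
    (g : (Fin r → Fin 2) → MvPowerSeries (Fin r) O)
    (h : ∑ e : Fin r → Fin 2, zmon O e * sq O (g e) ∈ Ideal.map (sq O) J) (e : Fin r → Fin 2) :
    g e ∈ J := by
  classical
  have h1 := comp_mem_of_mem_map_sq J h e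
  rw [map_sum] at h1
  simp_rw [comp_zmon_mul_sq] at h1
  rwa [Finset.sum_ite_eq' Finset.univ e, if_pos (Finset.mem_univ e)] at h1

/-- a power of an ideal with `k` generators lies in the ideal of the squares of the generators. -/
theorem span_pow_le_span_sq {R : Type*} [CommRing R] {ι : Type*} (s : Finset ι) (x : ι → R) :
    Ideal.span (x '' (s : Set ι)) ^ (2 * s.card + 1) ≤
      Ideal.span ((fun i => x i ^ 2) '' (s : Set ι)) := by
  classical
  induction s using Finset.induction_on with
  | empty => simp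
  | insert a s ha ih =>
    rw [Finset.card_insert_of_notMem ha, Finset.coe_insert, Set.image_insert_eq,
      Set.image_insert_eq, Ideal.span_insert, Ideal.span_insert]
    have h1 : 2 * (s.card + 1) + 1 = 2 + (2 * s.card + 1) := by ring
    rw [h1]
    refine le_trans Ideal.sup_pow_add_le_pow_sup_pow (sup_le_sup ?_ ih)
    rw [Ideal.span_singleton_pow]

end Fermat.Agent.S43.Patch.EvenOdd
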