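/-
S43 (row 37), PROJECT R, block `Patch`, file `GroupRingInv` (helper29): **THE SIGN-AGNOSTIC DIAMOND
ALGEBRA** (`S'`-design, chief's ruling on helper4's flag).

`O` complete noetherian local, `p ∈ 𝔪_O`, `2` a unit, `Δ ≃ ∏_{i<r} ℤ/p^{N_i}` with generators
`η_i = gen N e i`, `T = O[Δ]`, `S = O⟦X_1..X_r⟧`, `z_i := η_i - η_i⁻¹ ∈ T`.

* `exists_invDiamondHom` : a surjective `γ : S →ₐ[O] T`, `X_i ↦ z_i`, with `ker γ ≤ 𝔪_S ^ n` for
  `n ≤ N_i` (the character `η_i ↦ u_i`, `u_i` the root of `U ^ 2 - X_i U - 1` congruent to `1`).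
* `S' = S` acting through `γ ∘ sq` (`X_i ↦ z_i ^ 2 = η_i ^ 2 + η_i ^ (-2) - 2`): for a `T`-module
  `M` free of rank `d` over `T`, `exists_isBasisMod_inv` : `M` has a basis of `2 ^ r * d` elements
  modulo `𝔪_{S'} ^ n` as soon as `ker γ ≤ 𝔪_S ^ ((2 r + 2) n)`.
* `mem_span_C_smul_top_inv` (uniformiser), `ann_pow_smul_mem_augIdeal_smul_top` : a ring `A`
  acting on `M` and commuting with `T`, `p0 : M → M0` `A`-linear with kernel the augmentation
  submodule: `(Ann_A M0) ^ (2 r + 1)` maps `M` into `augIdeal • M` (the field `J_smul` of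
  `LevelJ.DatumJ`).
-/
import Fermat.Agent.S43.Patch.GroupRing
import Fermat.Agent.S43.Patch.EvenOdd

set_option autoImplicit false

noncomputable section

namespace Fermat.Agent.S43.Patch.GroupRingInv

open IsLocalRing Fermat.Agent.S43.Patch.GroupRing Fermat.Agent.S43.Patch.EvenOdd

/-! ### the kernel of an algebra map `O⟦X⟧ → O[Δ]` split by a character -/

section Kernel

variable {O : Type*} [CommRing O] [IsLocalRing O] {Δ : Type*} [CommGroup Δ] {r : ℕ}

/-- if the algebra map `β : O[Δ] → O⟦X⟧ / 𝔪 ^ n` attached to a character `Φ` satisfies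
`β (γ X_i) = X_i`, then the kernel of `γ` lies in `𝔪 ^ n`. -/
theorem ker_le_of_lift (γ : MvPowerSeries (Fin r) O →ₐ[O] MonoidAlgebra O Δ) (n : ℕ)
    (Φ : Δ →* MvPowerSeries (Fin r) O ⧸ maximalIdeal (MvPowerSeries (Fin r) O) ^ n)
    (hΦγ : ∀ i, MonoidAlgebra.lift O _ Δ Φ (γ (MvPowerSeries.X i)) =
      Ideal.Quotient.mk _ (MvPowerSeries.X i)) :
    RingHom.ker γ ≤ maximalIdeal (MvPowerSeries (Fin r) O) ^ n := by
  generalize h𝔪n : maximalIdeal (MvPowerSeries (Fin r) O) ^ n = 𝔪n at Φ hΦγ ⊢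
  set I : Ideal (MvPowerSeries (Fin r) O) :=
    Ideal.span (Set.range fun s => (MvPowerSeries.X s : MvPowerSeries (Fin r) O)) with hI
  let β : MonoidAlgebra O Δ →ₐ[O] (MvPowerSeries (Fin r) O ⧸ 𝔪n) :=
    MonoidAlgebra.lift O _ Δ Φ
  let φ : MvPowerSeries (Fin r) O →ₐ[O] (MvPowerSeries (Fin r) O ⧸ 𝔪n) := β.comp γ
  let ψ : MvPowerSeries (Fin r) O →ₐ[O] (MvPowerSeries (Fin r) O ⧸ 𝔪n) :=
    Ideal.Quotient.mkₐ O 𝔪n
  have hφX : ∀ i, φ (MvPowerSeries.X i) = ψ (MvPowerSeries.X i) := hΦγ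
  -- agreement on polynomials
  have hpoly : ∀ q : MvPolynomial (Fin r) O, φ (q : MvPowerSeries (Fin r) O) = ψ q := by
    intro q
    have : φ.comp (MvPolynomial.coeToMvPowerSeries.algHom (R := O) (σ := Fin r) O)
        = ψ.comp (MvPolynomial.coeToMvPowerSeries.algHom (R := O) (σ := Fin r) O) := by
      apply MvPolynomial.algHom_ext
      intro i
      simpa using hφX i
    have := DFunLike.congr_fun this q
    simpa using this
  -- both kill `I ^ n`
  have hIm : I ^ n ≤ 𝔪n := h𝔪n ▸ Ideal.pow_right_mono span_X_le_maximalIdeal n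
  have hψI : ∀ g ∈ I ^ n, ψ g = 0 := fun g hg =>
    Ideal.Quotient.eq_zero_iff_mem.mpr (hIm hg)
  have hφI : ∀ g ∈ I ^ n, φ g = 0 := by
    intro g hg
    have h1 : φ g ∈ Ideal.map φ.toRingHom (I ^ n) := Ideal.mem_map_of_mem φ.toRingHom hg
    have h2 : Ideal.map φ.toRingHom I = Ideal.map ψ.toRingHom I := by
      rw [hI, Ideal.map_span, Ideal.map_span]
      congr 1
      ext y
      constructor
      · rintro ⟨_, ⟨i, rfl⟩, rfl⟩
        exact ⟨_, ⟨i, rfl⟩, (hφX i).symm⟩
      · rintro ⟨_, ⟨i, rfl⟩, rfl⟩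
        exact ⟨_, ⟨i, rfl⟩, hφX i⟩
    rw [Ideal.map_pow, h2, ← Ideal.map_pow] at h1
    have h3 : Ideal.map ψ.toRingHom (I ^ n) ≤ ⊥ := by
      rw [Ideal.map_le_iff_le_comap]
      intro x hx
      rw [Ideal.mem_comap, Ideal.mem_bot]
      exact hψI x hx
    exact (Ideal.mem_bot).mp (h3 h1)
  intro f hf
  rw [RingHom.mem_ker] at hf
  obtain ⟨q, hq⟩ := exists_polynomial_sub_mem n f
  have h1 : φ f = ψ f := by
    have hf' : f = (q : MvPowerSeries (Fin r) O) + (f - q) := by ring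
    rw [hf', map_add, map_add, hpoly, hφI _ hq, hψI _ hq]
  have h2 : φ f = 0 := by
    show β (γ f) = 0
    rw [hf, map_zero]
  rw [h1] at h2
  exact Ideal.Quotient.eq_zero_iff_mem.mp h2

end Kernel

/-! ### the root of `U ^ 2 - X_i U - 1` congruent to `1` -/

section Root

variable {O : Type*} [CommRing O] [IsLocalRing O] [IsNoetherianRing O]
  [IsAdicComplete (maximalIdeal O) O] {r : ℕ}

open Polynomial in
theorem exists_root (h2 : IsUnit (2 : O)) (i : Fin r) :
    ∃ u : MvPowerSeries (Fin r) O, u * (u - MvPowerSeries.X i) = 1 ∧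
      u - 1 ∈ maximalIdeal (MvPowerSeries (Fin r) O) := by
  have : IsAdicComplete (maximalIdeal (MvPowerSeries (Fin r) O)) (MvPowerSeries (Fin r) O) :=
    Fermat.Agent.Lib.MvPSComplete.isAdicComplete_maximalIdeal
  have hH : HenselianRing (MvPowerSeries (Fin r) O) (maximalIdeal (MvPowerSeries (Fin r) O)) :=
    inferInstance
  set a : MvPowerSeries (Fin r) O := MvPowerSeries.X i with ha
  have ha𝔪 : a ∈ maximalIdeal (MvPowerSeries (Fin r) O) :=
    span_X_le_maximalIdeal (Ideal.subset_span ⟨i, rfl⟩)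
  set f : (MvPowerSeries (Fin r) O)[X] := X ^ 2 - (C a * X + 1) with hf
  have hmonic : f.Monic := by
    nontriviality MvPowerSeries (Fin r) O
    apply Polynomial.monic_X_pow_sub
    have hdeg : (C a * X + 1 : (MvPowerSeries (Fin r) O)[X]).degree ≤ 1 := by
      have := Polynomial.degree_linear_le (a := a) (b := (1 : MvPowerSeries (Fin r) O))
      rwa [map_one] at this
    exact lt_of_le_of_lt hdeg (by norm_num)
  have hev : f.eval 1 ∈ maximalIdeal (MvPowerSeries (Fin r) O) := by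
    have : f.eval 1 = -a := by
      simp [hf]
    rw [this]
    exact neg_mem ha𝔪
  have h2S : IsUnit ((2 : MvPowerSeries (Fin r) O) - a) := by
    have h3 : IsUnit (2 : MvPowerSeries (Fin r) O) := by
      have := h2.map (MvPowerSeries.C (σ := Fin r) (R := O))
      rwa [map_ofNat] at this
    by_contra hnu
    have h4 : (2 : MvPowerSeries (Fin r) O) - a ∈ maximalIdeal _ := (mem_maximalIdeal _).mpr hnu
    have h5 : (2 : MvPowerSeries (Fin r) O) ∈ maximalIdeal _ := by
      have := Ideal.add_mem _ h4 ha𝔪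
      rwa [sub_add_cancel] at this
    exact (mem_maximalIdeal _).mp h5 h3
  have hder : IsUnit (Ideal.Quotient.mk (maximalIdeal (MvPowerSeries (Fin r) O))
      (f.derivative.eval 1)) := by
    have : f.derivative.eval 1 = 2 - a := by
      simp [hf]
      norm_num
    rw [this]
    exact h2S.map _
  obtain ⟨u, hu, hu1⟩ := hH.is_henselian f hmonic 1 hev hder
  refine ⟨u, ?_, hu1⟩
  have h3 : u ^ 2 - (a * u + 1) = 0 := by simpa [Polynomial.IsRoot, hf] using hu
  linear_combination h3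

end Root


/-! ### the sign-agnostic diamond map -/

section Diamond

variable {O : Type*} [CommRing O] [IsLocalRing O] {Δ : Type*} [CommGroup Δ] {r : ℕ}

/-- `z_i = η_i - η_i⁻¹` -/
def zel (O : Type*) [CommRing O] {Δ : Type*} [CommGroup Δ] {ι : Type*} (η : ι → Δ) (i : ι) :
    MonoidAlgebra O Δ :=
  MonoidAlgebra.of O Δ (η i) - MonoidAlgebra.of O Δ (η i)⁻¹

omit [IsLocalRing O] in
theorem zel_eq {ι : Type*} (η : ι → Δ) (i : ι) :
    zel O η i = MonoidAlgebra.of O Δ (η i)⁻¹ * (MonoidAlgebra.of O Δ (η i) + 1) *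
      (MonoidAlgebra.of O Δ (η i) - 1) := by
  have h1 : MonoidAlgebra.of O Δ (η i)⁻¹ * MonoidAlgebra.of O Δ (η i) = 1 := by
    rw [← map_mul, inv_mul_cancel, map_one]
  rw [zel]
  linear_combination (-(MonoidAlgebra.of O Δ (η i))) * h1

omit [IsLocalRing O] in
theorem zel_mem_genIdeal {ι : Type*} (η : ι → Δ) (i : ι) : zel O η i ∈ genIdeal (O := O) η := by
  rw [zel_eq]
  exact Ideal.mul_mem_left _ _ (Ideal.subset_span ⟨i, rfl⟩)

omit [IsLocalRing O] in
/-- in the local ring `O[Δ]`, with `2` a unit, `η_i - 1` is a multiple of `z_i`. -/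
theorem of_sub_one_mem_span_zel [IsLocalRing (MonoidAlgebra O Δ)] (h2 : IsUnit (2 : O))
    {ι : Type*} (η : ι → Δ)
    (hmax : genIdeal (O := O) η ≤ maximalIdeal (MonoidAlgebra O Δ)) (i : ι) :
    MonoidAlgebra.of O Δ (η i) - 1 ∈ Ideal.span (Set.range (zel O η)) := by
  have h1 : MonoidAlgebra.of O Δ (η i)⁻¹ * MonoidAlgebra.of O Δ (η i) = 1 := by
    rw [← map_mul, inv_mul_cancel, map_one]
  have hu1 : IsUnit (MonoidAlgebra.of O Δ (η i)⁻¹) := IsUnit.of_mul_eq_one _ h1
  have hu2 : IsUnit (MonoidAlgebra.of O Δ (η i) + 1) := by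
    by_contra hnu
    have h3 : MonoidAlgebra.of O Δ (η i) + 1 ∈ maximalIdeal (MonoidAlgebra O Δ) :=
      (mem_maximalIdeal _).mpr hnu
    have h4 : MonoidAlgebra.of O Δ (η i) - 1 ∈ maximalIdeal (MonoidAlgebra O Δ) :=
      hmax (Ideal.subset_span ⟨i, rfl⟩)
    have h5 : (2 : MonoidAlgebra O Δ) ∈ maximalIdeal (MonoidAlgebra O Δ) := by
      have := Ideal.sub_mem _ h3 h4
      have h6 : MonoidAlgebra.of O Δ (η i) + 1 - (MonoidAlgebra.of O Δ (η i) - 1) = 2 := by ring
      rwa [h6] at this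
    have h7 : IsUnit (2 : MonoidAlgebra O Δ) := by
      have := h2.map (algebraMap O (MonoidAlgebra O Δ))
      rwa [map_ofNat] at this
    exact (mem_maximalIdeal _).mp h5 h7
  obtain ⟨w, hw⟩ := (hu1.mul hu2).exists_left_inv
  have h8 : MonoidAlgebra.of O Δ (η i) - 1 = w * zel O η i := by
    rw [zel_eq, ← mul_assoc, hw, one_mul]
  rw [h8]
  exact Ideal.mul_mem_left _ _ (Ideal.subset_span ⟨i, rfl⟩)

omit [IsLocalRing O] in
theorem span_zel_eq_genIdeal [IsLocalRing (MonoidAlgebra O Δ)] (h2 : IsUnit (2 : O))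
    {ι : Type*} (η : ι → Δ)
    (hmax : genIdeal (O := O) η ≤ maximalIdeal (MonoidAlgebra O Δ)) :
    Ideal.span (Set.range (zel O η)) = genIdeal (O := O) η := by
  apply le_antisymm
  · rw [Ideal.span_le]
    rintro _ ⟨i, rfl⟩
    exact zel_mem_genIdeal η i
  · rw [genIdeal, Ideal.span_le]
    rintro _ ⟨i, rfl⟩
    exact of_sub_one_mem_span_zel h2 η hmax i

variable [IsNoetherianRing O] [IsAdicComplete (maximalIdeal O) O]
  {p : ℕ} [Fact p.Prime] (N : Fin r → ℕ)
  (e : Δ ≃* ((i : Fin r) → Multiplicative (ZMod (p ^ N i))))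

/-- the character `η_i ↦ u_i` of `Δ` with values in `O⟦X⟧ / 𝔪 ^ n`, `n ≤ N_i`. -/
theorem exists_char_inv (h2 : IsUnit (2 : O)) (hpO : (p : O) ∈ maximalIdeal O) (n : ℕ)
    (hn : ∀ i, n ≤ N i) :
    ∃ Φ : Δ →* MvPowerSeries (Fin r) O ⧸ maximalIdeal (MvPowerSeries (Fin r) O) ^ n,
      ∀ i, Φ (gen N e i) - Φ (gen N e i)⁻¹ = Ideal.Quotient.mk _ (MvPowerSeries.X i) := by
  choose u hu hu1 using fun i : Fin r => exists_root (O := O) h2 i
  have hpow : ∀ i : Fin r, (Ideal.Quotient.mk (maximalIdeal (MvPowerSeries (Fin r) O) ^ n)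
      (u i)) ^ p ^ N i = 1 := by
    intro i
    rw [← map_pow, ← map_one (Ideal.Quotient.mk _), Ideal.Quotient.eq]
    have h3 : u i = 1 + (u i - 1) := by ring
    rw [h3]
    exact Ideal.pow_le_pow_right (Nat.le_succ_of_le (hn i))
      (one_add_pow_prime_pow_sub_one_mem _ (Fact.out : p.Prime)
        (natCast_mem_maximalIdeal_mvPowerSeries hpO) (hu1 i) (N i))
  refine ⟨(piHom (fun i => p ^ N i) _ hpow).comp e.toMonoidHom, fun i => ?_⟩
  set Φ := (piHom (fun i => p ^ N i) _ hpow).comp e.toMonoidHom with hΦ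
  have h4 : Φ (gen N e i) = Ideal.Quotient.mk _ (u i) := by
    rw [hΦ, MonoidHom.comp_apply, gen]
    show piHom _ _ hpow (e (e.symm _)) = _
    rw [MulEquiv.apply_symm_apply, piHom_mulSingle]
  have h5 : Φ (gen N e i)⁻¹ * Φ (gen N e i) = 1 := by
    rw [← map_mul, inv_mul_cancel, map_one]
  have h6 : Ideal.Quotient.mk (maximalIdeal (MvPowerSeries (Fin r) O) ^ n) (u i) *
      Ideal.Quotient.mk _ (u i - MvPowerSeries.X i) = 1 := by
    rw [← map_mul, hu, map_one]
  have h7 : Φ (gen N e i)⁻¹ = Ideal.Quotient.mk _ (u i - MvPowerSeries.X i) := by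
    rw [h4] at h5
    calc Φ (gen N e i)⁻¹ = Φ (gen N e i)⁻¹ * (Ideal.Quotient.mk _ (u i) *
          Ideal.Quotient.mk _ (u i - MvPowerSeries.X i)) := by rw [h6, mul_one]
      _ = Ideal.Quotient.mk _ (u i - MvPowerSeries.X i) := by rw [← mul_assoc, h5, one_mul]
  rw [h7, h4, ← map_sub, sub_sub_cancel]

/-- **the sign-agnostic diamond map**: `γ : O⟦X_1..X_r⟧ → O[Δ]`, `X_i ↦ η_i - η_i⁻¹`, is onto with
kernel inside `𝔪 ^ n` for every `n ≤ min N_i`. -/
theorem exists_invDiamondHom (h2 : IsUnit (2 : O)) (hpO : (p : O) ∈ maximalIdeal O) :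
    ∃ γ : MvPowerSeries (Fin r) O →ₐ[O] MonoidAlgebra O Δ, Function.Surjective γ ∧
      (∀ i, γ (MvPowerSeries.X i) = zel O (gen N e) i) ∧
      ∀ n, (∀ i, n ≤ N i) → RingHom.ker γ ≤ maximalIdeal (MvPowerSeries (Fin r) O) ^ n := by
  have := finite_of_mulEquiv N e
  have hδ := closure_range_gen N e
  have hloc := isLocalRing_monoidAlgebra (O := O) (gen N e) hδ (Fact.out : p.Prime) hpO N
    (gen_pow N e)
  have hlh := isLocalHom_algebraMap (O := O) (Δ := Δ)
  have hcomp := isAdicComplete_monoidAlgebra (O := O) (Δ := Δ)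
  have hmax := maximalIdeal_monoidAlgebra (O := O) (gen N e) hδ
  have hgm : genIdeal (O := O) (gen N e) ≤ maximalIdeal (MonoidAlgebra O Δ) := by
    rw [hmax]; exact le_sup_right
  obtain ⟨γ, hsurj, hγ⟩ := Fermat.Agent.S56.Tan.PowerSeriesSurj.exists_surjective
    (𝒪 := O) (R := MonoidAlgebra O Δ) (by
      intro y
      obtain ⟨x, rfl⟩ := residue_surjective y
      refine ⟨aug O Δ x, ?_⟩
      rw [Function.comp_apply]
      symm
      rw [← sub_eq_zero, ← map_sub, residue_eq_zero_iff, hmax]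
      exact Ideal.mem_sup_right (sub_algebraMap_aug_mem (of_sub_one_mem_genIdeal _ hδ) x))
    (zel O (gen N e)) (fun i => hgm (zel_mem_genIdeal _ i)) (by
      rw [span_zel_eq_genIdeal h2 _ hgm]
      exact hmax.le.trans (le_sup_left (a := maxIdeal (O := O) (gen N e))))
  refine ⟨γ, hsurj, hγ, fun n hn => ?_⟩
  obtain ⟨Φ, hΦ⟩ := exists_char_inv (O := O) N e h2 hpO n hn
  refine ker_le_of_lift γ n Φ fun i => ?_
  rw [hγ, zel, map_sub, MonoidAlgebra.lift_of, MonoidAlgebra.lift_of, hΦ]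

end Diamond


/-! ### `𝔪_S ^ ((2 r + 2) n) ⊆ 𝔪_{S'} ^ n S` -/

section Pow

variable {O : Type*} [CommRing O] [IsLocalRing O] {r : ℕ}

theorem pow_le_map_sq_maximalIdeal :
    maximalIdeal (MvPowerSeries (Fin r) O) ^ (2 * r + 2) ≤
      Ideal.map (sq O) (maximalIdeal (MvPowerSeries (Fin r) O)) := by
  have hm := Fermat.Agent.Lib.MvPSComplete.maximalIdeal_eq (σ := Fin r) (R := O)
  have h1 : Ideal.span (Set.range fun s => (MvPowerSeries.X s : MvPowerSeries (Fin r) O)) ^
      (2 * r + 1) ≤ Ideal.map (sq O) (maximalIdeal (MvPowerSeries (Fin r) O)) := by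
    have h2 := span_pow_le_span_sq (Finset.univ : Finset (Fin r))
      (fun s => (MvPowerSeries.X s : MvPowerSeries (Fin r) O))
    rw [Finset.card_univ, Fintype.card_fin, Finset.coe_univ, Set.image_univ, Set.image_univ] at h2
    refine le_trans h2 ?_
    rw [Ideal.span_le]
    rintro _ ⟨i, rfl⟩
    have h3 : (MvPowerSeries.X i : MvPowerSeries (Fin r) O) ^ 2 = sq O (MvPowerSeries.X i) :=
      (sq_X i).symm
    show (MvPowerSeries.X i : MvPowerSeries (Fin r) O) ^ 2 ∈
      Ideal.map (sq O) (maximalIdeal (MvPowerSeries (Fin r) O))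
    rw [h3]
    exact Ideal.mem_map_of_mem _ (span_X_le_maximalIdeal (Ideal.subset_span ⟨i, rfl⟩))
  have h4 : Ideal.map (MvPowerSeries.C (σ := Fin r) (R := O)) (maximalIdeal O) ≤
      Ideal.map (sq O) (maximalIdeal (MvPowerSeries (Fin r) O)) := by
    rw [Ideal.map_le_iff_le_comap]
    intro c hc
    rw [Ideal.mem_comap]
    have h5 : (MvPowerSeries.C c : MvPowerSeries (Fin r) O) = sq O (MvPowerSeries.C c) := by
      have : (MvPowerSeries.C c : MvPowerSeries (Fin r) O)
          = algebraMap O (MvPowerSeries (Fin r) O) c := rfl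
      rw [this, AlgHom.commutes]
    rw [h5]
    refine Ideal.mem_map_of_mem _ ?_
    rw [hm]
    exact Ideal.mem_sup_right (Ideal.mem_map_of_mem _ hc)
  conv_lhs => rw [hm]
  refine le_trans (Ideal.sup_pow_add_le_pow_sup_pow (n := 2 * r + 1) (m := 1)) ?_
  rw [pow_one]
  exact sup_le h1 h4

theorem pow_le_map_sq (n : ℕ) :
    maximalIdeal (MvPowerSeries (Fin r) O) ^ ((2 * r + 2) * n) ≤
      Ideal.map (sq O) (maximalIdeal (MvPowerSeries (Fin r) O) ^ n) := by
  rw [pow_mul, Ideal.map_pow]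
  exact Ideal.pow_right_mono pow_le_map_sq_maximalIdeal n

end Pow

/-! ### modules over `O[Δ]` as modules over `S' = O⟦X_i ^ 2⟧` -/

section Module

open Fermat.Agent.S43.Patch.Level Fermat.Agent.S43.Patch.Points

variable {O : Type*} [CommRing O] {Δ : Type*} [CommGroup Δ] {r : ℕ}
  (γ : MvPowerSeries (Fin r) O →ₐ[O] MonoidAlgebra O Δ)
  {M : Type*} [AddCommGroup M] [Module (MonoidAlgebra O Δ) M] [Module (MvPowerSeries (Fin r) O) M]
  (hM : ∀ (s : MvPowerSeries (Fin r) O) (x : M), γ (sq O s) • x = s • x)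

include hM

/-- the family `z ^ e • b_j`, indexed by `{0,1}^r × Fin d`, spans `M` over `S'`. -/
theorem exists_sum_eq (hsurj : Function.Surjective γ) {d : ℕ}
    (b : Module.Basis (Fin d) (MonoidAlgebra O Δ) M) (x : M) :
    ∃ c : (Fin r → Fin 2) × Fin d → MvPowerSeries (Fin r) O,
      ∑ k, c k • (γ (zmon O k.1) • b k.2) = x := by
  choose f hf using fun j => hsurj (b.repr x j)
  refine ⟨fun k => comp k.1 (f k.2), ?_⟩
  rw [Fintype.sum_prod_type, Finset.sum_comm]
  conv_rhs => rw [← b.sum_repr x]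
  refine Finset.sum_congr rfl fun j _ => ?_
  rw [← hf j]
  conv_rhs => rw [← sum_zmon_mul_sq_comp (f j), map_sum, Finset.sum_smul]
  refine Finset.sum_congr rfl fun e _ => ?_
  rw [← hM, ← mul_smul, map_mul, mul_comm]

/-- the family `z ^ e • b_j` is independent modulo `J` over `S'`. -/
theorem mem_of_sum_mem_smul_top (hsurj : Function.Surjective γ)
    (J : Ideal (MvPowerSeries (Fin r) O)) (hker : RingHom.ker γ ≤ Ideal.map (sq O) J) {d : ℕ}
    (b : Module.Basis (Fin d) (MonoidAlgebra O Δ) M)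
    (c : (Fin r → Fin 2) × Fin d → MvPowerSeries (Fin r) O)
    (hc : ∑ k, c k • (γ (zmon O k.1) • b k.2) ∈
      (J • ⊤ : Submodule (MvPowerSeries (Fin r) O) M)) (k : (Fin r → Fin 2) × Fin d) :
    c k ∈ J := by
  obtain ⟨e, j⟩ := k
  set G : Fin d → MvPowerSeries (Fin r) O := fun j => ∑ e, zmon O e * sq O (c (e, j)) with hG
  have h1 : ∑ k, c k • (γ (zmon O k.1) • b k.2) = ∑ j, γ (G j) • b j := by
    rw [Fintype.sum_prod_type, Finset.sum_comm]
    refine Finset.sum_congr rfl fun j _ => ?_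
    rw [hG, map_sum, Finset.sum_smul]
    refine Finset.sum_congr rfl fun e _ => ?_
    rw [← hM, ← mul_smul, map_mul, mul_comm]
  rw [h1] at hc
  have hM' : ∀ (s : MvPowerSeries (Fin r) O) (x : M), (γ.comp (sq O)) s • x = s • x := hM
  have h2 := repr_mem_map_of_mem_smul_top (γ.comp (sq O)) hM' b J hc j
  rw [b.repr_sum_self] at h2
  have h3 : Ideal.map (γ.comp (sq O)).toRingHom J
      = Ideal.map γ.toRingHom (Ideal.map (sq O).toRingHom J) := by
    rw [Ideal.map_map]
    rfl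
  rw [h3] at h2
  obtain ⟨h, hh, hγh⟩ := (Ideal.mem_map_iff_of_surjective γ.toRingHom hsurj).mp h2
  have h4 : G j - h ∈ RingHom.ker γ := by
    rw [RingHom.mem_ker, map_sub, sub_eq_zero]
    exact hγh.symm
  have h5 : G j ∈ Ideal.map (sq O) J := by
    have : G j = (G j - h) + h := by ring
    rw [this]
    exact Ideal.add_mem _ (hker h4) hh
  exact mem_of_sum_mem_map_sq J (fun e => c (e, j)) h5 e

/-- **(b)** a `T`-module free of rank `d` has a basis of `2 ^ r * d` elements modulo `J` over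
`S' = O⟦X_i ^ 2⟧`, for every ideal `J` of `S'` with `ker γ ≤ J(X ^ 2) S`. -/
theorem exists_isBasisMod_inv (hsurj : Function.Surjective γ)
    (J : Ideal (MvPowerSeries (Fin r) O)) (hker : RingHom.ker γ ≤ Ideal.map (sq O) J) {d : ℕ}
    (b : Module.Basis (Fin d) (MonoidAlgebra O Δ) M) :
    ∃ b' : Fin (2 ^ r * d) → M, IsBasisMod J b' := by
  let ε : Fin (2 ^ r * d) ≃ (Fin r → Fin 2) × Fin d :=
    finProdFinEquiv.symm.trans (Equiv.prodCongr finFunctionFinEquiv.symm (Equiv.refl _))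
  refine ⟨fun k => γ (zmon O (ε k).1) • b (ε k).2, fun x => ?_, fun c hc k => ?_⟩
  · obtain ⟨c, hc⟩ := exists_sum_eq γ hM hsurj b x
    refine ⟨fun k => c (ε k), ?_⟩
    have h1 : ∑ i, c (ε i) • (γ (zmon O (ε i).1) • b (ε i).2) = x := by
      rw [Equiv.sum_comp ε (fun k => c k • (γ (zmon O k.1) • b k.2))]
      exact hc
    rw [h1, sub_self]
    exact Submodule.zero_mem _
  · have h1 : ∑ i, c i • (γ (zmon O (ε i).1) • b (ε i).2)
        = ∑ k, c (ε.symm k) • (γ (zmon O k.1) • b k.2) := by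
      rw [← Equiv.sum_comp ε (fun k => c (ε.symm k) • (γ (zmon O k.1) • b k.2))]
      simp
    rw [h1] at hc
    have := mem_of_sum_mem_smul_top γ hM hsurj J hker b (fun k => c (ε.symm k)) hc (ε k)
    simpa using this

/-- **(uniformiser)** `ϖ M ⊆ (C ϖ) • M` for the `S'`-structure. -/
theorem mem_span_C_smul_top_inv (ϖ : O) (y : M) :
    (MonoidAlgebra.single (1 : Δ) ϖ : MonoidAlgebra O Δ) • y ∈
      (Ideal.span {MvPowerSeries.C (σ := Fin r) ϖ} • ⊤ :
        Submodule (MvPowerSeries (Fin r) O) M) :=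
  mem_span_C_smul_top (γ.comp (sq O)) hM ϖ y

/-- members of `(z_i ^ 2) M` lie in `augIdeal • M` for the `S'`-structure. -/
theorem mem_augIdeal_smul_top_of_mem_span_sq {ι : Type*} (η : ι → Δ) (idx : Fin r → ι)
    (hγ : ∀ i, γ (MvPowerSeries.X i) = zel O η (idx i)) {x : M}
    (hx : x ∈ (Ideal.span (Set.range fun i : Fin r => zel O η (idx i) ^ 2) • ⊤ :
      Submodule (MonoidAlgebra O Δ) M)) :
    x ∈ (augIdeal (Fin r) O • ⊤ : Submodule (MvPowerSeries (Fin r) O) M) := by
  induction hx using Submodule.smul_induction_on' with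
  | smul t ht m _ =>
    obtain ⟨c, rfl⟩ := (Ideal.mem_span_range_iff_exists_fun).mp ht
    rw [Finset.sum_smul]
    refine Submodule.sum_mem _ fun i _ => ?_
    have h1 : (c i * zel O η (idx i) ^ 2) • m = (MvPowerSeries.X i : MvPowerSeries (Fin r) O) •
        (c i • m) := by
      rw [← hM, sq_X, map_pow, hγ, mul_comm, mul_smul]
    rw [h1]
    exact Submodule.smul_mem_smul (X_mem_augIdeal (Fin r) O i) Submodule.mem_top
  | add y _ z _ hy hz => exact Submodule.add_mem _ hy hz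

end Module


/-! ### the ideal `J = (Ann M0) ^ (2 r + 1)` -/

section Ann

open Fermat.Agent.S43.Patch.Points

variable {O : Type*} [CommRing O] {Δ : Type*} [CommGroup Δ]
  {M : Type*} [AddCommGroup M] [Module (MonoidAlgebra O Δ) M]

/-- the augmentation submodule lies in `genIdeal • M`. -/
theorem span_le_genIdeal_smul_top {ι : Type*} (η : ι → Δ)
    (hη : Submonoid.closure (Set.range η) = ⊤) :
    Submodule.span (MonoidAlgebra O Δ)
      {y : M | ∃ (g : Δ) (z : M), y = (MonoidAlgebra.single g (1 : O) : MonoidAlgebra O Δ) • z - z}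
      ≤ (genIdeal (O := O) η • ⊤ : Submodule (MonoidAlgebra O Δ) M) := by
  rw [Submodule.span_le]
  rintro _ ⟨g, z, rfl⟩
  have h1 : (MonoidAlgebra.single g (1 : O) : MonoidAlgebra O Δ) • z - z
      = (MonoidAlgebra.of O Δ g - 1) • z := by
    rw [sub_smul, one_smul, MonoidAlgebra.of_apply]
  rw [SetLike.mem_coe, h1]
  exact Submodule.smul_mem_smul (of_sub_one_mem_genIdeal η hη g) Submodule.mem_top

variable {A : Type*} [CommRing A] [Module A M]
  (hcomm : ∀ (a : A) (t : MonoidAlgebra O Δ) (x : M), a • t • x = t • a • x)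

include hcomm in
/-- an endomorphism commuting with `T` which maps `M` into `I ^ k M` maps `I M` into
`I ^ (k + 1) M`. -/
theorem smul_mem_pow_succ_smul_top (I : Ideal (MonoidAlgebra O Δ)) {k : ℕ} {a : A}
    (ha : ∀ x : M, a • x ∈ (I ^ k • ⊤ : Submodule (MonoidAlgebra O Δ) M)) {y : M}
    (hy : y ∈ (I • ⊤ : Submodule (MonoidAlgebra O Δ) M)) :
    a • y ∈ (I ^ (k + 1) • ⊤ : Submodule (MonoidAlgebra O Δ) M) := by
  induction hy using Submodule.smul_induction_on' with
  | smul t ht m _ =>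
    rw [hcomm, pow_succ', Submodule.mul_smul]
    exact Submodule.smul_mem_smul ht (ha m)
  | add y _ z _ hy hz =>
    rw [smul_add]
    exact Submodule.add_mem _ hy hz

variable {M0 : Type*} [AddCommGroup M0] [Module A M0] (p0 : M →+ M0)
  (hp0 : ∀ (a : A) (x : M), p0 (a • x) = a • p0 x) (I : Ideal (MonoidAlgebra O Δ))
  (hker : ∀ x : M, p0 x = 0 → x ∈ (I • ⊤ : Submodule (MonoidAlgebra O Δ) M))

include hcomm hp0 hker in
/-- `(Ann_A M0) ^ k` maps `M` into `I ^ k M` when `ker (M → M0) ⊆ I M`. -/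
theorem ann_pow_smul_mem (k : ℕ) :
    ∀ a ∈ Module.annihilator A M0 ^ k, ∀ x : M,
      a • x ∈ (I ^ k • ⊤ : Submodule (MonoidAlgebra O Δ) M) := by
  induction k with
  | zero =>
    intro a _ x
    rw [pow_zero, Ideal.one_eq_top, Submodule.top_smul]
    exact Submodule.mem_top
  | succ k ih =>
    intro a ha x
    rw [pow_succ] at ha
    induction ha using Submodule.mul_induction_on' with
    | mem_mul_mem b hb c hc =>
      rw [mul_smul]
      refine smul_mem_pow_succ_smul_top hcomm I (ih b hb) (hker _ ?_)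
      rw [hp0, Module.mem_annihilator.mp hc]
    | add a _ a' _ h h' =>
      rw [add_smul]
      exact Submodule.add_mem _ h h'

end Ann


/-! ### the two fields of `LevelJ.DatumJ` fed by the Hecke side, in the `S'`-design -/

section Final

open Fermat.Agent.S43.Patch.Level Fermat.Agent.S43.Patch.Points

variable {O : Type*} [CommRing O] [IsLocalRing O] {Δ : Type*} [CommGroup Δ] {r : ℕ}
  {p : ℕ} [Fact p.Prime] (N : Fin r → ℕ)
  (e : Δ ≃* ((i : Fin r) → Multiplicative (ZMod (p ^ N i))))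
  (γ : MvPowerSeries (Fin r) O →ₐ[O] MonoidAlgebra O Δ)
  {M : Type*} [AddCommGroup M] [Module (MonoidAlgebra O Δ) M] [Module (MvPowerSeries (Fin r) O) M]
  (hM : ∀ (s : MvPowerSeries (Fin r) O) (x : M), γ (sq O s) • x = s • x)

include hM in
/-- **`free₁` / `freeχ`**: rank `2 ^ r * d` modulo `𝔪_{S'} ^ n` as soon as `(2 r + 2) n ≤ N_i`. -/
theorem exists_isBasisMod_inv_of_le (hsurj : Function.Surjective γ)
    (hker : ∀ n, (∀ i, n ≤ N i) → RingHom.ker γ ≤ maximalIdeal (MvPowerSeries (Fin r) O) ^ n)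
    (n : ℕ) (hn : ∀ i, (2 * r + 2) * n ≤ N i) {d : ℕ}
    (b : Module.Basis (Fin d) (MonoidAlgebra O Δ) M) :
    ∃ b' : Fin (2 ^ r * d) → M, IsBasisMod (maximalIdeal (MvPowerSeries (Fin r) O) ^ n) b' :=
  exists_isBasisMod_inv γ hM hsurj _ ((hker _ hn).trans (pow_le_map_sq n)) b

variable {A : Type*} [CommRing A] [Module A M]
  (hcomm : ∀ (a : A) (t : MonoidAlgebra O Δ) (x : M), a • t • x = t • a • x)
  {M0 : Type*} [AddCommGroup M0] [Module A M0] (p0 : M →+ M0)
  (hp0 : ∀ (a : A) (x : M), p0 (a • x) = a • p0 x)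
  (hker0 : ∀ x : M, p0 x = 0 → x ∈ Submodule.span (MonoidAlgebra O Δ)
    {y : M | ∃ (g : Δ) (z : M), y = (MonoidAlgebra.single g (1 : O) : MonoidAlgebra O Δ) • z - z})

include hM hcomm hp0 hker0 in
/-- **`J_smul`** for `J = (Ann_A M0) ^ (2 r + 1)`: it maps `M` into `augIdeal • M` for the
`S'`-structure. -/
theorem ann_pow_smul_mem_augIdeal_smul_top (h2 : IsUnit (2 : O))
    (hpO : (p : O) ∈ maximalIdeal O)
    (hγ : ∀ i, γ (MvPowerSeries.X i) = zel O (gen N e) i) :
    ∀ a ∈ Module.annihilator A M0 ^ (2 * r + 1), ∀ x : M,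
      a • x ∈ (augIdeal (Fin r) O • ⊤ : Submodule (MvPowerSeries (Fin r) O) M) := by
  have := finite_of_mulEquiv N e
  have hδ := closure_range_gen N e
  have hloc := isLocalRing_monoidAlgebra (O := O) (gen N e) hδ (Fact.out : p.Prime) hpO N
    (gen_pow N e)
  have hmax := maximalIdeal_monoidAlgebra (O := O) (gen N e) hδ
  have hgm : genIdeal (O := O) (gen N e) ≤ maximalIdeal (MonoidAlgebra O Δ) := by
    rw [hmax]; exact le_sup_right
  intro a ha x
  have h1 := ann_pow_smul_mem hcomm p0 hp0 (genIdeal (O := O) (gen N e))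
    (fun x hx => span_le_genIdeal_smul_top (gen N e) hδ (hker0 x hx)) (2 * r + 1) a ha x
  have h3 : genIdeal (O := O) (gen N e) ^ (2 * r + 1) ≤
      Ideal.span (Set.range fun i : Fin r => zel O (gen N e) i ^ 2) := by
    rw [← span_zel_eq_genIdeal h2 _ hgm]
    have h4 := span_pow_le_span_sq (Finset.univ : Finset (Fin r)) (zel O (gen N e))
    rwa [Finset.card_univ, Fintype.card_fin, Finset.coe_univ, Set.image_univ, Set.image_univ]
      at h4
  exact mem_augIdeal_smul_top_of_mem_span_sq γ hM (gen N e) id hγ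
    (Submodule.smul_mono_left h3 h1)

end Final

end Fermat.Agent.S43.Patch.GroupRingInv
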