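/-
S43 (row 37), PROJECT R, block `Patch`, file `LevelJ` (helper29): N5, THE INPUT OF THE PATCHING OF
TWO MODULE SYSTEMS, **form with an ideal `J` of `A₁` in place of the level-zero module**.

Same ambient as `Level`.  A `DatumJ … J d n` is a `Level.Datum` without the map `p₀ : N₁ → M0`;
instead an ideal `J : Ideal A₁` (fixed once, independent of `n`) is given with
`J_smul : a ∈ J → a • x ∈ 𝔞 • N₁` for every `x : N₁`.

* `Level.Datum` is the case `J = Ann_{A₁} M0` (`DatumJ.ofDatum`).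
* When the ring `S` only sees a subring of the diamond algebra (`S' = O⟦z_i ^ 2⟧`, sign-agnostic
  patching), `𝔞 = (z_i ^ 2)` is smaller than the augmentation ideal and `J` is a power of
  `Ann_{A₁} M0`.
-/
import Mathlib
import Fermat.Agent.S43.Patch.Level

set_option autoImplicit false

noncomputable section

namespace Fermat.Agent.S43.Patch.LevelJ

open Fermat.Agent.S43.Patch.Level

universe u

/-- the data of the two module systems at level `n`, with the ideal `J` of `A₁`. -/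
structure DatumJ (S A₁ Aχ Abar : Type*) [CommRing S] [CommRing A₁] [CommRing Aχ] [CommRing Abar]
    (mS : Ideal S) (π₁ : A₁ →+* Abar) (πχ : Aχ →+* Abar) (lam : S) (lam₁ : A₁) (lamχ : Aχ)
    (𝔞 : Ideal S) (J : Ideal A₁) (d : ℕ) (n : ℕ) where
  /-- the unipotent module -/
  N₁ : Type u
  /-- the `χ`-module -/
  Nχ : Type u
  /-- their common reduction modulo `lam` -/
  Nb : Type u
  [acg₁ : AddCommGroup N₁]
  [acgχ : AddCommGroup Nχ]
  [acgb : AddCommGroup Nb]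
  [modS₁ : Module S N₁]
  [modSχ : Module S Nχ]
  [modSb : Module S Nb]
  [modA₁ : Module A₁ N₁]
  [modAχ : Module Aχ Nχ]
  [modAb : Module Abar Nb]
  /-- `S → R_∞^1` at level `n` -/
  φ₁ : S →+* A₁
  /-- `S → R_∞^χ` at level `n` -/
  φχ : S →+* Aχ
  φ₁_smul : ∀ (s : S) (x : N₁), φ₁ s • x = s • x
  φχ_smul : ∀ (s : S) (x : Nχ), φχ s • x = s • x
  φ₁_lam : φ₁ lam = lam₁
  φχ_lam : φχ lam = lamχ
  free₁ : ∃ b : Fin d → N₁, IsBasisMod (mS ^ n) b
  freeχ : ∃ b : Fin d → Nχ, IsBasisMod (mS ^ n) b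
  /-- reduction of the unipotent module -/
  q₁ : N₁ →ₗ[S] Nb
  /-- reduction of the `χ`-module -/
  qχ : Nχ →ₗ[S] Nb
  q₁_surj : Function.Surjective q₁
  qχ_surj : Function.Surjective qχ
  q₁_ker : ∀ x : N₁, q₁ x = 0 → x ∈ (Ideal.span {lam} • ⊤ : Submodule S N₁)
  qχ_ker : ∀ x : Nχ, qχ x = 0 → x ∈ (Ideal.span {lam} • ⊤ : Submodule S Nχ)
  q₁_smul : ∀ (a : A₁) (x : N₁), q₁ (a • x) = π₁ a • q₁ x
  qχ_smul : ∀ (a : Aχ) (x : Nχ), qχ (a • x) = πχ a • qχ x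
  /-- `J` maps the unipotent module into `𝔞 • N₁` -/
  J_smul : ∀ a ∈ J, ∀ x : N₁, a • x ∈ (𝔞 • ⊤ : Submodule S N₁)

attribute [instance] DatumJ.acg₁ DatumJ.acgχ DatumJ.acgb DatumJ.modS₁ DatumJ.modSχ DatumJ.modSb
  DatumJ.modA₁ DatumJ.modAχ DatumJ.modAb

/-- a `Level.Datum` is a `DatumJ` for the annihilator of the level-zero module. -/
def DatumJ.ofDatum {S A₁ Aχ Abar : Type*} [CommRing S] [CommRing A₁] [CommRing Aχ]
    [CommRing Abar] {mS : Ideal S} {π₁ : A₁ →+* Abar} {πχ : Aχ →+* Abar} {lam : S} {lam₁ : A₁}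
    {lamχ : Aχ} {𝔞 : Ideal S} {M0 : Type*} [AddCommGroup M0] [Module S M0] [Module A₁ M0]
    {d n : ℕ} (D : Datum.{u} S A₁ Aχ Abar mS π₁ πχ lam lam₁ lamχ 𝔞 M0 d n) :
    DatumJ.{u} S A₁ Aχ Abar mS π₁ πχ lam lam₁ lamχ 𝔞 (Module.annihilator A₁ M0) d n where
  N₁ := D.N₁
  Nχ := D.Nχ
  Nb := D.Nb
  φ₁ := D.φ₁
  φχ := D.φχ
  φ₁_smul := D.φ₁_smul
  φχ_smul := D.φχ_smul
  φ₁_lam := D.φ₁_lam
  φχ_lam := D.φχ_lam
  free₁ := D.free₁
  freeχ := D.freeχ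
  q₁ := D.q₁
  qχ := D.qχ
  q₁_surj := D.q₁_surj
  qχ_surj := D.qχ_surj
  q₁_ker := D.q₁_ker
  qχ_ker := D.qχ_ker
  q₁_smul := D.q₁_smul
  qχ_smul := D.qχ_smul
  J_smul := fun a ha x => D.p₀_ker _ (by
    rw [D.p₀_smul, Module.mem_annihilator.mp ha])

end Fermat.Agent.S43.Patch.LevelJ
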