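/-
S43 (row 37), PROJECT R, block `Patch`, file `Adapter` (helper29): **FROM helper24's `HeckeSide`
TO `LevelJ.DatumJ`** in the `S'`-design.

Input: a `HeckeSide 𝒪 ϖ Δ I M0 t0 d` (L3), the presentation `e : Δ ≃* ∏ ZMod (p ^ N i)`, the
sign-agnostic diamond map `γ : S → 𝒪[Δ]` (`GroupRingInv.exists_invDiamondHom`), and what the
Galois side owes: actions of `A₁`, `Aχ`, `Abar` on `M1`, `Mχ`, `Mb` and of `A₁` on `M0`, ring maps
`φ₁ : S → A₁`, `φχ : S → Aχ` acting as `γ ∘ sq` (`PSExt.smul_eq_of_forall_X` reduces this to the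
variables), semilinearity of `q1`, `qχ`, `p0`, commutation of `A₁` with `𝒪[Δ]` on `M1`.
Output (`datumJ`): a `DatumJ S A₁ Aχ Abar 𝔪_S π₁ πχ (C ϖ) lam₁ lamχ (augIdeal) J (2 ^ r * d) n` with
`J = (Ann_{A₁} M0) ^ (2 r + 1)`, for every `n` with `(2 r + 2) n ≤ N i`.
-/
import Fermat.Agent.S43.Hecke.Seam
import Fermat.Agent.S43.Patch.GroupRingInv
import Fermat.Agent.S43.Patch.LevelJ

set_option autoImplicit false

noncomputable section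

namespace Fermat.Agent.S43.Patch.Adapter

open IsLocalRing Fermat.Agent.S43.Hecke.Seam Fermat.Agent.S43.Patch.GroupRing
  Fermat.Agent.S43.Patch.GroupRingInv Fermat.Agent.S43.Patch.EvenOdd
  Fermat.Agent.S43.Patch.LevelJ Fermat.Agent.S43.Patch.Level Fermat.Agent.S43.Patch.Points

universe u

attribute [local instance] HeckeSide.acg1 HeckeSide.acgχ HeckeSide.acgb HeckeSide.mod1
  HeckeSide.modχ HeckeSide.modb

variable {𝒪 : Type u} [CommRing 𝒪] [IsLocalRing 𝒪] {ϖ : 𝒪} {Δ : Type u} [CommGroup Δ] {I : Type u}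
  {M0 : Type u} [AddCommGroup M0] [Module 𝒪 M0] {t0 : I → Module.End 𝒪 M0} {d : ℕ}
  (H : HeckeSide 𝒪 ϖ Δ I M0 t0 d)
  {r : ℕ} {p : ℕ} [Fact p.Prime] (N : Fin r → ℕ)
  (e : Δ ≃* ((i : Fin r) → Multiplicative (ZMod (p ^ N i))))
  (γ : MvPowerSeries (Fin r) 𝒪 →ₐ[𝒪] MonoidAlgebra 𝒪 Δ)

/-- the `S'`-module structure of a `𝒪[Δ]`-module: `s` acts as `γ (s (X ^ 2))`. -/
@[reducible] def modS (M : Type*) [AddCommGroup M] [Module (MonoidAlgebra 𝒪 Δ) M] :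
    Module (MvPowerSeries (Fin r) 𝒪) M :=
  Module.compHom M (γ.comp (sq 𝒪)).toRingHom

omit [IsLocalRing 𝒪] in
theorem modS_smul (M : Type*) [AddCommGroup M] [Module (MonoidAlgebra 𝒪 Δ) M]
    (s : MvPowerSeries (Fin r) 𝒪) (x : M) :
    letI := modS γ M
    γ (sq 𝒪 s) • x = s • x := rfl

/-- a `𝒪[Δ]`-linear map is `S'`-linear. -/
def linS {M M' : Type*} [AddCommGroup M] [Module (MonoidAlgebra 𝒪 Δ) M] [AddCommGroup M']
    [Module (MonoidAlgebra 𝒪 Δ) M'] (f : M →ₗ[MonoidAlgebra 𝒪 Δ] M') :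
    letI := modS γ M
    letI := modS γ M'
    M →ₗ[MvPowerSeries (Fin r) 𝒪] M' :=
  letI := modS γ M
  letI := modS γ M'
  { toFun := f
    map_add' := map_add f
    map_smul' := fun s x => by
      show f (γ (sq 𝒪 s) • x) = γ (sq 𝒪 s) • f x
      rw [map_smul] }

variable {A₁ Aχ Abar : Type*} [CommRing A₁] [CommRing Aχ] [CommRing Abar]
  (π₁ : A₁ →+* Abar) (πχ : Aχ →+* Abar) (lam₁ : A₁) (lamχ : Aχ)
  [Module A₁ H.M1] [Module Aχ H.Mχ] [Module Abar H.Mb] [Module A₁ M0]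
  (φ₁ : MvPowerSeries (Fin r) 𝒪 →+* A₁) (φχ : MvPowerSeries (Fin r) 𝒪 →+* Aχ)

/-- **the adapter**. -/
def datumJ [IsNoetherianRing 𝒪] [IsAdicComplete (maximalIdeal 𝒪) 𝒪]
    (h2 : IsUnit (2 : 𝒪)) (hp𝒪 : (p : 𝒪) ∈ maximalIdeal 𝒪)
    (hsurj : Function.Surjective γ)
    (hγ : ∀ i, γ (MvPowerSeries.X i) = zel 𝒪 (gen N e) i)
    (hker : ∀ n, (∀ i, n ≤ N i) →
      RingHom.ker γ ≤ maximalIdeal (MvPowerSeries (Fin r) 𝒪) ^ n)
    (hφ₁ : ∀ (s : MvPowerSeries (Fin r) 𝒪) (x : H.M1), φ₁ s • x = γ (sq 𝒪 s) • x)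
    (hφχ : ∀ (s : MvPowerSeries (Fin r) 𝒪) (x : H.Mχ), φχ s • x = γ (sq 𝒪 s) • x)
    (hφ₁lam : φ₁ (MvPowerSeries.C ϖ) = lam₁) (hφχlam : φχ (MvPowerSeries.C ϖ) = lamχ)
    (hq1 : ∀ (a : A₁) (x : H.M1), H.q1 (a • x) = π₁ a • H.q1 x)
    (hqχ : ∀ (a : Aχ) (x : H.Mχ), H.qχ (a • x) = πχ a • H.qχ x)
    (hcomm : ∀ (a : A₁) (t : MonoidAlgebra 𝒪 Δ) (x : H.M1), a • t • x = t • a • x)
    (hp0 : ∀ (a : A₁) (x : H.M1), H.p0 (a • x) = a • H.p0 x)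
    (n : ℕ) (hn : ∀ i, (2 * r + 2) * n ≤ N i) :
    DatumJ.{u} (MvPowerSeries (Fin r) 𝒪) A₁ Aχ Abar (maximalIdeal (MvPowerSeries (Fin r) 𝒪))
      π₁ πχ (MvPowerSeries.C ϖ) lam₁ lamχ (augIdeal (Fin r) 𝒪)
      (Module.annihilator A₁ M0 ^ (2 * r + 1)) (2 ^ r * d) n :=
  letI i1 := modS γ H.M1
  letI iχ := modS γ H.Mχ
  letI ib := modS γ H.Mb
  { N₁ := H.M1
    Nχ := H.Mχ
    Nb := H.Mb
    φ₁ := φ₁
    φχ := φχ
    φ₁_smul := hφ₁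
    φχ_smul := hφχ
    φ₁_lam := hφ₁lam
    φχ_lam := hφχlam
    free₁ := by
      obtain ⟨b⟩ := H.basis1
      exact exists_isBasisMod_inv_of_le N γ (modS_smul γ H.M1) hsurj hker n hn b
    freeχ := by
      obtain ⟨b⟩ := H.basisχ
      exact exists_isBasisMod_inv_of_le N γ (modS_smul γ H.Mχ) hsurj hker n hn b
    q₁ := linS γ H.q1
    qχ := linS γ H.qχ
    q₁_surj := H.q1_surj
    qχ_surj := H.qχ_surj
    q₁_ker := fun x hx => by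
      obtain ⟨y, rfl⟩ := H.q1_ker x hx
      exact mem_span_C_smul_top_inv γ (modS_smul γ H.M1) ϖ y
    qχ_ker := fun x hx => by
      obtain ⟨y, rfl⟩ := H.qχ_ker x hx
      exact mem_span_C_smul_top_inv γ (modS_smul γ H.Mχ) ϖ y
    q₁_smul := hq1
    qχ_smul := hqχ
    J_smul := ann_pow_smul_mem_augIdeal_smul_top N e γ (modS_smul γ H.M1) hcomm H.p0 hp0
      H.p0_ker h2 hp𝒪 hγ }

end Fermat.Agent.S43.Patch.Adapter
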