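/-
S43 (row 37), PROJECT R, block `Patch`, file `PSExt` (helper29): **two actions of a power series
ring which agree on the variables are equal.**

`S = O⟦X_1..X_r⟧` acts on an `O`-module `M` through two `O`-algebra maps `ψ₁ : S → T`,
`ψ₂ : S → A` (`T`, `A` commutative `O`-algebras acting on `M`, e.g. `T = O[Δ]` and `A = R_∞`).
If `ψ₁ (X i)` and `ψ₂ (X i)` act in the same way, this common operator is topologically nilpotent
(`ψ₁ (X i) ^ k • M ⊆ 𝔪 M`) and `M` is `𝔪`-adically separated, then `ψ₁ s` and `ψ₂ s` act in the same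
way for every `s` (`smul_eq_of_forall_X`).  This turns "the generators of the diamond algebra act
through `R_∞` as they should" into the field `φ₁_smul` of `Level.Datum`.
-/
import Fermat.Agent.S43.Patch.GroupRing

set_option autoImplicit false

noncomputable section

namespace Fermat.Agent.S43.Patch.PSExt

open Fermat.Agent.S43.Patch.GroupRing

variable {O : Type*} [CommRing O] {r : ℕ} {M : Type*} [AddCommGroup M] [Module O M]

section One

variable {B : Type*} [CommRing B] [Algebra O B] [Module B M] [IsScalarTower O B M]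
  (ψ : MvPowerSeries (Fin r) O →ₐ[O] B) (𝔪 : Ideal O)

/-- the ideal of the series acting on `M` with image in `𝔪 ^ n • M`. -/
def smallIdeal (n : ℕ) : Ideal (MvPowerSeries (Fin r) O) where
  carrier := {s | ∀ x : M, ψ s • x ∈ (𝔪 ^ n • ⊤ : Submodule O M)}
  add_mem' := by
    intro a b ha hb x
    rw [map_add, add_smul]
    exact Submodule.add_mem _ (ha x) (hb x)
  zero_mem' := by
    intro x
    rw [map_zero, zero_smul]
    exact Submodule.zero_mem _
  smul_mem' := by
    intro c a ha x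
    rw [smul_eq_mul, mul_comm, map_mul, mul_smul]
    exact ha _

omit [IsScalarTower O B M] in
theorem mem_smallIdeal {n : ℕ} {s : MvPowerSeries (Fin r) O} :
    s ∈ smallIdeal (M := M) ψ 𝔪 n ↔ ∀ x : M, ψ s • x ∈ (𝔪 ^ n • ⊤ : Submodule O M) := Iff.rfl

/-- a `B`-endomorphism preserves `𝔪 ^ n • M`. -/
theorem smul_mem_pow_smul_top (b : B) {n : ℕ} {x : M}
    (hx : x ∈ (𝔪 ^ n • ⊤ : Submodule O M)) : b • x ∈ (𝔪 ^ n • ⊤ : Submodule O M) := by
  induction hx using Submodule.smul_induction_on' with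
  | smul a ha y _ =>
    rw [smul_comm]
    exact Submodule.smul_mem_smul ha Submodule.mem_top
  | add y _ z _ hy hz =>
    rw [smul_add]
    exact Submodule.add_mem _ hy hz

/-- if `b ^ k` maps `M` into `𝔪 M` then it maps `𝔪 ^ n M` into `𝔪 ^ (n + 1) M`. -/
theorem smul_mem_pow_succ_smul_top {b : B}
    (hb : ∀ x : M, b • x ∈ (𝔪 • ⊤ : Submodule O M)) {n : ℕ} {x : M}
    (hx : x ∈ (𝔪 ^ n • ⊤ : Submodule O M)) : b • x ∈ (𝔪 ^ (n + 1) • ⊤ : Submodule O M) := by
  induction hx using Submodule.smul_induction_on' with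
  | smul a ha y _ =>
    rw [smul_comm, pow_succ, mul_smul]
    exact Submodule.smul_mem_smul ha (hb y)
  | add y _ z _ hy hz =>
    rw [smul_add]
    exact Submodule.add_mem _ hy hz

theorem pow_mul_smul_mem {b : B} {k : ℕ}
    (hb : ∀ x : M, b ^ k • x ∈ (𝔪 • ⊤ : Submodule O M)) (n : ℕ) (x : M) :
    b ^ (k * n) • x ∈ (𝔪 ^ n • ⊤ : Submodule O M) := by
  induction n generalizing x with
  | zero =>
    rw [pow_zero, Ideal.one_eq_top, Submodule.top_smul]
    exact Submodule.mem_top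
  | succ n ih =>
    have h1 : b ^ (k * (n + 1)) • x = b ^ k • (b ^ (k * n) • x) := by
      rw [← mul_smul, ← pow_add, Nat.mul_succ, Nat.add_comm]
    rw [h1]
    exact smul_mem_pow_succ_smul_top 𝔪 (b := b ^ k) hb (ih x)

/-- a high power of `(X_1..X_r)` acts on `M` with image in `𝔪 ^ n • M`. -/
theorem exists_pow_le_smallIdeal
    (hnil : ∀ i, ∃ k : ℕ, ∀ x : M, ψ (MvPowerSeries.X i) ^ k • x ∈ (𝔪 • ⊤ : Submodule O M))
    (n : ℕ) :
    ∃ m : ℕ, Ideal.span (Set.range fun i => (MvPowerSeries.X i : MvPowerSeries (Fin r) O)) ^ m ≤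
      smallIdeal (M := M) ψ 𝔪 n := by
  refine Ideal.exists_pow_le_of_le_radical_of_fg ?_ (Submodule.fg_span (Set.finite_range _))
  rw [Ideal.span_le]
  rintro _ ⟨i, rfl⟩
  obtain ⟨k, hk⟩ := hnil i
  refine ⟨k * n, ?_⟩
  rw [mem_smallIdeal]
  intro x
  rw [map_pow]
  exact pow_mul_smul_mem 𝔪 hk n x

end One

section Two

variable {T A : Type*} [CommRing T] [CommRing A] [Algebra O T] [Algebra O A] [Module T M]
  [Module A M] [IsScalarTower O T M] [IsScalarTower O A M]
  (ψ₁ : MvPowerSeries (Fin r) O →ₐ[O] T) (ψ₂ : MvPowerSeries (Fin r) O →ₐ[O] A)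

/-- agreement on polynomials. -/
theorem smul_eq_of_forall_X_polynomial
    (hX : ∀ i (x : M), ψ₁ (MvPowerSeries.X i) • x = ψ₂ (MvPowerSeries.X i) • x)
    (q : MvPolynomial (Fin r) O) (x : M) :
    ψ₁ (q : MvPowerSeries (Fin r) O) • x = ψ₂ (q : MvPowerSeries (Fin r) O) • x := by
  induction q using MvPolynomial.induction_on generalizing x with
  | C a =>
    have h : ((MvPolynomial.C a : MvPolynomial (Fin r) O) : MvPowerSeries (Fin r) O)
        = algebraMap O (MvPowerSeries (Fin r) O) a := by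
      rw [MvPolynomial.coe_C]; rfl
    rw [h, AlgHom.commutes, AlgHom.commutes, algebraMap_smul, algebraMap_smul]
  | add p q hp hq =>
    rw [MvPolynomial.coe_add, map_add, map_add, add_smul, add_smul, hp, hq]
  | mul_X p i hp =>
    rw [MvPolynomial.coe_mul, MvPolynomial.coe_X, mul_comm, map_mul, map_mul, mul_smul, mul_smul,
      hp, hX]

/-- **two actions of `O⟦X⟧` which agree on the variables are equal.** -/
theorem smul_eq_of_forall_X (𝔪 : Ideal O)
    (hsep : ∀ x : M, (∀ n, x ∈ (𝔪 ^ n • ⊤ : Submodule O M)) → x = 0)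
    (hnil : ∀ i, ∃ k : ℕ, ∀ x : M, ψ₁ (MvPowerSeries.X i) ^ k • x ∈ (𝔪 • ⊤ : Submodule O M))
    (hX : ∀ i (x : M), ψ₁ (MvPowerSeries.X i) • x = ψ₂ (MvPowerSeries.X i) • x)
    (s : MvPowerSeries (Fin r) O) (x : M) : ψ₁ s • x = ψ₂ s • x := by
  have hpow : ∀ i (k : ℕ) (x : M),
      ψ₁ (MvPowerSeries.X i) ^ k • x = ψ₂ (MvPowerSeries.X i) ^ k • x := by
    intro i k
    induction k with
    | zero => intro x; simp
    | succ k ih =>
      intro x
      rw [pow_succ, pow_succ, mul_smul, mul_smul, hX, ih]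
  have hnil₂ : ∀ i, ∃ k : ℕ, ∀ x : M,
      ψ₂ (MvPowerSeries.X i) ^ k • x ∈ (𝔪 • ⊤ : Submodule O M) := by
    intro i
    obtain ⟨k, hk⟩ := hnil i
    exact ⟨k, fun x => by rw [← hpow]; exact hk x⟩
  rw [← sub_eq_zero]
  apply hsep
  intro n
  obtain ⟨m₁, hm₁⟩ := exists_pow_le_smallIdeal (M := M) ψ₁ 𝔪 hnil n
  obtain ⟨m₂, hm₂⟩ := exists_pow_le_smallIdeal (M := M) ψ₂ 𝔪 hnil₂ n
  obtain ⟨q, hq⟩ := exists_polynomial_sub_mem (max m₁ m₂) s
  have h1 : ψ₁ s • x - ψ₂ s • x
      = ψ₁ (s - (q : MvPowerSeries (Fin r) O)) • x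
        - ψ₂ (s - (q : MvPowerSeries (Fin r) O)) • x := by
    rw [map_sub, map_sub, sub_smul, sub_smul, smul_eq_of_forall_X_polynomial ψ₁ ψ₂ hX q x]
    abel
  rw [h1]
  refine Submodule.sub_mem _ ?_ ?_
  · exact hm₁ (Ideal.pow_le_pow_right (le_max_left _ _) hq) x
  · exact hm₂ (Ideal.pow_le_pow_right (le_max_right _ _) hq) x

end Two

end Fermat.Agent.S43.Patch.PSExt
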