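import Mathlib

/-!
# Commutative algebra kit for patching (N2), part 1: Krull dimension

* `ringKrullDim_powerSeries` : `dim A⟦X⟧ = dim A + 1` for noetherian `A`;
* `ringKrullDim_le_of_isIntegral` / `ringKrullDim_eq_of_isIntegral_of_injective` : the dimension does
  not change along an injective integral (for instance finite) ring extension.
-/

set_option autoImplicit false

namespace Fermat.Agent.S43.Patch.Dim

open PowerSeries Ideal

/-- `dim A⟦X⟧ = dim A + 1` for a noetherian ring `A`. -/
theorem ringKrullDim_powerSeries (A : Type*) [CommRing A] [IsNoetherianRing A] :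
    ringKrullDim A⟦X⟧ = ringKrullDim A + 1 := by
  have hreg : IsSMulRegular A⟦X⟧ (X : A⟦X⟧) := by
    intro a b h
    exact X_mul_cancel (by simpa [smul_eq_mul] using h)
  have hjac : (X : A⟦X⟧) ∈ Ring.jacobson A⟦X⟧ := by
    rw [← Ideal.jacobson_bot, Ideal.mem_jacobson_bot]
    intro y
    rw [isUnit_iff_constantCoeff]
    simp
  have key := ringKrullDim_quotient_span_singleton_succ_eq_ringKrullDim_of_mem_jacobson hreg hjac
  rw [← key]
  congr 1
  have hker : RingHom.ker (constantCoeff (R := A)) = span {X} := by
    ext f
    rw [RingHom.mem_ker, Ideal.mem_span_singleton, X_dvd_iff]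
  exact ringKrullDim_eq_of_ringEquiv
    ((Ideal.quotEquivOfEq hker.symm).trans
      (RingHom.quotientKerEquivOfSurjective constantCoeff_surj))


/-- `dim A⟦X₁, …, Xₙ⟧ = dim A + n` for a noetherian ring `A`. -/
theorem ringKrullDim_mvPowerSeries_fin (A : Type*) [CommRing A] [IsNoetherianRing A] (n : ℕ) :
    ringKrullDim (MvPowerSeries (Fin n) A) = ringKrullDim A + n := by
  induction n with
  | zero =>
    rw [ringKrullDim_eq_of_ringEquiv (MvPowerSeries.isEmptyEquiv (Fin 0) A).toRingEquiv]
    simp
  | succ n ih =>
    rw [ringKrullDim_eq_of_ringEquiv (MvPowerSeries.finSuccEquiv A n).toRingEquiv,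
      ringKrullDim_powerSeries, ih]
    push_cast
    rw [add_assoc]

/-- `dim A⟦X_i : i ∈ σ⟧ = dim A + #σ` for a noetherian ring `A` and a finite type `σ`. -/
theorem ringKrullDim_mvPowerSeries (A : Type*) [CommRing A] [IsNoetherianRing A]
    (σ : Type*) [Fintype σ] :
    ringKrullDim (MvPowerSeries σ A) = ringKrullDim A + Fintype.card σ := by
  rw [← ringKrullDim_mvPowerSeries_fin A (Fintype.card σ)]
  exact ringKrullDim_eq_of_ringEquiv
    (MvPowerSeries.renameEquiv A (Fintype.equivFin σ)).toRingEquiv

variable {R S : Type*} [CommRing R] [CommRing S] [Algebra R S]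

/-- Incomparability: along an integral extension the dimension does not go up. -/
theorem ringKrullDim_le_of_isIntegral [Algebra.IsIntegral R S] :
    ringKrullDim S ≤ ringKrullDim R := by
  refine Order.krullDim_le_of_strictMono (PrimeSpectrum.comap (algebraMap R S)) ?_
  intro P Q hPQ
  have h : P.asIdeal < Q.asIdeal := hPQ
  exact Ideal.IsIntegral.comap_lt_comap (R := R) h

/-- Lying over + going up: along an injective integral extension the dimension does not go
down. -/
theorem ringKrullDim_le_of_isIntegral_of_injective [Algebra.IsIntegral R S]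
    (hinj : Function.Injective (algebraMap R S)) :
    ringKrullDim R ≤ ringKrullDim S := by
  refine iSup_le fun l => ?_
  have hker : RingHom.ker (algebraMap R S) ≤ (RelSeries.head l).asIdeal := by
    rw [(RingHom.injective_iff_ker_eq_bot _).mp hinj]
    exact bot_le
  obtain ⟨P, -, hP', hPover⟩ := Ideal.exists_ideal_over_prime_of_isIntegral
    (RelSeries.head l).asIdeal (⊥ : Ideal S) (by rw [← RingHom.ker_eq_comap_bot]; exact hker)
  have : P.IsPrime := hP'
  have : P.LiesOver (RelSeries.head l).asIdeal := ⟨hPover.symm⟩
  obtain ⟨L, hL, -, -⟩ := Ideal.exists_ltSeries_of_hasGoingUp l P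
  rw [← hL]
  exact Order.LTSeries.length_le_krullDim L

/-- **The dimension is invariant under injective integral extensions.** -/
theorem ringKrullDim_eq_of_isIntegral_of_injective [Algebra.IsIntegral R S]
    (hinj : Function.Injective (algebraMap R S)) :
    ringKrullDim S = ringKrullDim R :=
  le_antisymm ringKrullDim_le_of_isIntegral (ringKrullDim_le_of_isIntegral_of_injective hinj)

end Fermat.Agent.S43.Patch.Dim
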