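/-
S43 (row 37), PROJECT R, block `Patch`, file `PatchedJ` (helper29): N5, **THE PATCHING THEOREM FOR
TWO MODULE SYSTEMS**, matrix form, for `LevelJ.DatumJ` (an ideal `J` of `A₁` in place of the
level-zero module).

Output (`exists_patched`): ring homomorphisms `ρ₁ : A₁ →+* M_d(S)`, `ρχ : Aχ →+* M_d(S)`,
`φ₁ : S →+* A₁`, `φχ : S →+* Aχ` with
* `ρ (φ s) = s • 1`, `φ lam = lam₁`, `lamχ`;
* `ρ₁ a ≡ ρχ a'` modulo `lam` whenever `π₁ a = πχ a'`;
* **all entries of `ρ₁ a` lie in `𝔞` for `a ∈ J`** (the patched module modulo `𝔞` is killed by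
  `J`).
-/
import Fermat.Agent.S43.Patch.System
import Fermat.Agent.S43.Patch.Compact
import Fermat.Agent.S43.Patch.LevelJ

set_option autoImplicit false

noncomputable section

namespace Fermat.Agent.S43.Patch.PatchedJ

open IsLocalRing Fermat.Agent.S43.Patch.Level Fermat.Agent.S43.Patch.LevelJ
  Fermat.Agent.S43.Patch.Basis
  Fermat.Agent.S43.Patch.Limit Fermat.Agent.S43.Patch.System Fermat.Agent.S43.Patch.Ultra
  Fermat.Agent.S43.Patch.Compact

universe u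

variable {S A₁ Aχ Abar : Type*} [CommRing S] [IsLocalRing S] [CommRing A₁] [CommRing Aχ]
  [CommRing Abar] {π₁ : A₁ →+* Abar} {πχ : Aχ →+* Abar} {lam : S} {lam₁ : A₁} {lamχ : Aχ}
  {𝔞 : Ideal S} {J : Ideal A₁} {d : ℕ}

/-- **adapted bases at one level** (Nakayama): a basis of `N₁` modulo `𝔪 ^ n` and a basis of `Nχ`
modulo `𝔪 ^ n` with the same reduction modulo `lam`. -/
theorem exists_adapted_bases {n : ℕ}
    (D : DatumJ.{u} S A₁ Aχ Abar (maximalIdeal S) π₁ πχ lam lam₁ lamχ 𝔞 J d n)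
    (hlam : lam ∈ maximalIdeal S) :
    ∃ (b₁ : Fin d → D.N₁) (bχ : Fin d → D.Nχ),
      IsBasisMod (maximalIdeal S ^ n) b₁ ∧ IsBasisMod (maximalIdeal S ^ n) bχ ∧
      (∀ i, D.q₁ (b₁ i) = D.qχ (bχ i)) := by
  obtain ⟨b₁, hb₁⟩ := D.free₁
  obtain ⟨c₀, hc₀⟩ := D.freeχ
  -- lift the reduction of `b₁`
  choose bχ hbχ using fun i => D.qχ_surj (D.q₁ (b₁ i))
  have hβ : IsBasisMod (Ideal.span {lam} ⊔ maximalIdeal S ^ n) (fun i => D.q₁ (b₁ i)) :=
    IsBasisMod.map hb₁ D.q₁ D.q₁_surj D.q₁_ker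
  have hbχ' : IsBasisMod (maximalIdeal S ^ n) bχ := by
    refine IsBasisMod.of_spans hc₀ (Ideal.span {lam})
      ((Ideal.span_singleton_le_iff_mem _).mpr hlam) fun x => ?_
    have h1 : ∀ y : D.Nb, ∃ c : Fin d → S,
        Expands (Ideal.span {lam} ⊔ maximalIdeal S ^ n) (fun i => D.qχ (bχ i)) y c := by
      intro y
      have h2 : (fun i => D.qχ (bχ i)) = fun i => D.q₁ (b₁ i) := funext hbχ
      rw [h2]
      exact hβ.1 y
    exact spans_of_map_spans D.qχ D.qχ_surj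
      (fun x hx => Submodule.smul_mono le_sup_left le_rfl (D.qχ_ker x hx)) h1 x
  exact ⟨b₁, bχ, hb₁, hbχ', fun i => (hbχ i).symm⟩

variable [IsNoetherianRing S] [IsAdicComplete (maximalIdeal S) S] [Finite (ResidueField S)]
  [IsNoetherianRing A₁] [IsLocalRing A₁] [IsAdicComplete (maximalIdeal A₁) A₁]
  [Finite (ResidueField A₁)]
  [IsNoetherianRing Aχ] [IsLocalRing Aχ] [IsAdicComplete (maximalIdeal Aχ) Aχ]
  [Finite (ResidueField Aχ)]

/-- **THE PATCHING THEOREM** (two module systems, matrix form, with the ideal `J`). -/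
theorem exists_patched
    (D : ∀ n, DatumJ.{u} S A₁ Aχ Abar (maximalIdeal S) π₁ πχ lam lam₁ lamχ 𝔞 J d n)
    (hlam : lam ∈ maximalIdeal S) :
    ∃ (ρ₁ : A₁ →+* Matrix (Fin d) (Fin d) S) (ρχ : Aχ →+* Matrix (Fin d) (Fin d) S)
      (φ₁ : S →+* A₁) (φχ : S →+* Aχ),
      (∀ s, ρ₁ (φ₁ s) = s • (1 : Matrix (Fin d) (Fin d) S)) ∧
      (∀ s, ρχ (φχ s) = s • (1 : Matrix (Fin d) (Fin d) S)) ∧
      φ₁ lam = lam₁ ∧ φχ lam = lamχ ∧
      (∀ a a', π₁ a = πχ a' → MatCong (Ideal.span {lam}) (ρ₁ a) (ρχ a')) ∧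
      (∀ a ∈ J, ∀ i j, ρ₁ a i j ∈ 𝔞) := by
  have hfinS : ∀ k, Finite (S ⧸ maximalIdeal S ^ k) := finite_quotient_pow
  have hfin₁ : ∀ k, Finite (A₁ ⧸ maximalIdeal A₁ ^ k) := finite_quotient_pow
  have hfinχ : ∀ k, Finite (Aχ ⧸ maximalIdeal Aχ ^ k) := finite_quotient_pow
  -- adapted bases at all levels
  choose b₁ bχ hb₁ hbχ hbb using fun n => exists_adapted_bases (D n) hlam
  -- the two systems of matrices
  let M₁ : MatSys S A₁ (maximalIdeal S) d :=
    matSys (fun n => (D n).N₁) (fun n => (D n).φ₁) (fun n => (D n).φ₁_smul) b₁ hb₁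
  let Mχ : MatSys S Aχ (maximalIdeal S) d :=
    matSys (fun n => (D n).Nχ) (fun n => (D n).φχ) (fun n => (D n).φχ_smul) bχ hbχ
  refine ⟨M₁.lim hfinS, Mχ.lim hfinS, ulimHom hfin₁ fun n => (D n).φ₁,
    ulimHom hfinχ fun n => (D n).φχ, ?_, ?_, ?_, ?_, ?_, ?_⟩
  · exact M₁.lim_ulimHom hfinS hfin₁ _ fun n s =>
      matSys_φ (fun n => (D n).N₁) (fun n => (D n).φ₁) (fun n => (D n).φ₁_smul) b₁ hb₁ n s
  · exact Mχ.lim_ulimHom hfinS hfinχ _ fun n s =>
      matSys_φ (fun n => (D n).Nχ) (fun n => (D n).φχ) (fun n => (D n).φχ_smul) bχ hbχ n s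
  · rw [ulimHom_apply]
    have h1 : (fun n => (D n).φ₁ lam) = fun _ => lam₁ := funext fun n => (D n).φ₁_lam
    rw [h1, ulim_const]
  · rw [ulimHom_apply]
    have h1 : (fun n => (D n).φχ lam) = fun _ => lamχ := funext fun n => (D n).φχ_lam
    rw [h1, ulim_const]
  · intro a a' haa
    refine M₁.lim_matCong_of_closed hfinS Mχ (Ideal.span {lam})
      (mem_of_forall_mem_sup_pow _) fun n => ?_
    exact matCong_of_common_reduction (fun n => (D n).N₁) (fun n => (D n).φ₁)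
      (fun n => (D n).φ₁_smul) b₁ hb₁ (fun n => (D n).Nχ) (fun n => (D n).φχ)
      (fun n => (D n).φχ_smul) bχ hbχ (Ideal.span {lam}) π₁ πχ (fun n => (D n).Nb)
      (fun n => (D n).q₁) (fun n => (D n).qχ) (fun n => (D n).q₁_smul)
      (fun n => (D n).qχ_smul) hbb
      (fun n => IsBasisMod.map (hb₁ n) (D n).q₁ (D n).q₁_surj (D n).q₁_ker) haa n
  · intro a ha i j
    have h1 : MatCong 𝔞 (ulimMat (maximalIdeal S) fun n => M₁.X n a)
        (ulimMat (maximalIdeal S) fun _ => (0 : Matrix (Fin d) (Fin d) S)) := by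
      refine matCong_ulimMat_of_closed hfinS 𝔞 (mem_of_forall_mem_sup_pow _) fun n i j => ?_
      rw [Matrix.zero_apply, sub_zero]
      have h2 := rep_mat (fun n => (D n).N₁) (fun n => (D n).φ₁) (fun n => (D n).φ₁_smul)
        b₁ hb₁ n a j
      refine IsBasisMod.mem_of_expands_mem' (hb₁ n)
        (le_sup_right : maximalIdeal S ^ n ≤ 𝔞 ⊔ maximalIdeal S ^ n) ?_ h2 i
      rw [actLin_apply]
      exact Submodule.smul_mono_left le_sup_left ((D n).J_smul a ha _)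
    rw [ulimMat_const] at h1
    have h3 := h1 i j
    rwa [Matrix.zero_apply, sub_zero] at h3

end Fermat.Agent.S43.Patch.PatchedJ
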