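/-
S43 (row 37), PROJECT R, block `Patch`, file `MainJ` (helper29): N5, **PATCHING + IHARA AVOIDANCE IN
ONE THEOREM**, form with an ideal `J` of `A₁` (`LevelJ.DatumJ`): from the two module systems at all
finite levels and the local algebra (the hypotheses of helper22's
`Avoid.exists_unramified_point`), a prime of `A₁ = R_∞^1`
* containing `P₀` (unramified at every stuck prime),
* containing `J` (hence, when `J` is a power of `Ann M0`, in the support of the level-zero module),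
* not containing `lam₁` (characteristic zero).
`Main.exists_point_of_levels` is the case `J = Ann_{A₁} M0` (`exists_point_of_levels_of_datum`,
which needs neither a basis of `M0` nor `𝔞 M0 = 0`).
-/
import Fermat.Agent.S43.Patch.PatchedJ
import Fermat.Agent.S43.Patch.PMod
import Fermat.Agent.S43.Patch.Points
import Fermat.Agent.S43.Patch.Avoid

set_option autoImplicit false
set_option linter.style.haveILetI false

noncomputable section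

namespace Fermat.Agent.S43.Patch.MainJ

open IsLocalRing Fermat.Agent.S43.Patch.Level Fermat.Agent.S43.Patch.LevelJ
  Fermat.Agent.S43.Patch.Limit
  Fermat.Agent.S43.Patch.PMod Fermat.Agent.S43.Patch.Points

universe u

/-- **Ihara avoidance from the patched matrices.** -/
theorem exists_point_of_patched
    {S A₁ Aχ Abar : Type*} [CommRing S] [IsDomain S] [FiniteRingKrullDim S]
    [CommRing A₁] [IsNoetherianRing A₁] [CommRing Aχ] [IsNoetherianRing Aχ] [CommRing Abar]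
    (π₁ : A₁ →+* Abar) (πχ : Aχ →+* Abar) (hπχ : Function.Surjective πχ)
    (lam : S) (lam₁ : A₁) (lamχ : Aχ) (hlamχ : πχ lamχ = 0)
    (𝔞 : Ideal S) [𝔞.IsPrime] (hlam𝔞 : lam ∉ 𝔞)
    (J : Ideal A₁) {d : ℕ} (hd : 0 < d)
    -- the patched data
    (ρ₁ : A₁ →+* Matrix (Fin d) (Fin d) S) (ρχ : Aχ →+* Matrix (Fin d) (Fin d) S)
    (φ₁ : S →+* A₁) (φχ : S →+* Aχ)
    (hρφ₁ : ∀ s, ρ₁ (φ₁ s) = s • (1 : Matrix (Fin d) (Fin d) S))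
    (hρφχ : ∀ s, ρχ (φχ s) = s • (1 : Matrix (Fin d) (Fin d) S))
    (hφ₁lam : φ₁ lam = lam₁) (hφχlam : φχ lam = lamχ)
    (hcomp : ∀ a a', π₁ a = πχ a' → MatCong (Ideal.span {lam}) (ρ₁ a) (ρχ a'))
    (hJ : ∀ a ∈ J, ∀ i j, ρ₁ a i j ∈ 𝔞)
    -- the unipotent side
    {ι : Type*} (I : ι → Ideal A₁) (g : ι → A₁) (P₀ : Ideal A₁) [P₀.IsPrime]
    (hP₀ : P₀ = ⨆ i, I i) (hdim₁ : ringKrullDim (A₁ ⧸ P₀) ≤ ringKrullDim S)
    (hIg : ∀ i, ∀ a ∈ I i, IsNilpotent (a * g i))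
    -- the `χ`-side
    (𝔭 : Ideal Aχ) [𝔭.IsPrime] (hdimχ : ringKrullDim (Aχ ⧸ 𝔭) ≤ ringKrullDim S)
    (h𝔭 : ∀ 𝔮 : Ideal Aχ, 𝔮.IsPrime → lamχ ∉ 𝔮 → 𝔭 ≤ 𝔮)
    -- the prime `(P₀, lam)` of the common quotient
    (Qbar : Ideal Abar) [Qbar.IsPrime] (h𝔭Q : 𝔭 ≤ Qbar.comap πχ)
    (hgQ : ∀ i, π₁ (g i) ∉ Qbar) :
    ∃ 𝔮 : Ideal A₁, 𝔮.IsPrime ∧ P₀ ≤ 𝔮 ∧ J ≤ 𝔮 ∧ lam₁ ∉ 𝔮 := by
  classical
  letI alg₁ : Algebra S A₁ := φ₁.toAlgebra
  letI algχ : Algebra S Aχ := φχ.toAlgebra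
  have halg₁ : ∀ s, algebraMap S A₁ s = φ₁ s := fun _ => rfl
  have halgχ : ∀ s, algebraMap S Aχ s = φχ s := fun _ => rfl
  have hρ₁ : ∀ s : S, ρ₁ (algebraMap S A₁ s) = s • (1 : Matrix (Fin d) (Fin d) S) := hρφ₁
  have hρχ : ∀ s : S, ρχ (algebraMap S Aχ s) = s • (1 : Matrix (Fin d) (Fin d) S) := hρφχ
  haveI tower₁ : IsScalarTower S A₁ (Carrier ρ₁) := PMod.isScalarTower ρ₁ hρ₁
  haveI towerχ : IsScalarTower S Aχ (Carrier ρχ) := PMod.isScalarTower ρχ hρχ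
  haveI : Nontrivial (Carrier ρχ) := PMod.nontrivial ρχ hd
  have hlam0 : lam ≠ 0 := fun h => hlam𝔞 (h ▸ 𝔞.zero_mem)
  -- the common quotient
  let mkS : S →+* S ⧸ Ideal.span {lam} := Ideal.Quotient.mk _
  let ρχbar : Aχ →+* Matrix (Fin d) (Fin d) (S ⧸ Ideal.span {lam}) := mkS.mapMatrix.comp ρχ
  have hker : RingHom.ker πχ ≤ RingHom.ker ρχbar := by
    intro a' ha'
    rw [RingHom.mem_ker] at ha' ⊢
    have h1 := matCong_iff.mp (hcomp 0 a' (by rw [map_zero, ha']))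
    rw [map_zero, map_zero] at h1
    exact h1.symm
  let ρbar : Abar →+* Matrix (Fin d) (Fin d) (S ⧸ Ideal.span {lam}) :=
    RingHom.liftOfSurjective πχ hπχ ⟨ρχbar, hker⟩
  have hρbarχ : ∀ a', ρbar (πχ a') = (ρχ a').map mkS := fun a' =>
    RingHom.liftOfSurjective_comp_apply πχ hπχ ⟨ρχbar, hker⟩ a'
  have hρbar₁ : ∀ a, ρbar (π₁ a) = (ρ₁ a).map mkS := by
    intro a
    obtain ⟨a', ha'⟩ := hπχ (π₁ a)
    rw [← ha', hρbarχ]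
    exact (matCong_iff.mp (hcomp a a' ha'.symm)).symm
  -- the reduction maps
  let p₁ : Carrier ρ₁ →+ Carrier ρbar := redMap ρ₁ ρbar mkS
  let pχ : Carrier ρχ →+ Carrier ρbar := redMap ρχ ρbar mkS
  have hp₁ : Function.Surjective p₁ := redMap_surjective ρ₁ ρbar mkS Ideal.Quotient.mk_surjective
  have hp₁s : ∀ (a : A₁) (m : Carrier ρ₁), p₁ (a • m) = π₁ a • p₁ m := fun a m =>
    redMap_smul ρ₁ ρbar mkS (hρbar₁ a).symm m
  have hpχs : ∀ (a : Aχ) (m : Carrier ρχ), pχ (a • m) = πχ a • pχ m := fun a m =>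
    redMap_smul ρχ ρbar mkS (hρbarχ a).symm m
  have hpχk : ∀ m : Carrier ρχ, pχ m = 0 →
      m ∈ (Ideal.span {algebraMap S Aχ lam} • ⊤ : Submodule Aχ (Carrier ρχ)) := by
    intro m hm
    have h1 : ∀ i, m i ∈ Ideal.span {lam} := by
      intro i
      have h2 : mkS (m i) = 0 := congrFun hm i
      exact Ideal.Quotient.eq_zero_iff_mem.mp h2
    have h3 := mem_smul_top_of_forall_mem ρχ hρχ (Ideal.span {lam}) m h1
    rwa [Ideal.map_span, Set.image_singleton] at h3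
  have hπχlam : πχ (algebraMap S Aχ lam) = 0 := by rw [halgχ, hφχlam, hlamχ]
  -- `𝔭` is inside the radical of the annihilator of the `χ`-module: density of the points
  -- away from `lam`
  have h𝔭rad : 𝔭 ≤ (Module.annihilator Aχ (Carrier ρχ)).radical := by
    refine Fermat.Agent.S43.Patch.Support.le_radical_of_forall_points (S := S) (ptsAway lam)
      isPrime_of_mem_ptsAway (eq_zero_of_forall_mem_ptsAway hlam0) 𝔭 ?_
    intro 𝔮 h𝔮 _ hpt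
    refine h𝔭 𝔮 h𝔮 ?_
    have h1 := not_mem_of_comap_mem_ptsAway hpt
    rwa [halgχ, hφχlam] at h1
  -- Ihara avoidance
  obtain ⟨𝔮, h𝔮, hP₀𝔮, hann, hcomap⟩ :=
    Fermat.Agent.S43.Patch.Avoid.exists_unramified_point (S := S) (M₁ := Carrier ρ₁)
      (Mχ := Carrier ρχ) (Mbar := Carrier ρbar) I g P₀ hP₀ hdim₁ hIg 𝔭 hdimχ h𝔭rad lam π₁ πχ hπχ
      hπχlam p₁ hp₁ hp₁s pχ hpχs hpχk Qbar h𝔭Q hgQ 𝔞
  refine ⟨𝔮, h𝔮, hP₀𝔮, ?_, ?_⟩
  · -- `J` kills the patched module modulo `𝔞`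
    haveI : Module.Finite A₁ (Carrier ρ₁) := Module.Finite.of_restrictScalars_finite S A₁ _
    intro a ha
    have h1 : ∀ i j, ρ₁ a i j ∈ 𝔞 := hJ a ha
    have h2 : a ∈ Module.annihilator A₁
        (Carrier ρ₁ ⧸ (𝔞.map (algebraMap S A₁) • ⊤ : Submodule A₁ (Carrier ρ₁))) := by
      rw [Module.mem_annihilator]
      intro x
      obtain ⟨v, rfl⟩ := Submodule.Quotient.mk_surjective _ x
      rw [← Submodule.Quotient.mk_smul, Submodule.Quotient.mk_eq_zero]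
      refine mem_smul_top_of_forall_mem ρ₁ hρ₁ 𝔞 _ fun i => ?_
      rw [PMod.smul_apply]
      exact Ideal.sum_mem _ fun j _ => 𝔞.mul_mem_right _ (h1 i j)
    have h3 : (⟨𝔮, h𝔮⟩ : PrimeSpectrum A₁) ∈ Module.support A₁
        (Carrier ρ₁ ⧸ (𝔞.map (algebraMap S A₁) • ⊤ : Submodule A₁ (Carrier ρ₁))) := by
      rw [Module.support_quotient]
      refine ⟨Module.mem_support_iff_of_finite.mpr hann, ?_⟩
      rw [PrimeSpectrum.mem_zeroLocus]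
      have h4 : 𝔞.map (algebraMap S A₁) ≤ 𝔮 := by
        rw [Ideal.map_le_iff_le_comap, hcomap]
      exact h4
    exact (Module.mem_support_iff_of_finite.mp h3) h2
  · -- characteristic zero
    intro hmem
    apply hlam𝔞
    rw [← hcomap, Ideal.mem_comap, halg₁, hφ₁lam]
    exact hmem

/-- **PATCHING + IHARA AVOIDANCE** (form with `J`): from the two module systems at all finite levels
and the local algebra to a characteristic-zero point containing `P₀` and `J`. -/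
theorem exists_point_of_levels
    {S A₁ Aχ Abar : Type*} [CommRing S] [IsDomain S] [IsNoetherianRing S] [IsLocalRing S]
    [IsAdicComplete (maximalIdeal S) S] [Finite (ResidueField S)]
    [CommRing A₁] [IsNoetherianRing A₁] [IsLocalRing A₁] [IsAdicComplete (maximalIdeal A₁) A₁]
    [Finite (ResidueField A₁)]
    [CommRing Aχ] [IsNoetherianRing Aχ] [IsLocalRing Aχ] [IsAdicComplete (maximalIdeal Aχ) Aχ]
    [Finite (ResidueField Aχ)] [CommRing Abar]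
    (π₁ : A₁ →+* Abar) (πχ : Aχ →+* Abar) (hπχ : Function.Surjective πχ)
    (lam : S) (lam₁ : A₁) (lamχ : Aχ) (hlamχ : πχ lamχ = 0) (hlam : lam ∈ maximalIdeal S)
    (𝔞 : Ideal S) [𝔞.IsPrime] (hlam𝔞 : lam ∉ 𝔞)
    (J : Ideal A₁) {d : ℕ} (hd : 0 < d)
    (D : ∀ n, DatumJ.{u} S A₁ Aχ Abar (maximalIdeal S) π₁ πχ lam lam₁ lamχ 𝔞 J d n)
    {ι : Type*} (I : ι → Ideal A₁) (g : ι → A₁) (P₀ : Ideal A₁) [P₀.IsPrime]
    (hP₀ : P₀ = ⨆ i, I i) (hdim₁ : ringKrullDim (A₁ ⧸ P₀) ≤ ringKrullDim S)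
    (hIg : ∀ i, ∀ a ∈ I i, IsNilpotent (a * g i))
    (𝔭 : Ideal Aχ) [𝔭.IsPrime] (hdimχ : ringKrullDim (Aχ ⧸ 𝔭) ≤ ringKrullDim S)
    (h𝔭 : ∀ 𝔮 : Ideal Aχ, 𝔮.IsPrime → lamχ ∉ 𝔮 → 𝔭 ≤ 𝔮)
    (Qbar : Ideal Abar) [Qbar.IsPrime] (h𝔭Q : 𝔭 ≤ Qbar.comap πχ)
    (hgQ : ∀ i, π₁ (g i) ∉ Qbar) :
    ∃ 𝔮 : Ideal A₁, 𝔮.IsPrime ∧ P₀ ≤ 𝔮 ∧ J ≤ 𝔮 ∧ lam₁ ∉ 𝔮 := by
  obtain ⟨ρ₁, ρχ, φ₁, φχ, h1, h2, h3, h4, h5, h6⟩ :=
    Fermat.Agent.S43.Patch.PatchedJ.exists_patched D hlam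
  exact exists_point_of_patched π₁ πχ hπχ lam lam₁ lamχ hlamχ 𝔞 hlam𝔞 J hd ρ₁ ρχ φ₁ φχ
    h1 h2 h3 h4 h5 h6 I g P₀ hP₀ hdim₁ hIg 𝔭 hdimχ h𝔭 Qbar h𝔭Q hgQ

/-- the case of a `Level.Datum`: neither a basis of `M0` nor `𝔞 M0 = 0` is needed. -/
theorem exists_point_of_levels_of_datum
    {S A₁ Aχ Abar : Type*} [CommRing S] [IsDomain S] [IsNoetherianRing S] [IsLocalRing S]
    [IsAdicComplete (maximalIdeal S) S] [Finite (ResidueField S)]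
    [CommRing A₁] [IsNoetherianRing A₁] [IsLocalRing A₁] [IsAdicComplete (maximalIdeal A₁) A₁]
    [Finite (ResidueField A₁)]
    [CommRing Aχ] [IsNoetherianRing Aχ] [IsLocalRing Aχ] [IsAdicComplete (maximalIdeal Aχ) Aχ]
    [Finite (ResidueField Aχ)] [CommRing Abar]
    (π₁ : A₁ →+* Abar) (πχ : Aχ →+* Abar) (hπχ : Function.Surjective πχ)
    (lam : S) (lam₁ : A₁) (lamχ : Aχ) (hlamχ : πχ lamχ = 0) (hlam : lam ∈ maximalIdeal S)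
    (𝔞 : Ideal S) [𝔞.IsPrime] (hlam𝔞 : lam ∉ 𝔞)
    {M0 : Type*} [AddCommGroup M0] [Module S M0] [Module A₁ M0] {d : ℕ} (hd : 0 < d)
    (D : ∀ n, Datum.{u} S A₁ Aχ Abar (maximalIdeal S) π₁ πχ lam lam₁ lamχ 𝔞 M0 d n)
    {ι : Type*} (I : ι → Ideal A₁) (g : ι → A₁) (P₀ : Ideal A₁) [P₀.IsPrime]
    (hP₀ : P₀ = ⨆ i, I i) (hdim₁ : ringKrullDim (A₁ ⧸ P₀) ≤ ringKrullDim S)
    (hIg : ∀ i, ∀ a ∈ I i, IsNilpotent (a * g i))
    (𝔭 : Ideal Aχ) [𝔭.IsPrime] (hdimχ : ringKrullDim (Aχ ⧸ 𝔭) ≤ ringKrullDim S)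
    (h𝔭 : ∀ 𝔮 : Ideal Aχ, 𝔮.IsPrime → lamχ ∉ 𝔮 → 𝔭 ≤ 𝔮)
    (Qbar : Ideal Abar) [Qbar.IsPrime] (h𝔭Q : 𝔭 ≤ Qbar.comap πχ)
    (hgQ : ∀ i, π₁ (g i) ∉ Qbar) :
    ∃ 𝔮 : Ideal A₁, 𝔮.IsPrime ∧ P₀ ≤ 𝔮 ∧ Module.annihilator A₁ M0 ≤ 𝔮 ∧ lam₁ ∉ 𝔮 :=
  exists_point_of_levels π₁ πχ hπχ lam lam₁ lamχ hlamχ hlam 𝔞 hlam𝔞 _ hd
    (fun n => DatumJ.ofDatum (D n)) I g P₀ hP₀ hdim₁ hIg 𝔭 hdimχ h𝔭 Qbar h𝔭Q hgQ

end Fermat.Agent.S43.Patch.MainJ
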