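/-
S43 / S38 (row 37), paper round K-NEXT2 (#6032), block `Patch`, file `Support` (helper22).

Pure commutative algebra on top of Mathlib: **the support lemma of the Ihara-avoidance argument**.

Setting: `A` a Noetherian ring (the patched deformation ring `R_∞`), `S` a Noetherian domain of
finite Krull dimension (`S_∞ = O[[y_1..y_s]]`), `M` an `A`-module that is finite free over `S`
(the patched module).  `P₀ = ⨆ i, I i` is a prime of `A` (the "unramified at every stuck prime"
locus, `I i` = the ideal of the entries of `ρ(σ) - 1` at the `i`-th prime) with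
`dim A/P₀ ≤ dim S`, `g i` are elements with `I i * g i` nilpotent (`Spec R^1 = V(I) ∪ V(g)`),
`Q₀ ⊇ P₀` is a prime (`Q₀ = (P₀, λ)`) avoiding every `g i`.

* `ringKrullDim_le_of_isIntegral` : going-up, `dim R ≤ dim B` for an injective integral extension.
* `annihilator_le_of_le` : if `Q₀ ∈ Supp M` then `P₀ ∈ Supp M`; in fact `P₀` is an associated
  prime of `M` and `S → A/P₀` is injective.
* `exists_prime_over` : then over every prime `𝔞` of `S` there is a prime `𝔮 ⊇ P₀` of `A` in the
  support of `M` (a characteristic-`0` point of the support of `M/𝔞M`, unramified at every stuck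
  prime, when `S/𝔞 = O`).
* `annihilator_le_of_le_radical` (the `χ`-side): a prime `𝔭 ≤ rad (Ann M)` with
  `dim A/𝔭 ≤ dim S` satisfies `Ann M ≤ 𝔭`, i.e. `Supp M = V(𝔭)` (so every prime containing `𝔭`,
  e.g. `Q₀`, is in the support).
* `le_radical_of_forall_points` : `𝔭 ≤ rad (Ann M)` as soon as `𝔭` vanishes at every point of
  the support lying over a dense set `Pts` of primes of `S`.
-/
import Mathlib

set_option autoImplicit false
set_option linter.style.haveILetI false

noncomputable section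

namespace Fermat.Agent.S43.Patch.Support

open Ideal

section GoingUp

variable {R B : Type*} [CommRing R] [CommRing B] [Algebra R B] [Algebra.IsIntegral R B]

/-- lifting a chain of primes along an injective integral extension (going-up), with prescribed
first lift. -/
theorem exists_ltSeries_over (hinj : Function.Injective (algebraMap R B)) (n : ℕ) :
    ∀ (l : LTSeries (PrimeSpectrum R)), l.length = n →
      ∃ L : LTSeries (PrimeSpectrum B), L.length = n ∧
        (L.last.asIdeal.comap (algebraMap R B) = l.last.asIdeal) := by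
  induction n with
  | zero =>
    intro l hl
    obtain ⟨Q, -, hQp, hQo⟩ := Ideal.exists_ideal_over_prime_of_isIntegral (S := B)
      l.last.asIdeal (⊥ : Ideal B) (by
        rw [← RingHom.ker_eq_comap_bot, (RingHom.injective_iff_ker_eq_bot _).mp hinj]
        exact bot_le)
    exact ⟨RelSeries.singleton _ ⟨Q, hQp⟩, rfl, by simpa using hQo⟩
  | succ n ih =>
    intro l hl
    have hlen : l.length ≠ 0 := by omega
    obtain ⟨L, hLn, hLc⟩ := ih (l.eraseLast) (by simp [hl])
    -- the last step `l.eraseLast.last < l.last`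
    have hlt : l.eraseLast.last < l.last := l.eraseLast_last_rel_last hlen
    obtain ⟨Q, hQ, hQp, hQo⟩ := Ideal.exists_ideal_over_prime_of_isIntegral (S := B)
      l.last.asIdeal L.last.asIdeal (by rw [hLc]; exact hlt.le)
    have hLQ : L.last < (⟨Q, hQp⟩ : PrimeSpectrum B) := by
      refine lt_of_le_of_ne hQ ?_
      intro h
      have h1 : L.last.asIdeal.comap (algebraMap R B) = Q.comap (algebraMap R B) := by
        rw [h]
      rw [hLc, hQo] at h1
      exact hlt.ne (PrimeSpectrum.ext h1)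
    refine ⟨L.snoc ⟨Q, hQp⟩ hLQ, by simp [hLn], ?_⟩
    simpa using hQo

/-- **going-up**: an injective integral extension does not lower the Krull dimension. -/
theorem ringKrullDim_le_of_isIntegral (hinj : Function.Injective (algebraMap R B)) :
    ringKrullDim R ≤ ringKrullDim B := by
  unfold ringKrullDim
  rw [Order.krullDim]
  refine iSup_le fun l => ?_
  obtain ⟨L, hL, -⟩ := exists_ltSeries_over hinj l.length l rfl
  rw [← hL]
  exact Order.LTSeries.length_le_krullDim L

end GoingUp

section Main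

variable {S A M : Type*} [CommRing S] [CommRing A] [Algebra S A]
  [AddCommGroup M] [Module A M] [Module S M] [IsScalarTower S A M]

/-- every element of `A` is integral over `S` modulo the annihilator of a module that is finite
free over `S` (Cayley-Hamilton). -/
theorem exists_monic_aeval_mem_annihilator [Module.Finite S M] [Module.Free S M] (a : A) :
    ∃ f : Polynomial S, f.Monic ∧ Polynomial.aeval a f ∈ Module.annihilator A M := by
  let φ : A →ₐ[S] Module.End S M := Algebra.lsmul S S M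
  refine ⟨(φ a).charpoly, LinearMap.charpoly_monic _, ?_⟩
  rw [Module.mem_annihilator]
  intro m
  have h := LinearMap.aeval_self_charpoly (φ a)
  rw [Polynomial.aeval_algHom_apply] at h
  have h2 := LinearMap.congr_fun h m
  simpa [φ] using h2

/-- `A ⧸ P` is integral over `S` when `P` contains the annihilator of a finite free `S`-module. -/
theorem isIntegral_quotient [Module.Finite S M] [Module.Free S M] (P : Ideal A)
    (hP : Module.annihilator A M ≤ P) : Algebra.IsIntegral S (A ⧸ P) := by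
  refine ⟨fun x => ?_⟩
  obtain ⟨a, rfl⟩ := Ideal.Quotient.mk_surjective x
  obtain ⟨f, hf, hfa⟩ := exists_monic_aeval_mem_annihilator (S := S) (M := M) a
  refine ⟨f, hf, ?_⟩
  have : Polynomial.aeval (Ideal.Quotient.mk P a) f = Ideal.Quotient.mk P (Polynomial.aeval a f) := by
    rw [← Ideal.Quotient.mkₐ_eq_mk S, Polynomial.aeval_algHom_apply]
  rw [← Polynomial.aeval_def, this, Ideal.Quotient.eq_zero_iff_mem]
  exact hP hfa

/-- an associated prime of a torsion-free module contracts to zero. -/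
theorem comap_eq_bot_of_isAssociatedPrime [IsDomain S] [IsNoetherianRing A]
    [Module.IsTorsionFree S M] {P : Ideal A} (hP : IsAssociatedPrime P M) :
    P.comap (algebraMap S A) = ⊥ := by
  obtain ⟨hPp, x, hx⟩ := (isAssociatedPrime_iff).mp hP
  rw [eq_bot_iff]
  intro s hs
  rw [Ideal.mem_comap, hx, Submodule.mem_colon_singleton, Submodule.mem_bot,
    algebraMap_smul] at hs
  rw [Ideal.mem_bot]
  by_contra hs0
  have hx0 : x = 0 := (smul_eq_zero.mp hs).resolve_left hs0
  apply hPp.ne_top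
  rw [hx, hx0, eq_top_iff]
  intro a _
  simp [Submodule.mem_colon_singleton]

variable [IsDomain S] [FiniteRingKrullDim S] [IsNoetherianRing A]
  [Module.Finite S M] [Module.Free S M]

/-- **The support lemma.**  If `Q₀ ∈ Supp M` then `P₀ ∈ Supp M`, and `P₀` is an associated prime
of `M`. -/
theorem isAssociatedPrime_of_le {ι : Type*} (I : ι → Ideal A) (g : ι → A) (P₀ Q₀ : Ideal A)
    [P₀.IsPrime] [Q₀.IsPrime] (hP₀ : P₀ = ⨆ i, I i)
    (hdim : ringKrullDim (A ⧸ P₀) ≤ ringKrullDim S)
    (hIg : ∀ i, ∀ a ∈ I i, IsNilpotent (a * g i)) (hgQ : ∀ i, g i ∉ Q₀)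
    (hQ : Module.annihilator A M ≤ Q₀) : IsAssociatedPrime P₀ M := by
  haveI : Module.Finite A M := Module.Finite.of_restrictScalars_finite S A M
  haveI : Module.IsTorsionFree S M := inferInstance
  -- a minimal prime of the support inside `Q₀`
  obtain ⟨P, hPmin, hPQ⟩ := Ideal.exists_minimalPrimes_le hQ
  have hPass : IsAssociatedPrime P M :=
    Module.associatedPrimes.minimalPrimes_annihilator_subset_associatedPrimes A M hPmin
  haveI hPp : P.IsPrime := hPass.isPrime
  have hAnnP : Module.annihilator A M ≤ P := hPmin.1.2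
  -- `S → A/P` is injective and integral
  have hcomap : P.comap (algebraMap S A) = ⊥ := comap_eq_bot_of_isAssociatedPrime hPass
  haveI : Algebra.IsIntegral S (A ⧸ P) := isIntegral_quotient (M := M) P hAnnP
  have hinj : Function.Injective (algebraMap S (A ⧸ P)) := by
    rw [RingHom.injective_iff_ker_eq_bot, eq_bot_iff]
    intro s hs
    rw [RingHom.mem_ker, IsScalarTower.algebraMap_apply S A (A ⧸ P), Ideal.Quotient.algebraMap_eq,
      Ideal.Quotient.eq_zero_iff_mem] at hs
    have : s ∈ P.comap (algebraMap S A) := hs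
    rwa [hcomap] at this
  have hdimP : ringKrullDim S ≤ ringKrullDim (A ⧸ P) := ringKrullDim_le_of_isIntegral hinj
  -- `P₀ ≤ P`
  have hP₀P : P₀ ≤ P := by
    rw [hP₀]
    refine iSup_le fun i a ha => ?_
    have hnil : a * g i ∈ P := nilpotent_iff_mem_prime.mp (hIg i a ha) P hPp
    rcases hPp.mem_or_mem hnil with h | h
    · exact h
    · exact absurd (hPQ h) (hgQ i)
  -- equality by dimension
  by_contra hne
  have hlt : P₀ < P := lt_of_le_of_ne hP₀P (fun h => hne (h ▸ hPass))
  obtain ⟨a, haP, haP₀⟩ := Set.exists_of_ssubset hlt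
  let abar : A ⧸ P₀ := Ideal.Quotient.mk P₀ a
  have habar : abar ∈ nonZeroDivisors (A ⧸ P₀) := by
    rw [mem_nonZeroDivisors_iff_ne_zero]
    intro h
    exact haP₀ (Ideal.Quotient.eq_zero_iff_mem.mp h)
  have h1 := ringKrullDim_quotient_succ_le_of_nonZeroDivisor habar
  -- `A/P` is a quotient of `(A/P₀)/(abar)`
  have hsurj : ringKrullDim (A ⧸ P) ≤ ringKrullDim ((A ⧸ P₀) ⧸ Ideal.span {abar}) := by
    have hle : Ideal.span {abar} ≤ P.map (Ideal.Quotient.mk P₀) := by
      rw [Ideal.span_le, Set.singleton_subset_iff]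
      exact Ideal.mem_map_of_mem _ haP
    calc ringKrullDim (A ⧸ P)
        = ringKrullDim ((A ⧸ P₀) ⧸ P.map (Ideal.Quotient.mk P₀)) :=
          (ringKrullDim_eq_of_ringEquiv (DoubleQuot.quotQuotEquivQuotOfLE hP₀P)).symm
      _ ≤ ringKrullDim ((A ⧸ P₀) ⧸ Ideal.span {abar}) :=
          ringKrullDim_le_of_surjective (Ideal.Quotient.factor hle)
            (Ideal.Quotient.factor_surjective hle)
  -- contradiction: `dim S + 1 ≤ dim S`
  have hfin : ringKrullDim S ≠ ⊤ := ringKrullDim_ne_top
  have hbot : ringKrullDim S ≠ ⊥ := ringKrullDim_ne_bot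
  have hchain : ringKrullDim S + 1 ≤ ringKrullDim S :=
    calc ringKrullDim S + 1 ≤ ringKrullDim (A ⧸ P) + 1 := by gcongr
      _ ≤ ringKrullDim ((A ⧸ P₀) ⧸ Ideal.span {abar}) + 1 := by gcongr
      _ ≤ ringKrullDim (A ⧸ P₀) := h1
      _ ≤ ringKrullDim S := hdim
  obtain ⟨n, hn⟩ : ∃ n : ℕ, ringKrullDim S = n := by
    cases h : ringKrullDim S with
    | bot => exact absurd h hbot
    | coe x =>
      cases hx : x with
      | top => exact absurd (by rw [h, hx]; rfl) hfin
      | coe n => exact ⟨n, rfl⟩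
  rw [hn] at hchain
  have : ((n + 1 : ℕ) : WithBot ℕ∞) ≤ (n : WithBot ℕ∞) := by exact_mod_cast hchain
  have : n + 1 ≤ n := by exact_mod_cast this
  omega

/-- **The support lemma**, support form: `Ann M ≤ Q₀ → Ann M ≤ P₀`. -/
theorem annihilator_le_of_le {ι : Type*} (I : ι → Ideal A) (g : ι → A) (P₀ Q₀ : Ideal A)
    [P₀.IsPrime] [Q₀.IsPrime] (hP₀ : P₀ = ⨆ i, I i)
    (hdim : ringKrullDim (A ⧸ P₀) ≤ ringKrullDim S)
    (hIg : ∀ i, ∀ a ∈ I i, IsNilpotent (a * g i)) (hgQ : ∀ i, g i ∉ Q₀)
    (hQ : Module.annihilator A M ≤ Q₀) : Module.annihilator A M ≤ P₀ := by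
  have h := isAssociatedPrime_of_le (S := S) I g P₀ Q₀ hP₀ hdim hIg hgQ hQ
  have := IsAssociatedPrime.annihilator_le h
  rwa [Submodule.annihilator_top] at this

/-- **Descent to a point over a prime of `S`**: under the hypotheses of the support lemma, over
every prime `𝔞` of `S` there is a prime `𝔮` of `A` in the support of `M` containing `P₀`.  (With
`S/𝔞 = O` of characteristic `0` this is a characteristic-`0` point of the support of `M/𝔞M` on
which every `I i` vanishes.) -/
theorem exists_prime_over {ι : Type*} (I : ι → Ideal A) (g : ι → A) (P₀ Q₀ : Ideal A)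
    [P₀.IsPrime] [Q₀.IsPrime] (hP₀ : P₀ = ⨆ i, I i)
    (hdim : ringKrullDim (A ⧸ P₀) ≤ ringKrullDim S)
    (hIg : ∀ i, ∀ a ∈ I i, IsNilpotent (a * g i)) (hgQ : ∀ i, g i ∉ Q₀)
    (hQ : Module.annihilator A M ≤ Q₀) (𝔞 : Ideal S) [𝔞.IsPrime] :
    ∃ 𝔮 : Ideal A, 𝔮.IsPrime ∧ P₀ ≤ 𝔮 ∧ Module.annihilator A M ≤ 𝔮 ∧
      𝔮.comap (algebraMap S A) = 𝔞 := by
  have hass := isAssociatedPrime_of_le (S := S) I g P₀ Q₀ hP₀ hdim hIg hgQ hQ
  have hann : Module.annihilator A M ≤ P₀ :=
    annihilator_le_of_le (S := S) I g P₀ Q₀ hP₀ hdim hIg hgQ hQ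
  haveI : Algebra.IsIntegral S (A ⧸ P₀) := isIntegral_quotient (M := M) P₀ hann
  have hcomap : P₀.comap (algebraMap S A) = ⊥ := comap_eq_bot_of_isAssociatedPrime hass
  -- a prime of `A ⧸ P₀` over `𝔞`
  obtain ⟨Q', -, hQ'p, hQ'o⟩ := Ideal.exists_ideal_over_prime_of_isIntegral (S := A ⧸ P₀)
    𝔞 (⊥ : Ideal (A ⧸ P₀)) (by
      intro s hs
      rw [Ideal.mem_comap, Ideal.mem_bot, IsScalarTower.algebraMap_apply S A (A ⧸ P₀),
        Ideal.Quotient.algebraMap_eq, Ideal.Quotient.eq_zero_iff_mem] at hs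
      have : s ∈ P₀.comap (algebraMap S A) := hs
      rw [hcomap, Ideal.mem_bot] at this
      rw [this]
      exact zero_mem _)
  refine ⟨Q'.comap (Ideal.Quotient.mk P₀), Ideal.comap_isPrime _ _, ?_, ?_, ?_⟩
  · intro a ha
    rw [Ideal.mem_comap, Ideal.Quotient.eq_zero_iff_mem.mpr ha]
    exact zero_mem _
  · intro a ha
    rw [Ideal.mem_comap, Ideal.Quotient.eq_zero_iff_mem.mpr (hann ha)]
    exact zero_mem _
  · rw [← hQ'o, Ideal.comap_comap]
    rfl

/-- **Full support on the `χ`-side.**  If a prime `𝔭` with `dim A/𝔭 ≤ dim S` lies in the radical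
of the annihilator of a nonzero `M` (finite free over `S`), then `Supp M = V(𝔭)`. -/
theorem annihilator_le_of_le_radical [Nontrivial M] (𝔭 : Ideal A) [𝔭.IsPrime]
    (hdim : ringKrullDim (A ⧸ 𝔭) ≤ ringKrullDim S)
    (h𝔭 : 𝔭 ≤ (Module.annihilator A M).radical) : Module.annihilator A M ≤ 𝔭 := by
  haveI : Module.Finite A M := Module.Finite.of_restrictScalars_finite S A M
  haveI : Module.IsTorsionFree S M := inferInstance
  have hne : Module.annihilator A M ≠ ⊤ := by
    intro h
    have h1 : (1 : A) ∈ Module.annihilator A M := h ▸ Submodule.mem_top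
    obtain ⟨m, hm⟩ := exists_ne (0 : M)
    exact hm (by simpa using Module.mem_annihilator.mp h1 m)
  obtain ⟨Q, hQmax⟩ := Ideal.exists_le_maximal _ hne
  haveI := hQmax.1.isPrime
  obtain ⟨P, hPmin, -⟩ := Ideal.exists_minimalPrimes_le hQmax.2
  have hPass : IsAssociatedPrime P M :=
    Module.associatedPrimes.minimalPrimes_annihilator_subset_associatedPrimes A M hPmin
  haveI hPp : P.IsPrime := hPass.isPrime
  have hAnnP : Module.annihilator A M ≤ P := hPmin.1.2
  have hcomap : P.comap (algebraMap S A) = ⊥ := comap_eq_bot_of_isAssociatedPrime hPass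
  haveI : Algebra.IsIntegral S (A ⧸ P) := isIntegral_quotient (M := M) P hAnnP
  have hinj : Function.Injective (algebraMap S (A ⧸ P)) := by
    rw [RingHom.injective_iff_ker_eq_bot, eq_bot_iff]
    intro s hs
    rw [RingHom.mem_ker, IsScalarTower.algebraMap_apply S A (A ⧸ P), Ideal.Quotient.algebraMap_eq,
      Ideal.Quotient.eq_zero_iff_mem] at hs
    have : s ∈ P.comap (algebraMap S A) := hs
    rwa [hcomap] at this
  have hdimP : ringKrullDim S ≤ ringKrullDim (A ⧸ P) := ringKrullDim_le_of_isIntegral hinj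
  have h𝔭P : 𝔭 ≤ P := h𝔭.trans (hPp.radical_le_iff.mpr hAnnP)
  suffices h : 𝔭 = P from h ▸ hAnnP
  by_contra hne'
  have hlt : 𝔭 < P := lt_of_le_of_ne h𝔭P hne'
  obtain ⟨a, haP, ha𝔭⟩ := Set.exists_of_ssubset hlt
  let abar : A ⧸ 𝔭 := Ideal.Quotient.mk 𝔭 a
  have habar : abar ∈ nonZeroDivisors (A ⧸ 𝔭) := by
    rw [mem_nonZeroDivisors_iff_ne_zero]
    intro h
    exact ha𝔭 (Ideal.Quotient.eq_zero_iff_mem.mp h)
  have h1 := ringKrullDim_quotient_succ_le_of_nonZeroDivisor habar
  have hsurj : ringKrullDim (A ⧸ P) ≤ ringKrullDim ((A ⧸ 𝔭) ⧸ Ideal.span {abar}) := by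
    have hle : Ideal.span {abar} ≤ P.map (Ideal.Quotient.mk 𝔭) := by
      rw [Ideal.span_le, Set.singleton_subset_iff]
      exact Ideal.mem_map_of_mem _ haP
    calc ringKrullDim (A ⧸ P)
        = ringKrullDim ((A ⧸ 𝔭) ⧸ P.map (Ideal.Quotient.mk 𝔭)) :=
          (ringKrullDim_eq_of_ringEquiv (DoubleQuot.quotQuotEquivQuotOfLE h𝔭P)).symm
      _ ≤ ringKrullDim ((A ⧸ 𝔭) ⧸ Ideal.span {abar}) :=
          ringKrullDim_le_of_surjective (Ideal.Quotient.factor hle)
            (Ideal.Quotient.factor_surjective hle)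
  have hfin : ringKrullDim S ≠ ⊤ := ringKrullDim_ne_top
  have hbot : ringKrullDim S ≠ ⊥ := ringKrullDim_ne_bot
  have hchain : ringKrullDim S + 1 ≤ ringKrullDim S :=
    calc ringKrullDim S + 1 ≤ ringKrullDim (A ⧸ P) + 1 := by gcongr
      _ ≤ ringKrullDim ((A ⧸ 𝔭) ⧸ Ideal.span {abar}) + 1 := by gcongr
      _ ≤ ringKrullDim (A ⧸ 𝔭) := h1
      _ ≤ ringKrullDim S := hdim
  obtain ⟨n, hn⟩ : ∃ n : ℕ, ringKrullDim S = n := by
    cases h : ringKrullDim S with
    | bot => exact absurd h hbot
    | coe x =>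
      cases hx : x with
      | top => exact absurd (by rw [h, hx]; rfl) hfin
      | coe n => exact ⟨n, rfl⟩
  rw [hn] at hchain
  have : ((n + 1 : ℕ) : WithBot ℕ∞) ≤ (n : WithBot ℕ∞) := by exact_mod_cast hchain
  have : n + 1 ≤ n := by exact_mod_cast this
  omega

omit [FiniteRingKrullDim S] in
/-- **Density of points.**  Let `Pts` be a set of primes of `S` with zero intersection (a dense set
of points of `Spec S`).  If an ideal `𝔭` of `A` is contained in every prime of the support of `M`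
lying over a prime in `Pts`, then `𝔭` is contained in the radical of the annihilator of `M`. -/
theorem le_radical_of_forall_points (Pts : Set (Ideal S)) (hPP : ∀ 𝔞 ∈ Pts, 𝔞.IsPrime)
    (hPts : ∀ s : S, (∀ 𝔞 ∈ Pts, s ∈ 𝔞) → s = 0) (𝔭 : Ideal A)
    (hpts : ∀ 𝔮 : Ideal A, 𝔮.IsPrime → Module.annihilator A M ≤ 𝔮 →
      𝔮.comap (algebraMap S A) ∈ Pts → 𝔭 ≤ 𝔮) :
    𝔭 ≤ (Module.annihilator A M).radical := by
  haveI : Module.Finite A M := Module.Finite.of_restrictScalars_finite S A M
  haveI : Module.IsTorsionFree S M := inferInstance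
  intro b hb
  rw [Ideal.radical_eq_sInf, Ideal.mem_sInf]
  rintro Q ⟨hQann, hQp⟩
  -- reduce to a minimal prime `P ≤ Q`
  obtain ⟨P, hPmin, hPQ⟩ := Ideal.exists_minimalPrimes_le hQann
  apply hPQ
  have hPass : IsAssociatedPrime P M :=
    Module.associatedPrimes.minimalPrimes_annihilator_subset_associatedPrimes A M hPmin
  haveI hPp : P.IsPrime := hPass.isPrime
  have hAnnP : Module.annihilator A M ≤ P := hPmin.1.2
  have hcomap : P.comap (algebraMap S A) = ⊥ := comap_eq_bot_of_isAssociatedPrime hPass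
  haveI : Algebra.IsIntegral S (A ⧸ P) := isIntegral_quotient (M := M) P hAnnP
  by_contra hbP
  let bbar : A ⧸ P := Ideal.Quotient.mk P b
  have hbbar : bbar ≠ 0 := fun h => hbP (Ideal.Quotient.eq_zero_iff_mem.mp h)
  -- a nonzero element of `S` in the ideal generated by `bbar`
  have hne := Ideal.comap_ne_bot_of_integral_mem (R := S) (I := Ideal.span {bbar}) hbbar
    (Ideal.subset_span (Set.mem_singleton _)) (Algebra.IsIntegral.isIntegral bbar)
  obtain ⟨s, hs, hs0⟩ := Submodule.exists_mem_ne_zero_of_ne_bot hne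
  -- a point of `Pts` not containing `s`
  obtain ⟨𝔞, h𝔞, hs𝔞⟩ : ∃ 𝔞 ∈ Pts, s ∉ 𝔞 := by
    by_contra hcon
    exact hs0 (hPts s fun 𝔞 h𝔞 => by_contra fun h => hcon ⟨𝔞, h𝔞, h⟩)
  haveI := hPP 𝔞 h𝔞
  obtain ⟨Q', -, hQ'p, hQ'o⟩ := Ideal.exists_ideal_over_prime_of_isIntegral (S := A ⧸ P)
    𝔞 (⊥ : Ideal (A ⧸ P)) (by
      intro t ht
      rw [Ideal.mem_comap, Ideal.mem_bot, IsScalarTower.algebraMap_apply S A (A ⧸ P),
        Ideal.Quotient.algebraMap_eq, Ideal.Quotient.eq_zero_iff_mem] at ht
      have : t ∈ P.comap (algebraMap S A) := ht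
      rw [hcomap, Ideal.mem_bot] at this
      rw [this]
      exact zero_mem _)
  have hq := hpts (Q'.comap (Ideal.Quotient.mk P)) (Ideal.comap_isPrime _ _) (by
      intro a ha
      rw [Ideal.mem_comap, Ideal.Quotient.eq_zero_iff_mem.mpr (hAnnP ha)]
      exact zero_mem _) (by
      rw [Ideal.comap_comap]
      have : (Ideal.Quotient.mk P).comp (algebraMap S A) = algebraMap S (A ⧸ P) := rfl
      rw [this, hQ'o]
      exact h𝔞)
  have hbQ' : bbar ∈ Q' := hq hb
  have hsQ' : algebraMap S (A ⧸ P) s ∈ Q' := by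
    have h1 : Ideal.span {bbar} ≤ Q' := by
      rw [Ideal.span_le, Set.singleton_subset_iff]
      exact hbQ'
    exact h1 hs
  apply hs𝔞
  rw [← hQ'o]
  exact hsQ'

end Main

end Fermat.Agent.S43.Patch.Support
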